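import Fermat.Agent.GAL.Gauss.Ring

/-!
# S36R / R-KS, file 1: the derivation `θ = t d/dt` on Laurent series

`theta : Derivation R (LaurentSeries R) (LaurentSeries R)`, `coeff n (θ x) = n * coeff n x`, and its
compatibility with change of coefficients, `t ↦ t^d`, `t ↦ c t`.
-/

set_option autoImplicit false

noncomputable section

namespace Fermat.Agent.S36R.KS

open ModularCurve

variable {R : Type*} [CommRing R]

/-- underlying function of `theta`. -/
def thetaFun (x : LaurentSeries R) : LaurentSeries R where
  coeff n := (n : R) * x.coeff n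
  isPWO_support' := x.isPWO_support.mono fun n hn => by
    simp only [Function.mem_support, ne_eq, HahnSeries.mem_support] at hn ⊢
    intro h
    exact hn (by rw [h, mul_zero])

@[simp] theorem thetaFun_coeff (x : LaurentSeries R) (n : ℤ) :
    (thetaFun x).coeff n = (n : R) * x.coeff n := rfl

theorem thetaFun_mul (x y : LaurentSeries R) :
    thetaFun (x * y) = x * thetaFun y + y * thetaFun x := by
  ext n
  have hx : (thetaFun x).support ⊆ x.support := fun n hn => by
    simp only [HahnSeries.mem_support, thetaFun_coeff, ne_eq] at hn ⊢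
    intro h
    exact hn (by rw [h, mul_zero])
  have hy : (thetaFun y).support ⊆ y.support := fun n hn => by
    simp only [HahnSeries.mem_support, thetaFun_coeff, ne_eq] at hn ⊢
    intro h
    exact hn (by rw [h, mul_zero])
  rw [thetaFun_coeff, HahnSeries.coeff_add, HahnSeries.coeff_mul,
    HahnSeries.coeff_mul_right' (s := y.support) y.isPWO_support hy,
    mul_comm y, HahnSeries.coeff_mul_left' (s := x.support) x.isPWO_support hx,
    Finset.mul_sum, ← Finset.sum_add_distrib]
  refine Finset.sum_congr rfl fun ij hij => ?_
  have h := (Finset.mem_antidiagonal.mp hij).2.2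
  rw [thetaFun_coeff, thetaFun_coeff, ← h]
  push_cast
  ring

theorem algebraMap_eq_C (c : R) : algebraMap R (LaurentSeries R) c = HahnSeries.C c := by
  have h1 : algebraMap R (PowerSeries R) c = PowerSeries.C c := by simp
  rw [HahnSeries.algebraMap_apply', h1, HahnSeries.ofPowerSeries_C]

/-- `θ = t d/dt`. -/
def theta : Derivation R (LaurentSeries R) (LaurentSeries R) where
  toFun := thetaFun
  map_add' x y := by ext n; simp [mul_add]
  map_smul' c x := by
    ext n
    rw [RingHom.id_apply, thetaFun_coeff]
    erw [HahnSeries.coeff_smul]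
    rw [Algebra.smul_def, algebraMap_eq_C, HahnSeries.C_mul_eq_smul,
      HahnSeries.coeff_smul, thetaFun_coeff, smul_eq_mul, smul_eq_mul]
    ring
  map_one_eq_zero' := by
    ext n
    show (thetaFun (1 : LaurentSeries R)).coeff n = 0
    rw [thetaFun_coeff, HahnSeries.coeff_one]
    split_ifs with h
    · subst h; simp
    · simp
  leibniz' x y := by
    show thetaFun (x * y) = x • thetaFun y + y • thetaFun x
    rw [thetaFun_mul, smul_eq_mul, smul_eq_mul]

/-- `θ` again, but the `R`-module structure of the target is `Algebra.toModule`, so that it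
can be fed to lemmas on `Derivation k L L` for an abstract `k`-algebra `L`. -/
def thetaAlg : @Derivation R (LaurentSeries R) (LaurentSeries R) _ _ _ _ _ Algebra.toModule :=
  letI : Module R (LaurentSeries R) := Algebra.toModule
  { toFun := thetaFun
    map_add' := fun x y => by ext n; simp [mul_add]
    map_smul' := fun c x => by
      ext n
      rw [RingHom.id_apply, thetaFun_coeff, Algebra.smul_def, Algebra.smul_def, algebraMap_eq_C,
        HahnSeries.C_mul_eq_smul, HahnSeries.C_mul_eq_smul, HahnSeries.coeff_smul,
        HahnSeries.coeff_smul, thetaFun_coeff, smul_eq_mul, smul_eq_mul]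
      ring
    map_one_eq_zero' := by
      ext n
      show (thetaFun (1 : LaurentSeries R)).coeff n = 0
      rw [thetaFun_coeff, HahnSeries.coeff_one]
      split_ifs with h
      · subst h; simp
      · simp
    leibniz' := fun x y => by
      show thetaFun (x * y) = x • thetaFun y + y • thetaFun x
      rw [thetaFun_mul, smul_eq_mul, smul_eq_mul] }

theorem thetaAlg_apply (x : LaurentSeries R) :
    (letI : Module R (LaurentSeries R) := Algebra.toModule; thetaAlg x) = theta x := rfl

@[simp] theorem theta_coeff (x : LaurentSeries R) (n : ℤ) :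
    (theta x).coeff n = (n : R) * x.coeff n := rfl

theorem theta_C (c : R) : theta (HahnSeries.C c : LaurentSeries R) = 0 := by
  rw [← algebraMap_eq_C]
  exact theta.map_algebraMap c

theorem theta_single (n : ℤ) (c : R) :
    theta (HahnSeries.single n c : LaurentSeries R) = HahnSeries.single n ((n : R) * c) := by
  ext m
  rw [theta_coeff, HahnSeries.coeff_single, HahnSeries.coeff_single]
  split_ifs with h
  · rw [h]
  · rw [mul_zero]

theorem theta_natCast (n : ℕ) : theta (n : LaurentSeries R) = 0 := theta.map_natCast n

theorem theta_mul (x y : LaurentSeries R) : theta (x * y) = x * theta y + y * theta x :=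
  theta.leibniz x y

theorem theta_pow (x : LaurentSeries R) (n : ℕ) :
    theta (x ^ n) = (n : LaurentSeries R) * x ^ (n - 1) * theta x := by
  rw [theta.leibniz_pow, nsmul_eq_mul, smul_eq_mul, mul_assoc]

/-- `θ` commutes with a change of coefficients. -/
theorem theta_coeffMap {S : Type*} [CommRing S] (f : R →+* S) (x : LaurentSeries R) :
    theta (coeffMap f x) = coeffMap f (theta x) := by
  ext n
  rw [theta_coeff, coeffMap_coeff, coeffMap_coeff, theta_coeff, map_mul, map_intCast]

/-- `θ (x(t^d)) = d (θ x)(t^d)`. -/
theorem theta_qExpand (d : ℕ) [NeZero d] (x : LaurentSeries R) :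
    theta (qExpand R d x) = (d : LaurentSeries R) * qExpand R d (theta x) := by
  have hd : (d : LaurentSeries R) = HahnSeries.C (d : R) := by rw [map_natCast]
  ext n
  rw [theta_coeff, hd, HahnSeries.C_mul_eq_smul, HahnSeries.coeff_smul, smul_eq_mul]
  by_cases h : (d : ℤ) ∣ n
  · obtain ⟨m, rfl⟩ := h
    rw [qExpand_coeff_mul, qExpand_coeff_mul, theta_coeff]
    push_cast
    ring
  · rw [qExpand_coeff_of_not_dvd d _ h, qExpand_coeff_of_not_dvd d _ h, mul_zero, mul_zero]

/-- `θ` commutes with `t ↦ c t`. -/
theorem theta_twist (c : Rˣ) (x : LaurentSeries R) :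
    theta (S28.twist c x) = S28.twist c (theta x) := by
  ext n
  rw [theta_coeff, S28.twist_coeff, S28.twist_coeff, theta_coeff]
  ring

/-- quotient rule in the form used for the Gauss ring. -/
theorem theta_of_mul_eq {g x z : LaurentSeries R} (h : g * x = z) :
    g ^ 2 * theta x = g * theta z - z * theta g := by
  have h1 : theta z = g * theta x + x * theta g := by rw [← h, theta_mul]
  rw [h1, ← h]
  ring

end Fermat.Agent.S36R.KS
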