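import Mathlib
import Fermat.Agent.GAL.FF.Separating
import Fermat.Agent.S24.DifferentialRH

/-!
# S36R / R-KS, file 4: derivations of a function field with values in a bigger field (abstract)

`F / k` a function field with separating variable `x`, `φ : F →ₐ[k] L` an embedding in a field `L`
with a `k`-derivation `d` such that `d (φ x) ≠ 0`.  The relation `d (φ u) = φ g * d (φ x)` is
equivalent to `du = g dx` in `Ω[F⁄k]`.  In characteristic zero this computes `ord_v g`.
All statements are free of Kaehler differentials (instance search for `Ω[↥F⁄K]`, `F` an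
`IntermediateField`, times out).
-/

set_option autoImplicit false
set_option linter.style.haveILetI false

noncomputable section

namespace Fermat.Agent.S36R.KS

open KaehlerDifferential IntermediateField AlgebraicCurve

variable {k F L : Type*} [Field k] [Field F] [Algebra k F] [Field L] [Algebra k L]

/-- `du = g dx ⟹ d (φ u) = φ g * d (φ x)`. -/
theorem deriv_eq_of_D_eq (φ : F →ₐ[k] L) (d : Derivation k L L) {x u g : F}
    (h : D k F u = g • D k F x) : d (φ u) = φ g * d (φ x) := by
  letI : Algebra F L := φ.toRingHom.toAlgebra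
  haveI : IsScalarTower k F L := IsScalarTower.of_algebraMap_eq fun a => (φ.commutes a).symm
  have h1 := congrArg (d.compAlgebraMap F).liftKaehlerDifferential h
  rw [map_smul, Derivation.liftKaehlerDifferential_comp_D,
    Derivation.liftKaehlerDifferential_comp_D] at h1
  exact h1

/-- existence of `g = du/dx`. -/
theorem exists_deriv_eq (φ : F →ₐ[k] L) (d : Derivation k L L) (x : F)
    [Algebra.IsSeparable k⟮x⟯ F] (u : F) : ∃ g : F, d (φ u) = φ g * d (φ x) := by
  obtain ⟨g, hg⟩ := GAL.FF.exists_eq_smul_D (k := k) x (D k F u)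
  exact ⟨g, deriv_eq_of_D_eq φ d hg⟩

/-- `d (φ u) = φ g * d (φ x) ⟹ du = g dx`. -/
theorem D_eq_of_deriv_eq (φ : F →ₐ[k] L) (d : Derivation k L L) (x : F)
    [Algebra.IsSeparable k⟮x⟯ F] (hx : d (φ x) ≠ 0) {u g : F} (h : d (φ u) = φ g * d (φ x)) :
    D k F u = g • D k F x := by
  obtain ⟨g', hg'⟩ := GAL.FF.exists_eq_smul_D (k := k) x (D k F u)
  have h1 := deriv_eq_of_D_eq φ d hg'
  rw [h] at h1
  have h2 : g = g' := φ.toRingHom.injective (mul_right_cancel₀ hx h1)
  rw [h2, hg']

/-- **order of `du/dx`** at a place where `u` and `x` are regular, characteristic zero. -/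
theorem ord_of_deriv_eq [IsAlgClosed k] [CharZero k] (φ : F →ₐ[k] L) (d : Derivation k L L) (x : F)
    (hxt : Transcendental k x) [FiniteDimensional k⟮x⟯ F] (hx : d (φ x) ≠ 0) {u g : F}
    (h : d (φ u) = φ g * d (φ x)) (v : Place k F) (c cx : k)
    (hu : 0 < v.ord (u - algebraMap k F c)) (hxv : 0 < v.ord (x - algebraMap k F cx)) :
    v.ord g = v.ord (u - algebraMap k F c) - v.ord (x - algebraMap k F cx) := by
  have : CharZero k⟮x⟯ := charZero_of_injective_algebraMap (algebraMap k k⟮x⟯).injective
  have hsep : Algebra.IsSeparable k⟮x⟯ F := Algebra.IsAlgebraic.isSeparable_of_perfectField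
  have hD := D_eq_of_deriv_eq φ d x hx h
  have htr := S24.Differential.trdeg_eq_one x hxt
  have hres := S24.Differential.hres x hxt v
  have h1 := S24.Differential.ordDifferential_D_of_pos v htr hres u c hu
  have h2 := S24.Differential.ordDifferential_D_of_pos v htr hres x cx hxv
  have hut : Transcendental k (u - algebraMap k F c) :=
    S24.Differential.transcendental_of_ord_ne_zero v hu.ne'
  have hDu : D k F u ≠ 0 := by
    have h3 := S24.Differential.D_ne_zero _ hut
      (S24.Differential.isAlgebraic_adjoin_of_transcendental htr hut)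
    rwa [map_sub, Derivation.map_algebraMap, sub_zero] at h3
  have hg0 : g ≠ 0 := by
    rintro rfl
    exact hDu (by rw [hD, zero_smul])
  rw [hD, S24.Differential.ordDifferential_smul v htr hg0 (S24.Differential.D_ne_zero' x hxt), h2]
    at h1
  omega

end Fermat.Agent.S36R.KS
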