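import Fermat.Agent.GAL.RED.Main
import Fermat.Agent.DR.Gal.Defs
import Fermat.Agent.Lib.PlaceEval
import Fermat.Agent.GAL.Tors.Desc.PlacesRam

/-!
# S36R / R-KS, file 7: residue discs (abstract, `RedData` + `IsRedMap`)

`r : Place K F → Place k Fb` the reduction map.  For a place `P` of the reduction, the "residue
disc" is `r ⁻¹ P`.

* `ord_red_eq_sum`-type statements: `ord_P (red w) = ∑_{r Q = P} ord_Q w`;
* `fibre_simple`: if `ū - c` has a simple zero at `P` (`u` regular on the disc) then for every `Q`
  in the disc `u - u(Q)` has a simple zero at `Q`.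
-/

set_option autoImplicit false

noncomputable section

namespace Fermat.Agent.S36R.KS

open AlgebraicCurve Fermat.Agent.Lib.RR Fermat.Agent.GAL.RED Fermat.Agent.DR.Gal

variable {K F k Fb : Type*} [Field K] [Field F] [Algebra K F] [Field k] [Field Fb] [Algebra k Fb]
variable [IsFF K F] [IsAlgClosed K] [IsFF k Fb] [IsAlgClosed k]
variable {R : RedData K F k Fb} {r : Place K F → Place k Fb}

open Classical

/-- the coefficient of `r_* D` at `P`. -/
theorem mapDomain_apply_eq_sum (D : Divisor K F) (P : Place k Fb) :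
    Finsupp.mapDomain r D P = ∑ Q ∈ D.support, if r Q = P then D Q else 0 := by
  rw [Finsupp.mapDomain, Finsupp.sum, Finsupp.finsetSum_apply]
  refine Finset.sum_congr rfl fun Q _ => ?_
  rw [Finsupp.single_apply]

/-- `ord_P (red w) = 0` if `w` has neither zero nor pole in the residue disc of `P`. -/
theorem ord_red_eq_zero (hr : IsRedMap R r) {w : F} (hw : R.red w ≠ 0) (P : Place k Fb)
    (h : ∀ Q, r Q = P → Q.ord w = 0) : P.ord (R.red w) = 0 := by
  have h1 := DFunLike.congr_fun (hr.map_divOf w hw) P
  rw [divOf_apply, mapDomain_apply_eq_sum] at h1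
  rw [← h1]
  refine Finset.sum_eq_zero fun Q _ => ?_
  split_ifs with hQ
  · rw [divOf_apply, h Q hQ]
  · rfl

/-- `ord_Q w ≤ ord_P (red w)` if `w` has no pole in the residue disc of `P = r Q`. -/
theorem ord_le_ord_red (hr : IsRedMap R r) {w : F} (hw : R.red w ≠ 0) (P : Place k Fb)
    (h : ∀ Q, r Q = P → 0 ≤ Q.ord w) (Q : Place K F) (hQ : r Q = P) :
    Q.ord w ≤ P.ord (R.red w) := by
  have h1 := DFunLike.congr_fun (hr.map_divOf w hw) P
  rw [divOf_apply, mapDomain_apply_eq_sum] at h1
  rw [← h1]
  by_cases hQs : Q ∈ (divOf (K := K) w).support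
  · have h2 := Finset.single_le_sum (f := fun Q' => if r Q' = P then divOf (K := K) w Q' else 0)
      (fun Q' _ => by
        show 0 ≤ if r Q' = P then divOf (K := K) w Q' else 0
        split_ifs with hQ'
        · rw [divOf_apply]; exact h Q' hQ'
        · exact le_rfl) hQs
    simpa [hQ] using h2
  · rw [Finsupp.notMem_support_iff, divOf_apply] at hQs
    rw [hQs]
    refine Finset.sum_nonneg fun Q' _ => ?_
    split_ifs with hQ'
    · rw [divOf_apply]; exact h Q' hQ'
    · exact le_rfl

/-- `r` maps the poles of `y` to poles of `ȳ` as soon as `r_* (y)_∞ = (ȳ)_∞`. -/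
theorem mem_of_map_poleDiv {y : F} {yb : Fb}
    (hmap : Finsupp.mapDomain r (poleDiv (K := K) y) = poleDiv (K := k) yb)
    (Q : Place K F) (h : yb ∈ (r Q).toValuationSubring) : y ∈ Q.toValuationSubring := by
  by_contra hy
  have hy' : Q.ord y < 0 := by
    by_contra h0
    exact hy ((Lib.PlaceEval.mem_iff Q).2 (not_lt.1 h0))
  have h1 := DFunLike.congr_fun hmap (r Q)
  rw [mapDomain_apply_eq_sum, poleDiv_apply,
    max_eq_right (by have := (Lib.PlaceEval.mem_iff (r Q)).1 h; omega)] at h1
  have hQs : Q ∈ (poleDiv (K := K) y).support := by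
    rw [Finsupp.mem_support_iff, poleDiv_apply]
    have : max (-Q.ord y) 0 = -Q.ord y := max_eq_left (by omega)
    omega
  have h2 := Finset.single_le_sum
    (f := fun Q' => if r Q' = r Q then poleDiv (K := K) y Q' else 0)
    (fun Q' _ => by
      show 0 ≤ if r Q' = r Q then poleDiv (K := K) y Q' else 0
      split_ifs
      · rw [poleDiv_apply]; exact le_max_right _ _
      · exact le_rfl) hQs
  rw [h1] at h2
  simp only [if_true, poleDiv_apply] at h2
  have : -Q.ord y ≤ max (-Q.ord y) 0 := le_max_left _ _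
  omega

/-- **residue discs**: if `ū - c` has a simple zero at the (non cuspidal) place `P`, then every `Q`
in the residue disc of `P` is non cuspidal and `u - u(Q)` has a simple zero at `Q`. -/
theorem fibre_simple (hr : IsRedMap R r) {y : F} {yb : Fb}
    (hmap : Finsupp.mapDomain r (poleDiv (K := K) y) = poleDiv (K := k) yb)
    {u : F} (hu : u ∈ regOff K y) (huO : u ∈ R.O) (P : Place k Fb)
    (hP : yb ∈ P.toValuationSubring) (c : k)
    (h1 : P.ord (R.red u - algebraMap k Fb c) = 1) (Q : Place K F) (hQ : r Q = P) :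
    y ∈ Q.toValuationSubring ∧ ∃ a : K, Q.ord (u - algebraMap K F a) = 1 := by
  have hy : ∀ Q', r Q' = P → y ∈ Q'.toValuationSubring := fun Q' hQ' =>
    mem_of_map_poleDiv hmap Q' (by rw [hQ']; exact hP)
  have huQ : ∀ Q', r Q' = P → u ∈ Q'.toValuationSubring := fun Q' hQ' => hu Q' (hy Q' hQ')
  refine ⟨hy Q hQ, ?_⟩
  -- `red u` is not constant
  have hnc : ∀ b : k, R.red u - algebraMap k Fb b ≠ 0 := by
    intro b hb
    have h2 : R.red u - algebraMap k Fb c = algebraMap k Fb (b - c) := by
      rw [map_sub]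
      linear_combination hb
    rw [h2, ord_algebraMap] at h1
    exact zero_ne_one h1
  set a : K := Lib.PlaceEval.ev Q u with ha
  have hpos : 0 < Q.ord (u - algebraMap K F a) := by
    rcases Lib.PlaceEval.ord_sub_ev_pos Q ((Lib.PlaceEval.mem_iff Q).1 (huQ Q hQ)) with h | h
    · exfalso
      apply hnc (R.redA a)
      rw [← R.red_algebraMap', ← h, sub_self]
    · exact h
  have hreg : ∀ Q', r Q' = P → 0 ≤ Q'.ord (u - algebraMap K F a) := fun Q' hQ' =>
    (Lib.PlaceEval.mem_iff Q').1 (sub_mem (huQ Q' hQ') (Q'.algebraMap_mem' a))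
  refine ⟨a, ?_⟩
  by_cases haA : a ∈ R.A
  · have hw : R.red (u - algebraMap K F a) = R.red u - algebraMap k Fb (R.redA a) := by
      rw [R.red_sub huO (R.algebraMap_mem a haA), R.red_algebraMap haA]
    have hw0 : R.red (u - algebraMap K F a) ≠ 0 := by rw [hw]; exact hnc _
    have h2 := ord_le_ord_red hr hw0 P hreg Q hQ
    rw [hw] at h2
    by_cases hac : R.redA a = c
    · rw [hac, h1] at h2
      omega
    · exfalso
      have h3 : R.red u - algebraMap k Fb (R.redA a) =
          algebraMap k Fb (c - R.redA a) + (R.red u - algebraMap k Fb c) := by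
        rw [map_sub]; ring
      have h4 : P.ord (R.red u - algebraMap k Fb (R.redA a)) = 0 := by
        rw [h3]
        exact Fermat.Agent.GAL.Desc.PlacesRam_ord_const_add P (sub_ne_zero.2 (Ne.symm hac))
          (Or.inr (by rw [h1]; exact one_pos))
      omega
  · exfalso
    have ha0 : a ≠ 0 := by
      rintro h
      exact haA (h ▸ R.A.zero_mem)
    have hainv : a⁻¹ ∈ R.A := (R.A.mem_or_inv_mem a).resolve_left haA
    have hred0 : R.redA a⁻¹ = 0 := by
      by_contra h
      have := (R.redA_ne_zero_iff.1 h).2.2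
      rw [inv_inv] at this
      exact haA this
    set w : F := 1 - algebraMap K F a⁻¹ * u with hw
    have hwe : w = algebraMap K F (-a⁻¹) * (u - algebraMap K F a) := by
      have h3 : algebraMap K F a⁻¹ * algebraMap K F a = 1 := by
        rw [← map_mul, inv_mul_cancel₀ ha0, map_one]
      rw [hw, map_neg]
      linear_combination -h3
    have hmem : algebraMap K F a⁻¹ * u ∈ R.O := mul_mem (R.algebraMap_mem _ hainv) huO
    have hwred : R.red w = 1 := by
      rw [hw, R.red_sub R.O.one_mem hmem, R.red_one, R.red_mul (R.algebraMap_mem _ hainv) huO,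
        R.red_algebraMap hainv, hred0, map_zero, zero_mul, sub_zero]
    have hc0 : algebraMap K F (-a⁻¹) ≠ 0 := by simpa using ha0
    have hord : ∀ Q' : Place K F, Q'.ord w = Q'.ord (u - algebraMap K F a) := by
      intro Q'
      by_cases hz : u - algebraMap K F a = 0
      · rw [hwe, hz, mul_zero]
      · rw [hwe, Q'.ord_mul hc0 hz, ord_algebraMap, zero_add]
    have h2 := ord_le_ord_red hr (w := w) (by rw [hwred]; exact one_ne_zero) P
      (fun Q' hQ' => by rw [hord]; exact hreg Q' hQ') Q hQ
    rw [hwred, Place.ord_one, hord] at h2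
    omega

end Fermat.Agent.S36R.KS
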