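import Fermat.Agent.S36R.KS.Theta
import Fermat.Agent.DR.Conc.Series

/-!
# S36R / R-KS, file 2: `θ` and the Gauss ring

* `theta_mem_gRing`, `gRes_theta`: the Gauss ring `gRing A ⊆ K((t))` is stable under `θ = t d/dt`
  and the residue map commutes with `θ`.
* `twist_sub_mem_gRing`, `gRes_twist_sub`: for a unit `c` of `A` with `c ≡ 1`, `c ≠ 1`:
  `(x(c t) - x(t)) / (c - 1)` is in the Gauss ring, with residue `θ x̄`.
-/

set_option autoImplicit false

noncomputable section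

namespace Fermat.Agent.S36R.KS

open ModularCurve Fermat.Agent.GAL.Gauss Fermat.Agent.DR.Conc

variable {K : Type*} [Field K] (A : ValuationSubring K)

theorem theta_iA (z : LaurentSeries ↥A) : theta (iA A z) = iA A (theta z) := theta_coeffMap _ _

theorem theta_pA (z : LaurentSeries ↥A) : theta (pA A z) = pA A (theta z) := theta_coeffMap _ _

theorem theta_mem_gRing {x : LaurentSeries K} (hx : x ∈ gRing A) : theta x ∈ gRing A := by
  obtain ⟨z, g, hg, h⟩ := hx
  refine ⟨g * theta z - z * theta g, g ^ 2, by rw [map_pow]; exact pow_ne_zero _ hg, ?_⟩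
  rw [map_pow, theta_of_mul_eq h, map_sub, map_mul, map_mul, theta_iA, theta_iA]

theorem gRes_theta {x : LaurentSeries K} (hx : x ∈ gRing A) :
    gRes A ⟨theta x, theta_mem_gRing A hx⟩ = theta (gRes A ⟨x, hx⟩) := by
  obtain ⟨z, g, hg, h⟩ := (mem_gRing_iff A).mp hx
  rw [gRes_eq A ⟨theta x, _⟩ (z := g * theta z - z * theta g) (g := g ^ 2)
      (by rw [map_pow]; exact pow_ne_zero _ hg)
      (by
        show iA A (g ^ 2) * theta x = _
        rw [map_pow, theta_of_mul_eq h, map_sub, map_mul, map_mul, theta_iA, theta_iA]),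
    gRes_eq A ⟨x, hx⟩ hg h]
  have h2 : pA A g * (pA A z / pA A g) = pA A z := by field_simp
  have h3 := theta_of_mul_eq h2
  rw [map_sub, map_mul, map_mul, map_pow, ← theta_pA, ← theta_pA, ← h3,
    mul_div_cancel_left₀ _ (pow_ne_zero 2 hg)]

/-- the "`q`-number" `(u^n - 1) / (u - 1)` in a commutative ring, `n : ℤ`. -/
theorem exists_qNumber {R S : Type*} [CommRing R] [CommRing S] (f : R →+* S) (u : Rˣ)
    (hu : f u = 1) (n : ℤ) :
    ∃ c : R, ((u : R) - 1) * c = ((u ^ n : Rˣ) : R) - 1 ∧ f c = n := by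
  induction n using Int.induction_on with
  | zero => exact ⟨0, by simp, by simp⟩
  | succ n ih =>
    obtain ⟨c, h1, h2⟩ := ih
    refine ⟨u * c + 1, ?_, by rw [map_add, map_mul, hu, h2]; simp⟩
    rw [zpow_add_one, Units.val_mul]
    linear_combination (u : R) * h1
  | pred n ih =>
    obtain ⟨c, h1, h2⟩ := ih
    have hu' : f ((u⁻¹ : Rˣ) : R) = 1 := by
      have h3 : f ((u⁻¹ : Rˣ) : R) * f u = 1 := by rw [← map_mul]; simp
      rwa [hu, mul_one] at h3
    refine ⟨((u⁻¹ : Rˣ) : R) * (c - 1), ?_, by rw [map_mul, map_sub, hu', h2]; simp⟩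
    rw [zpow_sub_one, Units.val_mul]
    have h4 : ((u⁻¹ : Rˣ) : R) * u = 1 := by simp
    linear_combination ((u⁻¹ : Rˣ) : R) * h1 - h4

/-- the divided difference `(z(u t) - z(t)) / (u - 1)` on `R((t))`. -/
theorem exists_divDiff {R S : Type*} [CommRing R] [CommRing S] (f : R →+* S) (u : Rˣ)
    (hu : f u = 1) (z : LaurentSeries R) :
    ∃ w : LaurentSeries R, HahnSeries.C ((u : R) - 1) * w = S28.twist u z - z ∧
      coeffMap f w = theta (coeffMap f z) := by
  choose c hc1 hc2 using exists_qNumber f u hu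
  refine ⟨⟨fun n => c n * z.coeff n, z.isPWO_support.mono fun n hn => ?_⟩, ?_, ?_⟩
  · simp only [Function.mem_support, ne_eq, HahnSeries.mem_support] at hn ⊢
    intro h
    exact hn (by rw [h, mul_zero])
  · ext n
    rw [HahnSeries.C_mul_eq_smul, HahnSeries.coeff_smul, HahnSeries.coeff_sub, S28.twist_coeff,
      smul_eq_mul, ← mul_assoc, hc1]
    ring
  · ext n
    rw [coeffMap_coeff, theta_coeff, coeffMap_coeff, map_mul, hc2]

/-- auxiliary: explicit presentation of the divided difference of `x = z / g`. -/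
theorem twist_sub_aux {c : K} (hc0 : c ≠ 0) (hc : c ∈ A) (hc' : c⁻¹ ∈ A)
    (h1 : IsLocalRing.residue ↥A ⟨c, hc⟩ = 1) (hne : c ≠ 1) {x : LaurentSeries K}
    {z g : LaurentSeries ↥A} (hg : pA A g ≠ 0) (h : iA A g * x = iA A z) :
    ∃ n d : LaurentSeries ↥A, pA A d = pA A g ^ 2 ∧
      pA A n = pA A g * theta (pA A z) - pA A z * theta (pA A g) ∧
      iA A d * (HahnSeries.C (c - 1)⁻¹ * (S24.twist c hc0 x - x)) = iA A n := by
  set u := Series_unit A hc0 hc hc' with hu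
  have hu1 : IsLocalRing.residue ↥A (u : ↥A) = 1 := h1
  obtain ⟨wz, hz1, hz2⟩ := exists_divDiff (IsLocalRing.residue ↥A) u hu1 z
  obtain ⟨wg, hg1, hg2⟩ := exists_divDiff (IsLocalRing.residue ↥A) u hu1 g
  have hp : ∀ y : LaurentSeries ↥A, pA A (S28.twist u y) = pA A y := by
    intro y
    have hu2 : Units.map (IsLocalRing.residue ↥A : ↥A →* IsLocalRing.ResidueField ↥A) u = 1 :=
      Units.ext h1
    rw [Series_pA_twist, hu2, Series_twist_one]
  refine ⟨g * wz - z * wg, g * S28.twist u g, by rw [map_mul, hp, sq], ?_, ?_⟩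
  · rw [map_sub, map_mul, map_mul]
    show _ * coeffMap _ wz - _ * coeffMap _ wg = _
    rw [hz2, hg2]
    rfl
  · have hC : iA A (HahnSeries.C ((u : ↥A) - 1)) = HahnSeries.C (c - 1) := by
      rw [iA, HahnSeries.C_apply, HahnSeries.C_apply, coeffMap_single]
      rfl
    have hz3 : HahnSeries.C (c - 1) * iA A wz = S24.twist c hc0 (iA A z) - iA A z := by
      rw [← hC, ← map_mul, hz1, map_sub, Series_iA_twist]
    have hg3 : HahnSeries.C (c - 1) * iA A wg = S24.twist c hc0 (iA A g) - iA A g := by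
      rw [← hC, ← map_mul, hg1, map_sub, Series_iA_twist]
    have hcc : (HahnSeries.C (c - 1)⁻¹ : LaurentSeries K) * HahnSeries.C (c - 1) = 1 := by
      rw [← map_mul, inv_mul_cancel₀ (sub_ne_zero.mpr hne), map_one]
    have hz4 : iA A wz = HahnSeries.C (c - 1)⁻¹ * (S24.twist c hc0 (iA A z) - iA A z) := by
      rw [← hz3, ← mul_assoc, hcc, one_mul]
    have hg4 : iA A wg = HahnSeries.C (c - 1)⁻¹ * (S24.twist c hc0 (iA A g) - iA A g) := by
      rw [← hg3, ← mul_assoc, hcc, one_mul]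
    rw [map_sub, map_mul, map_mul, map_mul, hz4, hg4, Series_iA_twist, ← h, map_mul]
    ring

/-- for a unit `c ≡ 1`, `c ≠ 1` of `A`: `(x(c t) - x(t)) / (c - 1)` is in the Gauss ring. -/
theorem twist_sub_mem_gRing {c : K} (hc0 : c ≠ 0) (hc : c ∈ A) (hc' : c⁻¹ ∈ A)
    (h1 : IsLocalRing.residue ↥A ⟨c, hc⟩ = 1) (hne : c ≠ 1) {x : LaurentSeries K}
    (hx : x ∈ gRing A) :
    HahnSeries.C (c - 1)⁻¹ * (S24.twist c hc0 x - x) ∈ gRing A := by
  obtain ⟨z, g, hg, h⟩ := hx
  obtain ⟨n, d, hd, -, hnd⟩ := twist_sub_aux A hc0 hc hc' h1 hne hg h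
  exact ⟨n, d, by rw [hd]; exact pow_ne_zero _ hg, hnd⟩

/-- ... and its residue is `θ x̄`. -/
theorem gRes_twist_sub {c : K} (hc0 : c ≠ 0) (hc : c ∈ A) (hc' : c⁻¹ ∈ A)
    (h1 : IsLocalRing.residue ↥A ⟨c, hc⟩ = 1) (hne : c ≠ 1) {x : LaurentSeries K}
    (hx : x ∈ gRing A) :
    gRes A ⟨_, twist_sub_mem_gRing A hc0 hc hc' h1 hne hx⟩ = theta (gRes A ⟨x, hx⟩) := by
  obtain ⟨z, g, hg, h⟩ := (mem_gRing_iff A).mp hx
  obtain ⟨n, d, hd, hn, hnd⟩ := twist_sub_aux A hc0 hc hc' h1 hne hg h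
  rw [gRes_eq A ⟨_, twist_sub_mem_gRing A hc0 hc hc' h1 hne hx⟩ (z := n) (g := d)
      (by rw [hd]; exact pow_ne_zero _ hg) hnd, gRes_eq A ⟨x, hx⟩ hg h, hd, hn]
  have h2 : pA A g * (pA A z / pA A g) = pA A z := by field_simp
  rw [← theta_of_mul_eq h2, mul_div_cancel_left₀ _ (pow_ne_zero 2 hg)]

end Fermat.Agent.S36R.KS
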