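import Fermat.Agent.S36R.KS.Ord0
import Fermat.Agent.S36R.KS.Fibre
import Fermat.Agent.S36R.KS.ThetaGauss
import Fermat.Agent.DR.Conc.Level
import Fermat.Agent.GAL.Igusa.Final

/-!
# S36R / R-KS, file 8a: Kodaira-Spencer in characteristic `q`, lifted form

`𝕜` = residue field of `A ⊆ Kbar`, `M` neat and invertible in `𝕜`, `E = Igusa.E 𝕜 M ⊆ 𝕜((t))`.
`u ∈ FN M` Gauss-integral, regular outside the cusps, `ū - c` a uniformiser at the non cuspidal
place `P`, `θ ū ≠ 0`: then `κ̄(ū)` is a unit at `P`.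
-/

set_option autoImplicit false

noncomputable section

namespace Fermat.Agent.S36R.KS

open ModularCurve AlgebraicCurve Fermat.Agent.S24 Fermat.Agent.GAL Fermat.Agent.GAL.Gauss
  Fermat.Agent.GAL.RED Fermat.Agent.DR.Gal Fermat.Agent.DR.Conc

variable (A : ValuationSubring Kbar) (M : ℕ) [NeZero M]
  (hM : ((M : ℕ) : IsLocalRing.ResidueField ↥A) ≠ 0)

set_option quotPrecheck false in
local notation "𝕜" => IsLocalRing.ResidueField ↥A

/-- (M1) reduction of `g = du/dj`.  If `u ∈ FN M` is Gauss-integral and `θ u = g θ j` then `g` is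
Gauss-integral and `θ ū = ḡ θ j̄`.
PROOF: `(g : K((t))) = θ u * (θ j)⁻¹`; `theta_mem_gRing`, `gRes_theta`; `θ j = iA (θ j_A)` has
residue `θ j̄ ≠ 0` (`theta_jqModC_ne_zero`), so its inverse is in `gRing`
(`inv_mem_gRing_of_gRes_ne_zero`, `gRes_inv`); `mem_RM_O_iff`, `coe_RM_red`. -/
theorem red_dj (u g : FN M) (huO : u ∈ (RM A M hM).O)
    (hg : theta (u : LaurentSeries Kbar) = (g : LaurentSeries Kbar) * theta (jqModC Kbar)) :
    g ∈ (RM A M hM).O ∧
      theta (((RM A M hM).red u : Igusa.E 𝕜 M) : LaurentSeries 𝕜) =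
        (((RM A M hM).red g : Igusa.E 𝕜 M) : LaurentSeries 𝕜) * theta (jqModC 𝕜) := by
  have hu : (u : LaurentSeries Kbar) ∈ gRing A := (mem_RM_O_iff A M hM u).1 huO
  have hθu := theta_mem_gRing A hu
  have hj : theta (jqModC Kbar) = iA A (theta (jqModC ↥A)) := by rw [← theta_iA, iA_jqModC]
  have hθj : theta (jqModC Kbar) ∈ gRing A := by rw [hj]; exact iA_mem_gRing A _
  have hresj : gRes A ⟨_, hθj⟩ = theta (jqModC 𝕜) := by
    rw [gRes_of_eq_iA A _ _ hj, ← theta_pA, pA_jqModC]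
  have hne : gRes A ⟨_, hθj⟩ ≠ 0 := by rw [hresj]; exact theta_jqModC_ne_zero _
  have hinv := inv_mem_gRing_of_gRes_ne_zero A ⟨_, hθj⟩ hne
  have hθj0 : theta (jqModC Kbar) ≠ 0 := theta_jqModC_ne_zero _
  have hgeq : (g : LaurentSeries Kbar) =
      theta (u : LaurentSeries Kbar) * (theta (jqModC Kbar))⁻¹ := by
    rw [hg, mul_assoc, mul_inv_cancel₀ hθj0, mul_one]
  have hgR : (g : LaurentSeries Kbar) ∈ gRing A := by
    rw [hgeq]; exact (gRing A).mul_mem hθu hinv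
  refine ⟨(mem_RM_O_iff A M hM g).2 hgR, ?_⟩
  rw [coe_RM_red A M hM u hu, coe_RM_red A M hM g hgR, ← gRes_theta A hu, ← hresj, ← map_mul]
  congr 1
  exact Subtype.ext hg

theorem Lifted_red_ofNat {K F k Fb : Type*} [Field K] [Field F] [Algebra K F] [Field k] [Field Fb]
    [Algebra k Fb] (R : RedData K F k Fb) (n : ℕ) : R.red (n : F) = (n : Fb) := by
  have h : (n : F) ∈ R.O := natCast_mem _ n
  rw [R.red_of_mem h]
  exact map_natCast R.res n

/-- (M2) **lifted form of KS**.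
PROOF: `g` with `θ u = g θ j` (`exists_theta_eq`, separability in char. 0: `Level_isSeparable`);
by (M1) `red g = gb` (cancel `θ j̄ ≠ 0`), so `red (kap j g) = kap j̄ gb` (`red_mul`, `red_pow`,
`red_sub`, `RM_red_jF`), which is `≠ 0` (`gb ≠ 0` by `hθ`; `j̄` transcendental).
`RED.exists_isRedMap (RM ..) (RM_isCartesian ..) (goodRed_of_neat .. Igusa.cuspUpper
Igusa.cuspLower hneat)`, `map_poleDiv_jF`; `fibre_simple` + `ord_kap`: `ord_Q (kap j g) = 0` for all
`Q` in the residue disc of `P`; `ord_red_eq_zero`. -/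
theorem ord_kap_red (hneat : 4 ∣ M ∨ 9 ∣ M) (u : FN M) (hu : u ∈ regOff Kbar (jF M))
    (huO : u ∈ (RM A M hM).O) (P : Place 𝕜 (Igusa.E 𝕜 M))
    (hP : Igusa.jb 𝕜 M ∈ P.toValuationSubring) (c : 𝕜)
    (h1 : P.ord ((RM A M hM).red u - algebraMap 𝕜 (Igusa.E 𝕜 M) c) = 1)
    (gb : Igusa.E 𝕜 M)
    (hgb : theta (((RM A M hM).red u : Igusa.E 𝕜 M) : LaurentSeries 𝕜) =
      (gb : LaurentSeries 𝕜) * theta (jqModC 𝕜))
    (hθ : gb ≠ 0) :
    P.ord (kap (Igusa.jb 𝕜 M) gb) = 0 := by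
  have : Lib.RR.IsFF Kbar (FN M) := Fermat.Agent.GAL.Desc.isFF_FF_Kbar M
  have := Igusa.isAlgClosed_residueField A
  have := Igusa.isFF_E 𝕜 M hM
  have hfd := finiteDimensional_jF M
  have hsep := Level_isSeparable (K := Kbar) (jF M)
  have hj : ((jF M : FN M) : LaurentSeries Kbar) = jqModC Kbar := Igusa.LevelDeg_coeffEmb_jq
  obtain ⟨g, hg⟩ := exists_theta_eq (modularFunctionFieldBar M) (jF M) hj u
  obtain ⟨hgO, hgred⟩ := red_dj A M hM u g huO hg
  have hgb' : (RM A M hM).red g = gb := by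
    apply Subtype.ext
    exact mul_right_cancel₀ (theta_jqModC_ne_zero 𝕜) (hgred.symm.trans hgb)
  have htr := Igusa.transcendental_jb 𝕜 M
  have hjb0 : Igusa.jb 𝕜 M ≠ 0 := fun h0 => htr (h0 ▸ isAlgebraic_zero)
  have hjb1 : Igusa.jb 𝕜 M - 1728 ≠ 0 := by
    intro h0
    apply htr
    rw [sub_eq_zero.1 h0, ← map_ofNat (algebraMap 𝕜 (Igusa.E 𝕜 M)) 1728]
    exact isAlgebraic_algebraMap _
  have hjO : jF M ∈ (RM A M hM).O :=
    (RM A M hM).mem_of_red_ne_zero (by rw [RM_red_jF]; exact hjb0)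
  have h1728 : (1728 : FN M) ∈ (RM A M hM).O := ofNat_mem _ 1728
  have hr1728 : (RM A M hM).red (1728 : FN M) = 1728 := by
    have := Lifted_red_ofNat (RM A M hM) 1728
    exact_mod_cast this
  have hkap : (RM A M hM).red (kap (jF M) g) = kap (Igusa.jb 𝕜 M) gb := by
    unfold kap
    rw [(RM A M hM).red_mul ((RM A M hM).O.mul_mem _ _ (pow_mem hgO 6) (pow_mem hjO 4))
        (pow_mem (sub_mem hjO h1728) 3),
      (RM A M hM).red_mul (pow_mem hgO 6) (pow_mem hjO 4), RedData.red_pow, RedData.red_pow,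
      RedData.red_pow, (RM A M hM).red_sub hjO h1728, RM_red_jF, hgb', hr1728]
  have hne : kap (Igusa.jb 𝕜 M) gb ≠ 0 := by
    unfold kap
    exact mul_ne_zero (mul_ne_zero (pow_ne_zero _ hθ) (pow_ne_zero _ hjb0)) (pow_ne_zero _ hjb1)
  obtain ⟨r, hr⟩ := RED.exists_isRedMap (RM A M hM) (RM_isCartesian A M hM)
    (goodRed_of_neat A M hM Igusa.cuspUpper Igusa.cuspLower hneat)
  have hmap := (map_poleDiv_jF A M hM r hr).1
  rw [← hkap]
  refine ord_red_eq_zero hr (by rw [hkap]; exact hne) P fun Q hQ => ?_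
  obtain ⟨hjQ, a, ha⟩ := fibre_simple hr hmap hu huO P hP c h1 Q hQ
  rw [ord_kap M hneat u g hg Q hjQ a (by rw [ha]; norm_num), ha]
  norm_num

end Fermat.Agent.S36R.KS
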