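import Fermat.Agent.S36R.KS.JIdentity
import Fermat.Agent.S36R.KS.DerivAbs

/-!
# S36R / R-KS, file 5: the Kodaira-Spencer function `κ(u) = (θ u)^6 / Δ`

`F ⊆ K((t))` an intermediate field containing `j`, separable over `K(j)`.  For `u ∈ F` there is
`g ∈ F` (`= du/dj`) with `θ u = g θ j`, hence `(θ u)^6 = Δ * (g^6 j^4 (j - 1728)^3)`: the function
`κ(u) := g^6 j^4 (j-1728)^3 = kap j g` lies in `F`.  Any characteristic.
-/

set_option autoImplicit false

noncomputable section

namespace Fermat.Agent.S36R.KS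

open ModularCurve IntermediateField

/-- the Kodaira-Spencer function attached to `g = du/dj`. -/
def kap {F : Type*} [Field F] (j g : F) : F := g ^ 6 * j ^ 4 * (j - 1728) ^ 3

variable {K : Type*} [Field K] (F : IntermediateField K (LaurentSeries K))

/-- `κ(u) Δ = (θ u)^6`. -/
theorem kap_mul_DlL {j u g : ↥F} (hj : (j : LaurentSeries K) = jqModC K)
    (h : theta (u : LaurentSeries K) = (g : LaurentSeries K) * theta (jqModC K)) :
    ((kap j g : ↥F) : LaurentSeries K) * S28.DlL K = theta (u : LaurentSeries K) ^ 6 := by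
  have h1 : ((kap j g : ↥F) : LaurentSeries K) =
      (g : LaurentSeries K) ^ 6 * jqModC K ^ 4 * (jqModC K - 1728) ^ 3 := by
    rw [← hj]
    rfl
  rw [h, mul_pow, theta_jqModC_pow_six, h1]
  ring

/-- existence of `g = du/dj` when `j` is a separating variable. -/
theorem exists_theta_eq (j : ↥F) (hj : (j : LaurentSeries K) = jqModC K)
    [Algebra.IsSeparable K⟮j⟯ ↥F] (u : ↥F) :
    ∃ g : ↥F, theta (u : LaurentSeries K) = (g : LaurentSeries K) * theta (jqModC K) := by
  obtain ⟨g, hg⟩ := exists_deriv_eq F.val (thetaAlg (R := K)) j u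
  exact ⟨g, by rw [← hj]; exact hg⟩

end Fermat.Agent.S36R.KS
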