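import Fermat.Agent.S36R.KS.Theta
import Fermat.Agent.S24.JLaurent
import Fermat.Agent.S28.BSeries

/-!
# S36R / R-KS, file 3: the identity `(θ j)^6 = Δ j^4 (j - 1728)^3` of formal Laurent series

over every commutative ring.  Proved over `ℂ` analytically (`θ j = - E₄² E₆ / Δ`:
`S24.JLocal.D_kleinJ`), then descended to `ℤ` and mapped to `K`.
-/

set_option autoImplicit false

noncomputable section

namespace Fermat.Agent.S36R.KS

open ModularCurve Fermat.Agent.S24 UpperHalfPlane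
open scoped Derivative

local notation "𝕢" => Function.Periodic.qParam

/-- `θ` on power series. -/
theorem theta_ofPowerSeries {R : Type*} [CommRing R] (p : PowerSeries R) :
    theta (HahnSeries.ofPowerSeries ℤ R p) =
      HahnSeries.single (1 : ℤ) 1 * HahnSeries.ofPowerSeries ℤ R (PowerSeries.derivative R p) := by
  ext n
  rw [theta_coeff, HahnSeries.coeff_single_mul, one_mul]
  rcases lt_trichotomy n 0 with hn | hn | hn
  · rw [ofPowerSeries_coeff_of_neg _ hn, ofPowerSeries_coeff_of_neg _ (by omega), mul_zero]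
  · subst hn
    rw [ofPowerSeries_coeff_of_neg (k := 0 - 1) _ (by omega), Int.cast_zero, zero_mul]
  · obtain ⟨m, rfl⟩ : ∃ m : ℕ, n = (m : ℤ) + 1 := ⟨(n - 1).toNat, by omega⟩
    rw [add_sub_cancel_right, HahnSeries.ofPowerSeries_apply_coeff, PowerSeries.coeff_derivative]
    have h1 : ((m : ℤ) + 1) = ((m + 1 : ℕ) : ℤ) := by push_cast; ring
    rw [h1, HahnSeries.ofPowerSeries_apply_coeff]
    push_cast
    ring

theorem taylor0_deriv (g : ℂ → ℂ) : taylor0 (deriv g) = PowerSeries.derivative ℂ (taylor0 g) := by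
  ext m
  rw [PowerSeries.coeff_derivative, coeff_taylor0, coeff_taylor0, iteratedDeriv_succ',
    Nat.factorial_succ]
  have h1 : ((m : ℂ) + 1) ≠ 0 := by exact_mod_cast Nat.succ_ne_zero m
  have h2 : (m.factorial : ℂ) ≠ 0 := by exact_mod_cast Nat.factorial_ne_zero m
  push_cast
  field_simp

theorem JIdentity_theta_taylor0 (g : ℂ → ℂ) :
    theta (HahnSeries.ofPowerSeries ℤ ℂ (taylor0 g)) =
      HahnSeries.single (1 : ℤ) 1 * HahnSeries.ofPowerSeries ℤ ℂ (taylor0 (deriv g)) := by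
  rw [theta_ofPowerSeries, taylor0_deriv]

/-- (J1) `θ` of the Taylor series of a holomorphic function on the unit disc. -/
theorem isConv_theta_taylor0 {g : ℂ → ℂ} (hg : DifferentiableOn ℂ g (Metric.ball 0 1)) :
    IsConv (theta (HahnSeries.ofPowerSeries ℤ ℂ (taylor0 g))) := by
  rw [JIdentity_theta_taylor0]
  exact (isConv_single _ _).mul (isConv_taylor0 (hg.deriv Metric.isOpen_ball))

theorem evalAt_theta_taylor0 {g : ℂ → ℂ} (hg : DifferentiableOn ℂ g (Metric.ball 0 1)) {q : ℂ}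
    (hq : q ≠ 0) (hq1 : ‖q‖ < 1) :
    evalAt q (theta (HahnSeries.ofPowerSeries ℤ ℂ (taylor0 g))) = q * deriv g q := by
  rw [JIdentity_theta_taylor0, evalAt_mul (isConv_single _ _)
    (isConv_taylor0 (hg.deriv Metric.isOpen_ball)) hq hq1, evalAt_single,
    evalAt_taylor0 (hg.deriv Metric.isOpen_ball) hq1, one_mul, zpow_one]

theorem JIdentity_theta_jqC : theta jqC =
    HahnSeries.single (-1 : ℤ) 1 * theta (HahnSeries.ofPowerSeries ℤ ℂ (taylor0 jNumFn))
      + HahnSeries.ofPowerSeries ℤ ℂ (taylor0 jNumFn) * HahnSeries.single (-1 : ℤ) (-1) := by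
  rw [jqC_eq, theta_mul, theta_single]
  norm_num

theorem isConv_theta_jqC : IsConv (theta jqC) := by
  rw [JIdentity_theta_jqC]
  exact ((isConv_single _ _).mul (isConv_theta_taylor0 differentiableOn_jNumFn)).add
    ((isConv_taylor0 differentiableOn_jNumFn).mul (isConv_single _ _))

theorem JIdentity_evalAt_theta_jqC {q : ℂ} (hq : q ≠ 0) (hq1 : ‖q‖ < 1) :
    evalAt q (theta jqC) = deriv jNumFn q - q⁻¹ * jNumFn q := by
  rw [JIdentity_theta_jqC, evalAt_add
    ((isConv_single _ _).mul (isConv_theta_taylor0 differentiableOn_jNumFn))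
    ((isConv_taylor0 differentiableOn_jNumFn).mul (isConv_single _ _)) hq hq1,
    evalAt_mul (isConv_single _ _) (isConv_theta_taylor0 differentiableOn_jNumFn) hq hq1,
    evalAt_mul (isConv_taylor0 differentiableOn_jNumFn) (isConv_single _ _) hq hq1,
    evalAt_single, evalAt_single, evalAt_theta_taylor0 differentiableOn_jNumFn hq hq1,
    evalAt_taylor0 differentiableOn_jNumFn hq1, zpow_neg_one]
  field_simp
  ring

theorem JIdentity_hasDerivAt_qParam (z : ℂ) :
    HasDerivAt (𝕢 1) (2 * Real.pi * Complex.I * 𝕢 1 z) z := by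
  have h1 : HasDerivAt (fun w : ℂ => 2 * Real.pi * Complex.I * w / ((1 : ℝ) : ℂ))
      (2 * Real.pi * Complex.I) z := by
    simpa using ((hasDerivAt_id z).const_mul (2 * Real.pi * Complex.I))
  have h2 := h1.cexp
  have h3 : (𝕢 1) = fun w : ℂ => Complex.exp (2 * Real.pi * Complex.I * w / ((1 : ℝ) : ℂ)) := rfl
  rw [h3]
  have h4 : 2 * (Real.pi : ℂ) * Complex.I *
      Complex.exp (2 * Real.pi * Complex.I * z / ((1 : ℝ) : ℂ)) =
      Complex.exp (2 * Real.pi * Complex.I * z / ((1 : ℝ) : ℂ)) * (2 * Real.pi * Complex.I) :=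
    mul_comm _ _
  rw [h4]
  exact h2

/-- (J2) `θ j` evaluates to `D j = (2 π i)⁻¹ dj/dτ`. -/
theorem evalAt_theta_jqC (τ : ℍ) : evalAt (𝕢 1 τ) (theta jqC) = D JLocal.kleinJ τ := by
  have hq : 𝕢 1 (τ : ℂ) ≠ 0 := Function.Periodic.qParam_ne_zero _
  have hq1 : ‖𝕢 1 (τ : ℂ)‖ < 1 := Function.Periodic.norm_qParam_lt_one one_pos τ.im_pos
  rw [JIdentity_evalAt_theta_jqC hq hq1]
  have heq : (JLocal.kleinJ ∘ ofComplex) =ᶠ[nhds (τ : ℂ)]
      fun w => (𝕢 1 w)⁻¹ * jNumFn (𝕢 1 w) := by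
    filter_upwards [isOpen_upperHalfPlaneSet.mem_nhds τ.im_pos] with w hw
    have hw' : 0 < w.im := hw
    rw [Function.comp_apply, ofComplex_apply_of_im_pos hw', ← evalAt_jqC,
      evalAt_jqC_of_norm_lt (Function.Periodic.qParam_ne_zero _)
        (Function.Periodic.norm_qParam_lt_one one_pos hw')]
  have hJ : DifferentiableAt ℂ jNumFn (𝕢 1 (τ : ℂ)) :=
    differentiableOn_jNumFn.differentiableAt (Metric.isOpen_ball.mem_nhds (by simpa using hq1))
  have hqd := JIdentity_hasDerivAt_qParam (τ : ℂ)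
  have hd := (hqd.inv hq).mul (hJ.hasDerivAt.comp (τ : ℂ) hqd)
  have hd' : deriv (JLocal.kleinJ ∘ ofComplex) (τ : ℂ) =
      -(2 * Real.pi * Complex.I * 𝕢 1 (τ : ℂ)) / 𝕢 1 (τ : ℂ) ^ 2 * jNumFn (𝕢 1 (τ : ℂ)) +
      (𝕢 1 (τ : ℂ))⁻¹ * (deriv jNumFn (𝕢 1 (τ : ℂ)) *
        (2 * Real.pi * Complex.I * 𝕢 1 (τ : ℂ))) := by
    rw [heq.deriv_eq]
    exact hd.deriv
  have hpi : (2 * Real.pi * Complex.I : ℂ) ≠ 0 := by simp [Real.pi_ne_zero]
  simp only [Derivative.normalizedDerivOfComplex, hd']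
  field_simp
  ring

theorem JIdentity_DlL_eq : S28.DlL ℂ = HahnSeries.single (1 : ℤ) 1 *
    HahnSeries.ofPowerSeries ℤ ℂ (taylor0 (eulerFn ^ 24)) := by
  rw [S28.DlL, S28.Dl, map_mul, map_mul, PowerSeries.map_X, HahnSeries.ofPowerSeries_X,
    taylor0_pow analyticAt_eulerFn, taylor0_eulerFn, ← map_pow, ← dedekindEtaUnit]

theorem JIdentity_diff_euler : DifferentiableOn ℂ (eulerFn ^ 24) (Metric.ball 0 1) :=
  differentiableOn_eulerFn.pow 24

theorem isConv_DlL : IsConv (S28.DlL ℂ) := by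
  rw [JIdentity_DlL_eq]
  exact (isConv_single _ _).mul (isConv_taylor0 JIdentity_diff_euler)

/-- (J3) the formal `Δ` evaluates to the discriminant. -/
theorem evalAt_DlL (τ : ℍ) : evalAt (𝕢 1 τ) (S28.DlL ℂ) = ModularForm.discriminant τ := by
  have hq : 𝕢 1 (τ : ℂ) ≠ 0 := Function.Periodic.qParam_ne_zero _
  have hq1 : ‖𝕢 1 (τ : ℂ)‖ < 1 := Function.Periodic.norm_qParam_lt_one one_pos τ.im_pos
  have h2 : ModularForm.discriminant τ = 𝕢 1 τ * eulerFn (𝕢 1 τ) ^ 24 := by
    rw [ModularForm.discriminant_eq_q_prod, eulerFn, (ModularForm.multipliable_one_sub_pow hq1).tprod_pow]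
  rw [JIdentity_DlL_eq, evalAt_mul (isConv_single _ _) (isConv_taylor0 JIdentity_diff_euler) hq hq1,
    evalAt_single, evalAt_taylor0 JIdentity_diff_euler hq1, h2, one_mul, zpow_one, Pi.pow_apply]

theorem JIdentity_ofNat : (1728 : LaurentSeries ℂ) = HahnSeries.C (1728 : ℂ) :=
  (map_ofNat (HahnSeries.C : ℂ →+* LaurentSeries ℂ) 1728).symm

/-- (J4) the identity over `ℂ`. -/
theorem theta_jqC_pow_six :
    theta jqC ^ 6 = S28.DlL ℂ * jqC ^ 4 * (jqC - 1728) ^ 3 := by
  have hc : IsConv (1728 : LaurentSeries ℂ) := by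
    rw [JIdentity_ofNat]
    exact isConv_C _
  refine eq_of_evalAt_eq (isConv_theta_jqC.pow 6)
    ((isConv_DlL.mul (isConv_jqC.pow 4)).mul ((isConv_jqC.sub hc).pow 3)) fun q hq hq1 => ?_
  rw [evalAt_pow isConv_theta_jqC hq hq1,
    evalAt_mul (isConv_DlL.mul (isConv_jqC.pow 4)) ((isConv_jqC.sub hc).pow 3) hq hq1,
    evalAt_mul isConv_DlL (isConv_jqC.pow 4) hq hq1, evalAt_pow isConv_jqC hq hq1,
    evalAt_pow (isConv_jqC.sub hc) hq hq1, evalAt_sub isConv_jqC hc hq hq1]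
  have h1728 : evalAt q (1728 : LaurentSeries ℂ) = 1728 := by
    rw [JIdentity_ofNat, evalAt_C]
  rw [h1728]
  let τ : ℍ := ⟨Function.Periodic.invQParam 1 q,
    Function.Periodic.im_invQParam_pos_of_norm_lt_one one_pos hq1 hq⟩
  have hτ : 𝕢 1 (τ : ℂ) = q := Function.Periodic.qParam_right_inv one_ne_zero hq
  rw [← hτ, evalAt_theta_jqC, evalAt_DlL, evalAt_jqC, JLocal.kleinJ_sub_1728, JLocal.D_kleinJ,
    JLocal.kleinJ]
  have hΔ := ModularForm.discriminant_ne_zero τ
  field_simp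

theorem JIdentity_jqC_eq : jqC = jqModC ℂ := by
  rw [jqC, ← jqModC_rat, coeffMap_jqModC]

/-- (J5) **the identity `(θ j)^6 = Δ j^4 (j - 1728)^3`** over every commutative ring. -/
theorem theta_jqModC_pow_six (K : Type*) [CommRing K] :
    theta (jqModC K) ^ 6 = S28.DlL K * jqModC K ^ 4 * (jqModC K - 1728) ^ 3 := by
  have hZ : theta (jqModC ℤ) ^ 6 = S28.DlL ℤ * jqModC ℤ ^ 4 * (jqModC ℤ - 1728) ^ 3 := by
    apply S28.coeffMap_injective (Int.castRingHom ℂ) Int.cast_injective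
    rw [map_pow, ← theta_coeffMap, map_mul, map_mul, map_pow, map_pow, map_sub, coeffMap_jqModC,
      S28.coeffMap_DlL, map_ofNat, ← JIdentity_jqC_eq]
    exact theta_jqC_pow_six
  have h := congrArg (coeffMap (Int.castRingHom K)) hZ
  rw [map_pow, ← theta_coeffMap, map_mul, map_mul, map_pow, map_pow, map_sub, coeffMap_jqModC,
    S28.coeffMap_DlL, map_ofNat] at h
  exact h

/-- `θ j ≠ 0` (leading coefficient `-1`). -/
theorem theta_jqModC_ne_zero (K : Type*) [CommRing K] [Nontrivial K] : theta (jqModC K) ≠ 0 := by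
  intro h
  have h1 := congrArg (fun x => HahnSeries.coeff x (-1 : ℤ)) h
  simp only [theta_coeff, HahnSeries.coeff_zero] at h1
  rw [jqModC, HahnSeries.coeff_single_mul, sub_self, one_mul] at h1
  have h2 : (HahnSeries.ofPowerSeries ℤ K (jNum.map (Int.castRingHom K))).coeff 0 = 1 := by
    have := HahnSeries.ofPowerSeries_apply_coeff (Γ := ℤ) (jNum.map (Int.castRingHom K)) 0
    rw [Nat.cast_zero] at this
    rw [this, PowerSeries.coeff_map, PowerSeries.coeff_zero_eq_constantCoeff, constantCoeff_jNum]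
    simp
  rw [h2] at h1
  simp at h1

end Fermat.Agent.S36R.KS
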