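import Fermat.Agent.S36R.KS.Lifted

/-!
# S36R / R-KS, file 8b: Kodaira-Spencer in characteristic `q` (**the exported theorem** `KS_main`)

`𝕜` = residue field of `A ⊆ Kbar`, `M` neat and invertible in `𝕜`, `E = Igusa.E 𝕜 M ⊆ 𝕜((t))`.
If `ū ∈ E` is regular outside the cusps and `ū - c` is a uniformiser at the non cuspidal place `P`,
then `κ̄(ū) = (θ ū)^6 / Δ̄` is an element of `E` which is a unit at `P`
(including the supersingular `P`, and `q = 2, 3`).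
-/

set_option autoImplicit false

noncomputable section

namespace Fermat.Agent.S36R.KS

open ModularCurve AlgebraicCurve Fermat.Agent.S24 Fermat.Agent.GAL Fermat.Agent.GAL.Gauss
  Fermat.Agent.GAL.RED Fermat.Agent.DR.Gal Fermat.Agent.DR.Conc

variable (A : ValuationSubring Kbar) (M : ℕ) [NeZero M]
  (hM : ((M : ℕ) : IsLocalRing.ResidueField ↥A) ≠ 0)

set_option quotPrecheck false in
local notation "𝕜" => IsLocalRing.ResidueField ↥A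

include hM in
/-- (M3) KS in characteristic `q`, assuming `θ ū ≠ 0`.  PROOF: `exists_lift_regOff` + (M2). -/
theorem ord_kap_of_ne_zero (hneat : 4 ∣ M ∨ 9 ∣ M) (ub : Igusa.E 𝕜 M)
    (hub : ub ∈ regOff 𝕜 (Igusa.jb 𝕜 M)) (P : Place 𝕜 (Igusa.E 𝕜 M))
    (hP : Igusa.jb 𝕜 M ∈ P.toValuationSubring) (c : 𝕜)
    (h1 : P.ord (ub - algebraMap 𝕜 (Igusa.E 𝕜 M) c) = 1) (gb : Igusa.E 𝕜 M)
    (hgb : theta (ub : LaurentSeries 𝕜) = (gb : LaurentSeries 𝕜) * theta (jqModC 𝕜))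
    (hθ : gb ≠ 0) :
    P.ord (kap (Igusa.jb 𝕜 M) gb) = 0 := by
  obtain ⟨u, hu, huO, hred⟩ := exists_lift_regOff A M hM
    (goodRed_of_neat A M hM Igusa.cuspUpper Igusa.cuspLower hneat) ub hub
  subst hred
  exact ord_kap_red A M hM hneat u hu huO P hP c h1 gb hgb hθ

include hM in
/-- (M4) a uniformiser at a non cuspidal place is a separating variable: `dū/dj̄ ≠ 0`.
PROOF: suppose `gb = 0`, i.e. `θ ū = 0`.  Let `b := j̄(P)`, `e ∈ {2, 3}` invertible in `𝕜`,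
`ū' := ū + (j̄ - b)^e`.  Then `ū' ∈ regOff`, `ord_P (ū' - c) = 1`, and
`θ ū' = e (j̄ - b)^(e-1) θ j̄`, so `gb' = e (j̄ - b)^(e-1) ≠ 0` and (M3) gives
`0 = ord_P (kap j̄ gb') = 6 (e-1) ord_P (j̄ - b) + 4 ord_P j̄ + 3 ord_P (j̄ - 1728) > 0`. -/
theorem dj_ne_zero (hneat : 4 ∣ M ∨ 9 ∣ M) (ub : Igusa.E 𝕜 M)
    (hub : ub ∈ regOff 𝕜 (Igusa.jb 𝕜 M)) (P : Place 𝕜 (Igusa.E 𝕜 M))
    (hP : Igusa.jb 𝕜 M ∈ P.toValuationSubring) (c : 𝕜)
    (h1 : P.ord (ub - algebraMap 𝕜 (Igusa.E 𝕜 M) c) = 1) (gb : Igusa.E 𝕜 M)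
    (hgb : theta (ub : LaurentSeries 𝕜) = (gb : LaurentSeries 𝕜) * theta (jqModC 𝕜)) :
    gb ≠ 0 := by
  intro hgb0
  have := Igusa.isAlgClosed_residueField A
  have := Igusa.isFF_E 𝕜 M hM
  have hθu : theta (ub : LaurentSeries 𝕜) = 0 := by
    rw [hgb, hgb0]
    simp
  set jb := Igusa.jb 𝕜 M with hjb
  have hjtr : Transcendental 𝕜 jb := Igusa.transcendental_jb 𝕜 M
  have hjne : ∀ a : 𝕜, jb - algebraMap 𝕜 (Igusa.E 𝕜 M) a ≠ 0 := by
    intro a h0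
    apply hjtr
    rw [sub_eq_zero.mp h0]
    exact isAlgebraic_algebraMap a
  have hj0 : 0 ≤ P.ord jb := (Lib.PlaceEval.mem_iff P).1 hP
  set b : 𝕜 := Lib.PlaceEval.ev P jb with hb
  have hbpos : 0 < P.ord (jb - algebraMap 𝕜 (Igusa.E 𝕜 M) b) := by
    rcases Lib.PlaceEval.ord_sub_ev_pos P hj0 with h | h
    · exact absurd (sub_eq_zero.mpr h) (hjne b)
    · exact h
  -- an exponent `e ∈ {2, 3}` invertible in `𝕜`
  obtain ⟨e, he2, he0⟩ : ∃ e : ℕ, 2 ≤ e ∧ ((e : ℕ) : 𝕜) ≠ 0 := by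
    by_cases h2 : ((2 : ℕ) : 𝕜) = 0
    · refine ⟨3, by norm_num, fun h3 => ?_⟩
      have : ((3 : ℕ) : 𝕜) - ((2 : ℕ) : 𝕜) = 1 := by push_cast; norm_num
      rw [h3, h2, sub_zero] at this
      exact zero_ne_one this
    · exact ⟨2, le_rfl, h2⟩
  set w : Igusa.E 𝕜 M := jb - algebraMap 𝕜 (Igusa.E 𝕜 M) b with hw
  have hw0 : w ≠ 0 := hjne b
  set ub' : Igusa.E 𝕜 M := ub + w ^ e with hub'
  set gb' : Igusa.E 𝕜 M := algebraMap 𝕜 (Igusa.E 𝕜 M) (e : 𝕜) * w ^ (e - 1) with hgb'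
  have hjreg : jb ∈ regOff 𝕜 jb := fun Q hQ => hQ
  have hwreg : w ∈ regOff 𝕜 jb := sub_mem hjreg ((regOff 𝕜 jb).algebraMap_mem b)
  have hub'reg : ub' ∈ regOff 𝕜 jb := add_mem hub (pow_mem hwreg e)
  have hubc : ub - algebraMap 𝕜 (Igusa.E 𝕜 M) c ≠ 0 := by
    intro h0
    rw [h0, Place.ord_zero] at h1
    exact zero_ne_one h1
  have h1' : P.ord (ub' - algebraMap 𝕜 (Igusa.E 𝕜 M) c) = 1 := by
    have e1 : ub' - algebraMap 𝕜 (Igusa.E 𝕜 M) c =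
        (ub - algebraMap 𝕜 (Igusa.E 𝕜 M) c) + w ^ e := by rw [hub']; ring
    rw [e1, RED.ord_add_eq_of_lt P hubc (pow_ne_zero _ hw0), h1]
    rw [h1, RED.ord_pow]
    have : (2 : ℤ) ≤ (e : ℤ) := by exact_mod_cast he2
    nlinarith
  have hcoew : (w : LaurentSeries 𝕜) = jqModC 𝕜 - HahnSeries.C b := by
    rw [hw]
    show (jb : LaurentSeries 𝕜) - ((algebraMap 𝕜 (Igusa.E 𝕜 M) b : Igusa.E 𝕜 M) : LaurentSeries 𝕜) = _
    rw [IntermediateField.coe_algebraMap_apply, algebraMap_eq_C]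
    rfl
  have hθw : theta (w : LaurentSeries 𝕜) = theta (jqModC 𝕜) := by
    rw [hcoew, map_sub, theta_C, sub_zero]
  have hgb'θ : theta (ub' : LaurentSeries 𝕜) = (gb' : LaurentSeries 𝕜) * theta (jqModC 𝕜) := by
    have e1 : (ub' : LaurentSeries 𝕜) = (ub : LaurentSeries 𝕜) + (w : LaurentSeries 𝕜) ^ e := rfl
    have e2 : (gb' : LaurentSeries 𝕜) = HahnSeries.C ((e : ℕ) : 𝕜) * (w : LaurentSeries 𝕜) ^ (e - 1) := by
      rw [hgb']
      show ((algebraMap 𝕜 (Igusa.E 𝕜 M) (e : 𝕜) : Igusa.E 𝕜 M) : LaurentSeries 𝕜) *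
        (w : LaurentSeries 𝕜) ^ (e - 1) = _
      rw [IntermediateField.coe_algebraMap_apply, algebraMap_eq_C]
    rw [e1, map_add, hθu, zero_add, theta_pow, hθw, e2]
    simp only [map_natCast]
    try ring
  have hgb'0 : gb' ≠ 0 :=
    mul_ne_zero (by rwa [Ne, map_eq_zero]) (pow_ne_zero _ hw0)
  have h0 := ord_kap_of_ne_zero A M hM hneat ub' hub'reg P hP c h1' gb' hgb'θ hgb'0
  -- but the order is positive
  have hjb0 : jb ≠ 0 := by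
    have := hjne 0
    rwa [map_zero, sub_zero] at this
  have hj1728 : jb - 1728 ≠ 0 := by
    have := hjne 1728
    rwa [map_ofNat] at this
  have hord1728 : 0 ≤ P.ord (jb - 1728) := by
    refine (Lib.PlaceEval.mem_iff P).1 (sub_mem hP ?_)
    have : (1728 : Igusa.E 𝕜 M) = algebraMap 𝕜 (Igusa.E 𝕜 M) 1728 := by rw [map_ofNat]
    rw [this]
    exact P.algebraMap_mem' _
  have hordg : 1 ≤ P.ord gb' := by
    rw [hgb', P.ord_mul (by rwa [Ne, map_eq_zero]) (pow_ne_zero _ hw0), RED.ord_algebraMap,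
      RED.ord_pow, zero_add]
    have : (1 : ℤ) ≤ ((e - 1 : ℕ) : ℤ) := by
      have : 1 ≤ e - 1 := by omega
      exact_mod_cast this
    nlinarith
  unfold kap at h0
  rw [P.ord_mul (mul_ne_zero (pow_ne_zero _ hgb'0) (pow_ne_zero _ hjb0)) (pow_ne_zero _ hj1728),
    P.ord_mul (pow_ne_zero _ hgb'0) (pow_ne_zero _ hjb0), RED.ord_pow, RED.ord_pow, RED.ord_pow] at h0
  push_cast at h0
  nlinarith

include hM in
/-- **(K4) Kodaira-Spencer in characteristic `q`.**  If `ū` is regular outside the cusps and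
`ū - c` is a uniformiser at the non cuspidal place `P`, then `(θ ū)^6 / Δ̄ ∈ E` is a unit at `P`. -/
theorem KS_main (hneat : 4 ∣ M ∨ 9 ∣ M) (ub : Igusa.E 𝕜 M)
    (hub : ub ∈ regOff 𝕜 (Igusa.jb 𝕜 M)) (P : Place 𝕜 (Igusa.E 𝕜 M))
    (hP : Igusa.jb 𝕜 M ∈ P.toValuationSubring) (c : 𝕜)
    (h1 : P.ord (ub - algebraMap 𝕜 (Igusa.E 𝕜 M) c) = 1) :
    ∃ κ : Igusa.E 𝕜 M, (κ : LaurentSeries 𝕜) * S28.DlL 𝕜 = theta (ub : LaurentSeries 𝕜) ^ 6 ∧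
      P.ord κ = 0 := by
  have hsep := Igusa.isSeparable_jb 𝕜 M hM
  obtain ⟨gb, hgb⟩ := exists_theta_eq (modularFunctionFieldFullC 𝕜 M) (Igusa.jb 𝕜 M) rfl ub
  exact ⟨kap (Igusa.jb 𝕜 M) gb, kap_mul_DlL _ rfl hgb,
    ord_kap_of_ne_zero A M hM hneat ub hub P hP c h1 gb hgb
      (dj_ne_zero A M hM hneat ub hub P hP c h1 gb hgb)⟩

end Fermat.Agent.S36R.KS
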