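import Fermat.Agent.S36R.KS.Zeta
import Fermat.Agent.S28.BSeries
import Fermat.Agent.GAL.Hecke.SeriesFrob

/-!
# S36R / R-KS, file 9b: the residue of `b_u^e / ψ_b` on the middle component (series form)

At the cusp `1/q` of level `q² M'` the function `b_u = π₂^* u - π₀^* u` has the expansion
`u(ζ t) - u(t)` and the unit `ψ_b = U₁ / U₂` has the expansion
`psiB = (q¹² Δ(t^q)² / (Δ(t) Δ(ζ t)))^m`.  With `e = 12 m (q - 1)`:
`b_u^e / ψ_b` is Gauss-integral with residue `const * ((θ ū)^6 / Δ̄)^(2 m (q - 1))`, `const ≠ 0`.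
Purely formal: `K` any field with a valuation ring `A` of residue characteristic `q`.
-/

set_option autoImplicit false

noncomputable section

namespace Fermat.Agent.S36R.KS

open ModularCurve Fermat.Agent.GAL.Gauss Fermat.Agent.DR.Conc

variable {K : Type*} [Field K] (A : ValuationSubring K) (q : ℕ) [NeZero q] [Fact q.Prime]
  [CharP (IsLocalRing.ResidueField ↥A) q]

/-- the expansion of `ψ_b` at the cusp `1/q`. -/
def psiB (ζ : K) (hζ0 : ζ ≠ 0) (m : ℕ) : LaurentSeries K :=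
  ((q : LaurentSeries K) ^ 12 * qExpand K q (S28.DlL K) ^ 2 * S28.DlLinv K *
    S24.twist ζ hζ0 (S28.DlLinv K)) ^ m

/-- (R3) `Δ̄(t^q) = Δ̄^q` in characteristic `q` (`Hecke.pow_char_eq_qExpand`, `S28.coeffMap_DlL`). -/
theorem qExpand_DlL_char (k : Type*) [Field k] [CharP k q] :
    qExpand k q (S28.DlL k) = S28.DlL k ^ q := by
  rw [GAL.Hecke.pow_char_eq_qExpand, S28.coeffMap_DlL]

/-- (aux.) `Δ̄⁻¹(t^q) = Δ̄^(-q)` in characteristic `q`. -/
theorem Res11_qExpand_DlLinv_char (k : Type*) [Field k] [CharP k q] :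
    qExpand k q (S28.DlLinv k) = S28.DlLinv k ^ q := by
  rw [GAL.Hecke.pow_char_eq_qExpand, S28.coeffMap_DlLinv]

omit [NeZero q] [Fact q.Prime] [CharP (IsLocalRing.ResidueField ↥A) q] in
/-- (aux.) transport of membership and residue along an equality. -/
theorem Res11_gRes_congr {y : LaurentSeries K} (w : ↥(gRing A)) (hy : y = (w : LaurentSeries K)) :
    ∃ h : y ∈ gRing A, gRes A ⟨y, h⟩ = gRes A w := by
  subst hy
  exact ⟨w.2, rfl⟩

/-- (R4) the Gauss unit `Δ(t) Δ(ζ t) / Δ(t^q)²` and its residue `Δ̄^(2 - 2q)`.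
PROOF: all four series are `iA` of series over `A` (`S28.coeffMap_DlL`, `coeffMap_DlLinv`,
`iA_qExpand`, `Series_iA_twist`), `Series_pA_twist` with `ζ̄ = 1`, (R3), `S28.DlL_mul_DlLinv`. -/
theorem exists_gRes_DeltaQuot {ζ : K} (hζ : ζ ^ q = 1) (hζ0 : ζ ≠ 0) :
    ∃ h : S28.DlL K * S24.twist ζ hζ0 (S28.DlL K) * qExpand K q (S28.DlLinv K) ^ 2 ∈ gRing A,
      gRes A ⟨_, h⟩ = S28.DlLinv (IsLocalRing.ResidueField ↥A) ^ (2 * (q - 1)) := by
  obtain ⟨hA, hA'⟩ := zeta_mem A q hζ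
  have h1 := residue_zeta A q hζ hA
  set u := Series_unit A hζ0 hA hA' with hu
  set Z : LaurentSeries ↥A :=
    S28.DlL ↥A * S28.twist u (S28.DlL ↥A) * qExpand ↥A q (S28.DlLinv ↥A) ^ 2 with hZ
  have hiD : iA A (S28.DlL ↥A) = S28.DlL K := S28.coeffMap_DlL _
  have hiDi : iA A (S28.DlLinv ↥A) = S28.DlLinv K := S28.coeffMap_DlLinv _
  have hpD : pA A (S28.DlL ↥A) = S28.DlL (IsLocalRing.ResidueField ↥A) := S28.coeffMap_DlL _
  have hpDi : pA A (S28.DlLinv ↥A) = S28.DlLinv (IsLocalRing.ResidueField ↥A) :=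
    S28.coeffMap_DlLinv _
  have hiZ : S28.DlL K * S24.twist ζ hζ0 (S28.DlL K) * qExpand K q (S28.DlLinv K) ^ 2 = iA A Z := by
    rw [hZ, map_mul, map_mul, map_pow, hu, Series_iA_twist, iA_qExpand, hiD, hiDi]
  obtain ⟨h, hres⟩ := Res11_gRes_congr A ⟨iA A Z, iA_mem_gRing A Z⟩ hiZ
  refine ⟨h, ?_⟩
  rw [hres, gRes_iA, hZ, map_mul, map_mul, map_pow, Series_pA_twist, pA_qExpand, hpD, hpDi]
  have hu1 : Units.map (IsLocalRing.residue ↥A : ↥A →* IsLocalRing.ResidueField ↥A) u = 1 :=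
    Units.ext h1
  rw [hu1, Series_twist_one, Res11_qExpand_DlLinv_char]
  have hq : 1 ≤ q := (Fact.out : q.Prime).one_le
  have hDD := S28.DlL_mul_DlLinv (Λ := IsLocalRing.ResidueField ↥A)
  obtain ⟨r, rfl⟩ : ∃ r, q = r + 1 := ⟨q - 1, by omega⟩
  rw [Nat.add_sub_cancel]
  calc S28.DlL (IsLocalRing.ResidueField ↥A) * S28.DlL (IsLocalRing.ResidueField ↥A) *
        (S28.DlLinv (IsLocalRing.ResidueField ↥A) ^ (r + 1)) ^ 2
      = (S28.DlL (IsLocalRing.ResidueField ↥A) * S28.DlLinv (IsLocalRing.ResidueField ↥A)) ^ 2 *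
        S28.DlLinv (IsLocalRing.ResidueField ↥A) ^ (2 * r) := by ring
    _ = _ := by rw [hDD, one_pow, one_mul]

/-- **(K5)** `b^e / ψ_b` is Gauss-integral, with residue `const * ((θ x̄)^6 / Δ̄)^(2 m (q-1))`.
PROOF: `b = (ζ - 1) β`, `β` Gauss-integral with residue `θ x̄` (`twist_sub_mem_gRing`,
`gRes_twist_sub`); `b^e = (ε q)^(12 m) β^e` by (R2); `psiB⁻¹ = q^(-12 m) * (R4)^m`
(`S28.DlL_mul_DlLinv` and its images under `qExpand`, `twist`); `const = ε̄^(12 m)`. -/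
theorem res11 {ζ : K} (hζ : IsPrimitiveRoot ζ q) (hζ0 : ζ ≠ 0) (m : ℕ) {x : LaurentSeries K}
    (hx : x ∈ gRing A) :
    ∃ (h : (S24.twist ζ hζ0 x - x) ^ (12 * m * (q - 1)) * (psiB q ζ hζ0 m)⁻¹ ∈ gRing A)
      (e : IsLocalRing.ResidueField ↥A), e ≠ 0 ∧
      gRes A ⟨_, h⟩ = HahnSeries.C e *
        (theta (gRes A ⟨x, hx⟩) ^ 6 * S28.DlLinv (IsLocalRing.ResidueField ↥A)) ^
          (2 * m * (q - 1)) := by
  have hζq : ζ ^ q = 1 := hζ.pow_eq_one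
  have hq1 : 1 < q := (Fact.out : q.Prime).one_lt
  have hne : ζ ≠ 1 := hζ.ne_one hq1
  obtain ⟨hA, hA'⟩ := zeta_mem A q hζq
  have h1 := residue_zeta A q hζq hA
  obtain ⟨ε, hε⟩ := exists_unit_eps A q hζ
  have hz1 : ζ - 1 ≠ 0 := sub_ne_zero.2 hne
  have hqK : (q : K) ≠ 0 := by
    intro h0
    rw [h0, mul_zero] at hε
    exact pow_ne_zero _ hz1 hε
  have hβ := twist_sub_mem_gRing A hζ0 hA hA' h1 hne hx
  have hβres := gRes_twist_sub A hζ0 hA hA' h1 hne hx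
  set β : LaurentSeries K := HahnSeries.C (ζ - 1)⁻¹ * (S24.twist ζ hζ0 x - x) with hβdef
  obtain ⟨hX, hXres⟩ := exists_gRes_DeltaQuot A q hζq hζ0
  set X : LaurentSeries K :=
    S28.DlL K * S24.twist ζ hζ0 (S28.DlL K) * qExpand K q (S28.DlLinv K) ^ 2 with hXdef
  have hεC : HahnSeries.C (((ε ^ (12 * m) : (↥A)ˣ) : ↥A) : K) ∈ gRing A :=
    (C_mem_gRing_iff A _).2 (Subtype.mem _)
  have hb : S24.twist ζ hζ0 x - x = HahnSeries.C (ζ - 1) * β := by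
    rw [hβdef, ← mul_assoc, ← map_mul, mul_inv_cancel₀ hz1, map_one, one_mul]
  have hDD := S28.DlL_mul_DlLinv (Λ := K)
  have hqL : (q : LaurentSeries K) = HahnSeries.C (q : K) := (map_natCast HahnSeries.C q).symm
  have hqL0 : (q : LaurentSeries K) ≠ 0 := by
    rw [hqL]
    exact (map_ne_zero_iff _ HahnSeries.C_injective).2 hqK
  have hpsi : psiB q ζ hζ0 m * ((q : LaurentSeries K)⁻¹ ^ (12 * m) * X ^ m) = 1 := by
    have h2 : S24.twist ζ hζ0 (S28.DlL K) * S24.twist ζ hζ0 (S28.DlLinv K) = 1 := by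
      rw [← map_mul, hDD, map_one]
    have h3 : qExpand K q (S28.DlL K) * qExpand K q (S28.DlLinv K) = 1 := by
      rw [← map_mul, hDD, map_one]
    rw [psiB, hXdef, pow_mul, ← mul_pow, ← mul_pow]
    have h4 : (q : LaurentSeries K) ^ 12 * qExpand K q (S28.DlL K) ^ 2 * S28.DlLinv K *
        S24.twist ζ hζ0 (S28.DlLinv K) * ((q : LaurentSeries K)⁻¹ ^ 12 *
        (S28.DlL K * S24.twist ζ hζ0 (S28.DlL K) * qExpand K q (S28.DlLinv K) ^ 2)) =
        ((q : LaurentSeries K) * (q : LaurentSeries K)⁻¹) ^ 12 *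
        (qExpand K q (S28.DlL K) * qExpand K q (S28.DlLinv K)) ^ 2 *
        (S28.DlL K * S28.DlLinv K) *
        (S24.twist ζ hζ0 (S28.DlL K) * S24.twist ζ hζ0 (S28.DlLinv K)) := by ring
    rw [h4, h2, h3, hDD, mul_inv_cancel₀ hqL0]
    simp
  have hpsiinv : (psiB q ζ hζ0 m)⁻¹ = (q : LaurentSeries K)⁻¹ ^ (12 * m) * X ^ m :=
    inv_eq_of_mul_eq_one_right hpsi
  have hpow : (ζ - 1) ^ (12 * m * (q - 1)) =
      (((ε ^ (12 * m) : (↥A)ˣ) : ↥A) : K) * (q : K) ^ (12 * m) := by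
    rw [mul_comm (12 * m) (q - 1), pow_mul, hε, mul_pow]
    simp
  have hmain : (S24.twist ζ hζ0 x - x) ^ (12 * m * (q - 1)) * (psiB q ζ hζ0 m)⁻¹ =
      (((⟨_, hεC⟩ : ↥(gRing A)) * (⟨β, hβ⟩ : ↥(gRing A)) ^ (12 * m * (q - 1)) *
        (⟨X, hX⟩ : ↥(gRing A)) ^ m : ↥(gRing A)) : LaurentSeries K) := by
    rw [hpsiinv, hb, mul_pow, ← map_pow, hpow, map_mul, map_pow, ← hqL]
    push_cast
    have h5 : (q : LaurentSeries K) ^ (12 * m) * (q : LaurentSeries K)⁻¹ ^ (12 * m) = 1 := by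
      rw [← mul_pow, mul_inv_cancel₀ hqL0, one_pow]
    calc HahnSeries.C (((ε ^ (12 * m) : (↥A)ˣ) : ↥A) : K) * (q : LaurentSeries K) ^ (12 * m) *
          β ^ (12 * m * (q - 1)) * ((q : LaurentSeries K)⁻¹ ^ (12 * m) * X ^ m)
        = HahnSeries.C (((ε ^ (12 * m) : (↥A)ˣ) : ↥A) : K) * β ^ (12 * m * (q - 1)) * X ^ m *
          ((q : LaurentSeries K) ^ (12 * m) * (q : LaurentSeries K)⁻¹ ^ (12 * m)) := by ring
      _ = _ := by rw [h5, mul_one]; simp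
  obtain ⟨h, hres⟩ := Res11_gRes_congr A _ hmain
  refine ⟨h, IsLocalRing.residue ↥A ((ε ^ (12 * m) : (↥A)ˣ) : ↥A), ?_, ?_⟩
  · exact ((ε ^ (12 * m)).isUnit.map (IsLocalRing.residue ↥A)).ne_zero
  · rw [hres, map_mul, map_mul, map_pow, map_pow, gRes_C, hβres, hXres]
    rw [mul_assoc]
    congr 1
    rw [mul_pow, ← pow_mul, ← pow_mul]
    congr 1
    · congr 1; ring
    · congr 1; ring

end Fermat.Agent.S36R.KS
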