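import Fermat.Agent.DR.Gal.Defs
import Fermat.Agent.GAL.Igusa.PoleSpace

/-!
# S36 route R, block R-KS: a uniformiser which is regular off the poles of `x`
-/

set_option autoImplicit false

namespace Fermat.Agent.S36R.KS

open AlgebraicCurve IntermediateField Fermat.Agent.DR.Gal

variable {k F : Type*} [Field k] [Field F] [Algebra k F]

open IsDedekindDomain IntermediateField.algebraAdjoinAdjoin in
/-- **Leaf U0.**  `F / k(x)` finite separable, `P` a place with `x ∈ O_P`: there is a uniformiser at `P` without poles
outside the poles of `x`.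
PROOF. `A₀ := Algebra.adjoin k {x}`, `B := integralClosure A₀ F` is a Dedekind domain with fraction field `F` (copy the
first lines of `GAL.Igusa.isIntegral_of_forall_mem_place`; see also the proofs in `S36R/KS/PlaceDom.lean` and of
`S36R.AA.exists_branch`).  Every element of `B` lies in `regOff k x` (`GAL.Igusa.mem_place_of_isIntegral`).
Take `ϖ : F` with `P.ord ϖ = 1` (surjectivity of `P.ord`: `Place.ord_surjective`-type lemma, or
`IsDiscreteValuationRing.exists_irreducible` for `P.toValuationSubring`).  Write `ϖ = a / s`, `a s : B`, `s ≠ 0`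
(`IsFractionRing.div_surjective`).  Let `m := {b : B | (b : F) ∈ 𝔪_P}`, a maximal ideal of `B`.
It remains to make `s ∉ m`: EITHER use that `B_m` is a valuation ring contained in `O_P`, hence equal to it (as in
`K0/PlaceOfVal.lean`, step `P.toValuationSubring ≤ V`), OR avoid fractions: `m ≠ m ^ 2` in the Dedekind domain `B`
(`m ≠ ⊥`, `m ≠ ⊤`), choose `a ∈ m \ m ^ 2`, `w : HeightOneSpectrum B := ⟨m, _, _⟩`,
`P = Place.ofHeightOneSpectrum w` (both are valuation rings `≠ F`, one contains the other: `Place.ext` + DVRs are maximal
subrings) and `w.intValuation a = exp (-1)`. -/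
theorem exists_uniformiser_regOff (x : F) (hx : Transcendental k x) [FiniteDimensional k⟮x⟯ F]
    [Algebra.IsSeparable k⟮x⟯ F] (P : Place k F) (hP : x ∈ P.toValuationSubring) :
    ∃ u ∈ regOff k x, P.ord u = 1 := by
  set V : ValuationSubring F := P.toValuationSubring with hVdef
  have hk : ∀ a : k, algebraMap k F a ∈ V := P.algebraMap_mem'
  have hV : V ≠ ⊤ := P.ne_top'
  let A := Algebra.adjoin k {x}
  let e : Polynomial k ≃ₐ[k] A := Polynomial.algEquivOfTranscendental k x hx
  have hPID : IsPrincipalIdealRing A :=
    IsPrincipalIdealRing.of_surjective e.toRingEquiv.toRingHom e.surjective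
  have : IsDedekindDomain (integralClosure A F) := integralClosure.isDedekindDomain A k⟮x⟯ F
  have : IsFractionRing (integralClosure A F) F :=
    integralClosure.isFractionRing_of_finite_extension k⟮x⟯ F
  have hRV : ∀ b : integralClosure A F, algebraMap (integralClosure A F) F b ∈ V := fun b =>
    GAL.Igusa.mem_place_of_isIntegral P hP b.2
  let φ : integralClosure A F →+* V :=
    (algebraMap (integralClosure A F) F).codRestrict V.toSubring hRV
  have hφ : ∀ b, ((φ b : V) : F) = algebraMap (integralClosure A F) F b := fun b => rfl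
  -- elements outside the centre are units of `V`
  have hunit : ∀ s : integralClosure A F, s ∉ (IsLocalRing.maximalIdeal V).comap φ →
      (algebraMap (integralClosure A F) F s)⁻¹ ∈ V := by
    intro s hs
    rw [Ideal.mem_comap, IsLocalRing.mem_maximalIdeal, mem_nonunits_iff, not_not] at hs
    obtain ⟨u, hu⟩ := hs
    have hu' : ((u : V) : F) = algebraMap (integralClosure A F) F s := by
      rw [hu]; rfl
    have hinv : (((u⁻¹ : Vˣ) : V) : F) = (algebraMap (integralClosure A F) F s)⁻¹ := by
      have h : ((u : V) : F) * (((u⁻¹ : Vˣ) : V) : F) = 1 := congrArg Subtype.val u.mul_inv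
      rw [← hu']
      exact eq_inv_of_mul_eq_one_right h
    rw [← hinv]
    exact ((u⁻¹ : Vˣ) : V).2
  let w : HeightOneSpectrum (integralClosure A F) :=
    { asIdeal := (IsLocalRing.maximalIdeal V).comap φ
      isPrime := Ideal.comap_isPrime _ _
      ne_bot := by
        intro hbot
        apply hV
        refine SetLike.ext fun z => ⟨fun _ => ValuationSubring.mem_top z, fun _ => ?_⟩
        obtain ⟨a, s, hs, rfl⟩ := IsFractionRing.div_surjective (A := integralClosure A F) z
        have hs0 : s ≠ 0 := nonZeroDivisors.ne_zero hs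
        have hsnot : s ∉ (IsLocalRing.maximalIdeal V).comap φ := by
          rw [hbot]; simpa using hs0
        rw [div_eq_mul_inv]
        exact mul_mem (hRV a) (hunit s hsnot) }
  have hVw : (w.valuation F).valuationSubring = V := by
    rw [← HeightOneSpectrum.valuationSubringAtPrime_eq_valuationSubring]
    refine ValuationSubring.eq_of_le_of_ne_top _ ?_ hV
    rw [HeightOneSpectrum.valuationSubringAtPrime_eq_valuationSubring]
    intro z hz
    rw [Valuation.mem_valuationSubring_iff] at hz
    obtain ⟨n, d, hnd⟩ := HeightOneSpectrum.exists_primeCompl_mul_eq_of_integer _ z hz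
    have hd : (d : integralClosure A F) ∉ w.asIdeal := d.2
    have hd0 : algebraMap (integralClosure A F) F d ≠ 0 := by
      intro h0
      apply hd
      have : (d : integralClosure A F) = 0 := (IsFractionRing.injective _ F) (by rw [h0, map_zero])
      rw [this]
      exact zero_mem _
    have hz' : z = algebraMap (integralClosure A F) F n *
        (algebraMap (integralClosure A F) F d)⁻¹ := by
      rw [← hnd, mul_assoc, mul_inv_cancel₀ hd0, mul_one]
    rw [hz']
    exact mul_mem (hRV n) (hunit d hd)
  obtain ⟨π, hπ⟩ := IsDiscreteValuationRing.exists_irreducible P.toValuationSubring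
  have hπw : w.valuation F (π : F) ≤ 1 := by
    rw [← Valuation.mem_valuationSubring_iff, hVw]
    exact π.2
  obtain ⟨n, d, hnd⟩ := HeightOneSpectrum.exists_primeCompl_mul_eq_of_integer _ (π : F) hπw
  have hd : (d : integralClosure A F) ∉ w.asIdeal := d.2
  have hdu : IsUnit (φ d) := by
    have h1 : (d : integralClosure A F) ∉ (IsLocalRing.maximalIdeal V).comap φ := hd
    rwa [Ideal.mem_comap, IsLocalRing.mem_maximalIdeal, mem_nonunits_iff, not_not] at h1
  obtain ⟨u, hu⟩ := hdu
  have hord : P.ord (algebraMap (integralClosure A F) F d) = 0 := by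
    rw [← hφ, ← hu]
    exact P.ord_coe_unit u
  have hd0 : algebraMap (integralClosure A F) F d ≠ 0 := by
    intro h0
    apply hd
    have : (d : integralClosure A F) = 0 := (IsFractionRing.injective _ F) (by rw [h0, map_zero])
    rw [this]
    exact zero_mem _
  have hπ0 : (π : F) ≠ 0 := fun h => hπ.ne_zero (Subtype.ext h)
  refine ⟨algebraMap (integralClosure A F) F n, fun Q hQ => ?_, ?_⟩
  · exact GAL.Igusa.mem_place_of_isIntegral Q hQ n.2
  · rw [← hnd, P.ord_mul hπ0 hd0, P.ord_coe_irreducible hπ, hord, add_zero]

end Fermat.Agent.S36R.KS
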