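import Fermat.Agent.S36R.KS.PrinAbs
import Fermat.Agent.S36R.KS.Unif
import Fermat.Agent.S36R.KS.Main
import Fermat.Agent.S36R.KS.Res11
import Fermat.Agent.S36R.Unit.Gauss

/-!
# S36 route R, block R-KS: the middle component `C11` is locally principal on the affine chart `R₀`

Semi-abstract form: the field `F` (level `M q²` over `K0`), the chart `R`, the vertical valuation rings `W`, the index `i`
of the middle component, its expansion `φ : F → Kbar((t))` and its residue map `ρ : W i → E k M` are PARAMETERS; the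
hypotheses are the deliverables of the other blocks:

* `hρ`    (VAL)  : `ρ y` is the Gauss residue of `φ y`;
* `hfull` (AA)   : `ρ R` = integral closure of `k[j̄]` in `E k M`;
* `hlift` (AA + VAL table) : every `v ∈ E k M` regular off the cusps is the residue of `φ a`, `a = π₀^* u ∈ R`, and
                   `a' = π₂^* u ∈ R` has the expansion `φ a' = (φ a)(ζ t)`;
* `hψ, hφψ` (UNIT) : `ψ = ψ_b` cuts out the component with exponent `12 m (q - 1)` and has the expansion `psiB`.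
-/

set_option autoImplicit false

noncomputable section

namespace Fermat.Agent.S36R.KS

open ModularCurve AlgebraicCurve IntermediateField Fermat.Agent.S24 Fermat.Agent.GAL
  Fermat.Agent.GAL.Gauss Fermat.Agent.DR.Gal Fermat.Agent.S36R.Inj Fermat.Agent.S36R.Unit

variable (A : ValuationSubring Kbar) (M q : ℕ) [NeZero M] [NeZero q] [Fact q.Prime]
  [CharP (IsLocalRing.ResidueField ↥A) q]

set_option quotPrecheck false in
local notation "𝕜" => IsLocalRing.ResidueField ↥A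

variable {O : Type*} [CommRing O] {F : Type*} [Field F] [Algebra O F] {ι : Type*}
variable {π : O} {W : ι → ValuationSubring F} {c : F} {R : Subring F} {i : ι}

/-- **The unit test at a non cuspidal place of the middle component.** -/
theorem test_mid (hM : ((M : ℕ) : 𝕜) ≠ 0) (hneat : 4 ∣ M ∨ 9 ∣ M)
    {ζ : Kbar} (hζ : IsPrimitiveRoot ζ q) (hζ0 : ζ ≠ 0) (m : ℕ)
    (hR : Chart π W c R) (φ : F →+* LaurentSeries Kbar) (ρ : W i →+* Igusa.E 𝕜 M)
    (hρ : ∀ y : W i, GR A (φ (y : F)) (ρ y : LaurentSeries 𝕜))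
    (hfull : AA.IsFullImage 𝕜 R (W i) ρ (Igusa.jb 𝕜 M))
    (hlift : ∀ v ∈ regOff 𝕜 (Igusa.jb 𝕜 M), ∃ a a' : R,
      GR A (φ (a : F)) (v : LaurentSeries 𝕜) ∧ φ (a' : F) = S24.twist ζ hζ0 (φ (a : F)))
    {ψ : F} (hψ : IsCut π W R ψ i (12 * m * (q - 1))) (hφψ : φ ψ = psiB q ζ hζ0 m)
    (P : Place 𝕜 (Igusa.E 𝕜 M)) (hP : Igusa.jb 𝕜 M ∈ P.toValuationSubring) :
    ∃ b u : R, (W i).valuation (b : F) < 1 ∧ (u : F) * ψ = (b : F) ^ (12 * m * (q - 1)) ∧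
      hfull.ρR u ∉ P.toValuationSubring.nonunits := by
  have := Igusa.isAlgClosed_residueField A
  have := Igusa.isSeparable_jb 𝕜 M hM
  have := Igusa.finiteDimensional_jb 𝕜 M hM
  obtain ⟨ub, hub, hord⟩ := exists_uniformiser_regOff (Igusa.jb 𝕜 M)
    (Igusa.transcendental_jb 𝕜 M) P hP
  obtain ⟨κ, hκ, hκP⟩ := KS_main A M hM hneat ub hub P hP 0 (by rwa [map_zero, sub_zero])
  obtain ⟨a, a', ha, ha'⟩ := hlift ub hub
  obtain ⟨hζA, hζA'⟩ := zeta_mem A q hζ.pow_eq_one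
  have hζ1 := residue_zeta A q hζ.pow_eq_one hζA
  have hφb : φ ((a' - a : R) : F) = S24.twist ζ hζ0 (φ (a : F)) - φ (a : F) := by
    rw [AddSubgroupClass.coe_sub, map_sub, ha']
  have hbGR : GR A (φ ((a' - a : R) : F)) 0 := by
    have h1 := (ha.twist hζ0 hζA hζA' hζ1).sub ha
    rwa [sub_self, ← hφb] at h1
  have hbW : ((a' - a : R) : F) ∈ W i := hR.le_W i _ (a' - a).2
  have hb : (W i).valuation ((a' - a : R) : F) < 1 := by
    rw [← hfull.ker ⟨_, hbW⟩]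
    exact Subtype.ext ((hρ ⟨_, hbW⟩).unique hbGR)
  have huR := hψ.pow_div_mem hR (a' - a).2 hb
  refine ⟨a' - a, ⟨_, huR⟩, hb, ?_, ?_⟩
  · show _ * ψ⁻¹ * ψ = _
    rw [mul_assoc, inv_mul_cancel₀ hψ.ne, mul_one]
  · obtain ⟨hx, hxr⟩ := ha
    obtain ⟨h, e, he, hres⟩ := res11 A q hζ hζ0 m hx
    have hκ' : theta (ub : LaurentSeries 𝕜) ^ 6 * S28.DlLinv 𝕜 = (κ : LaurentSeries 𝕜) := by
      rw [← hκ, mul_assoc, S28.DlL_mul_DlLinv, mul_one]
    rw [hxr, hκ'] at hres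
    have hφu : φ (((a' - a : R) : F) ^ (12 * m * (q - 1)) * ψ⁻¹) =
        (S24.twist ζ hζ0 (φ (a : F)) - φ (a : F)) ^ (12 * m * (q - 1)) * (psiB q ζ hζ0 m)⁻¹ := by
      rw [map_mul, map_pow, map_inv₀, hφb, hφψ]
    have h1 : GR A (φ (((a' - a : R) : F) ^ (12 * m * (q - 1)) * ψ⁻¹))
        (HahnSeries.C e * (κ : LaurentSeries 𝕜) ^ (2 * m * (q - 1))) := by
      rw [hφu]
      exact ⟨h, hres⟩
    have h2 := (hρ ⟨_, hR.le_W i _ huR⟩).unique h1
    have h3 : hfull.ρR ⟨_, huR⟩ = algebraMap 𝕜 (Igusa.E 𝕜 M) e * κ ^ (2 * m * (q - 1)) := by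
      apply Subtype.ext
      rw [hfull.ρR_apply, h2]
      have h7 : ((algebraMap 𝕜 (Igusa.E 𝕜 M) e : Igusa.E 𝕜 M) : LaurentSeries 𝕜) =
          HahnSeries.C e := Gauss.algebraMap_eq_C e
      show _ = ((algebraMap 𝕜 (Igusa.E 𝕜 M) e : Igusa.E 𝕜 M) : LaurentSeries 𝕜) *
        (κ : LaurentSeries 𝕜) ^ (2 * m * (q - 1))
      rw [h7]
    have hκ0 : κ ≠ 0 := by
      rintro rfl
      have h4 : theta (ub : LaurentSeries 𝕜) = 0 := by
        have : theta (ub : LaurentSeries 𝕜) ^ 6 = 0 := by rw [← hκ]; simp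
        exact (pow_eq_zero_iff (by norm_num)).1 this
      obtain ⟨gb, hgb⟩ := exists_theta_eq (modularFunctionFieldFullC 𝕜 M) (Igusa.jb 𝕜 M) rfl ub
      have hgb0 := dj_ne_zero A M hM hneat ub hub P hP 0 (by rwa [map_zero, sub_zero]) gb hgb
      rw [h4] at hgb
      rcases mul_eq_zero.1 hgb.symm with h5 | h5
      · exact hgb0 (Subtype.ext h5)
      · exact theta_jqModC_ne_zero 𝕜 h5
    have he' : algebraMap 𝕜 (Igusa.E 𝕜 M) e ≠ 0 := (map_ne_zero _).2 he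
    have hne : hfull.ρR ⟨_, huR⟩ ≠ 0 := by
      rw [h3]
      exact mul_ne_zero he' (pow_ne_zero _ hκ0)
    have h0 : P.ord (hfull.ρR ⟨_, huR⟩) = 0 := by
      rw [h3, P.ord_mul he' (pow_ne_zero _ hκ0), S24.ord_algebraMap, zero_add, ← zpow_natCast,
        P.ord_zpow, hκP, mul_zero]
    intro hnon
    have h5 : (hfull.ρR ⟨_, huR⟩)⁻¹ ∈ P.toValuationSubring :=
      S24.mem_of_ord_nonneg P (inv_ne_zero hne) (by rw [P.ord_inv, h0, neg_zero])
    rw [ValuationSubring.mem_nonunits_iff] at hnon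
    rw [← ValuationSubring.valuation_le_one_iff, map_inv₀] at h5
    have h6 : P.toValuationSubring.valuation (hfull.ρR ⟨_, huR⟩) ≠ 0 :=
      (Valuation.ne_zero_iff _).2 hne
    exact absurd ((inv_le_one₀ (zero_lt_iff.2 h6)).1 h5) (not_le.2 hnon)

/-- **`prin` at the closed points of the affine chart.** -/
theorem prin_mid (hM : ((M : ℕ) : 𝕜) ≠ 0) (hneat : 4 ∣ M ∨ 9 ∣ M)
    {ζ : Kbar} (hζ : IsPrimitiveRoot ζ q) (hζ0 : ζ ≠ 0) (m : ℕ)
    (hR : Chart π W c R) (φ : F →+* LaurentSeries Kbar) (ρ : W i →+* Igusa.E 𝕜 M)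
    (hρ : ∀ y : W i, GR A (φ (y : F)) (ρ y : LaurentSeries 𝕜))
    (hfull : AA.IsFullImage 𝕜 R (W i) ρ (Igusa.jb 𝕜 M))
    (hlift : ∀ v ∈ regOff 𝕜 (Igusa.jb 𝕜 M), ∃ a a' : R,
      GR A (φ (a : F)) (v : LaurentSeries 𝕜) ∧ φ (a' : F) = S24.twist ζ hζ0 (φ (a : F)))
    {ψ : F} (hψR : ψ ∈ R) (hψ : IsCut π W R ψ i (12 * m * (q - 1))) (hφψ : φ ψ = psiB q ζ hζ0 m)
    (𝔫 : Ideal R) [𝔫.IsPrime] (h𝔫 : 𝔫.IsMaximal) (hthru : Thru W 𝔫 i) :
    ∃ b ∈ locAt 𝔫, b ≠ 0 ∧ (W i).valuation b < 1 ∧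
      ∀ z ∈ locAt 𝔫, (W i).valuation z < 1 → z / b ∈ locAt 𝔫 := by
  have := Igusa.isAlgClosed_residueField A
  have := Igusa.isSeparable_jb 𝕜 M hM
  have := Igusa.finiteDimensional_jb 𝕜 M hM
  obtain ⟨b, hb⟩ := exists_locGen_of_test hR hψ hfull (Igusa.transcendental_jb 𝕜 M)
    (test_mid A M q hM hneat hζ hζ0 m hR φ ρ hρ hfull hlift hψ hφψ) 𝔫 h𝔫 hthru
  exact prin_of_locGen 𝔫 (hR.le_W i) ⟨⟨ψ, hψR⟩, hψ.ne, hψ.lt⟩ hb

end Fermat.Agent.S36R.KS
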