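import Fermat.Agent.S36R.KS.Cusp
import Fermat.Agent.S36R.AA.Deliver
import Fermat.Agent.S36R.Val.Bridge
import Fermat.Agent.S36R.NormC.Int

/-!
# S36 route R: the cusps of the chart `R₁`, for the concrete setup `S : NormC.Setup A M q`

* `cuspData S` : the hypotheses `KS.CuspData` of `KS.cusp_unique`, `KS.cusp_prin`, from `vert` and `chart₁`;
* `deliver_p₁` : the field `p₁` of `S36R.Deliver` (verbatim).
-/

set_option autoImplicit false
set_option linter.unusedSectionVars false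

noncomputable section

namespace Fermat.Agent.S36R.KS

open ModularCurve Fermat.Agent.S24 Fermat.Agent.GAL Fermat.Agent.GAL.Gauss Fermat.Agent.S36R.Inj
  Fermat.Agent.S36R.Unit Fermat.Agent.S36R.NormC Fermat.Agent.S36R.Bridge

variable {A : ValuationSubring Kbar} {M q : ℕ} [NeZero M] [NeZero q] (S : Setup A M q)

/-- the three expansions. -/
def phiS : Fin 3 → (S.F →+* LaurentSeries Kbar) := ![S.e0, S.e1, S.e2]

/-- `j(t)` at level `M`. -/
abbrev jM (A : ValuationSubring Kbar) (M : ℕ) : Val.F0 A M := Tors.Dict.jF (K0 A) M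

/-- `j(t^q)`. -/
def j₁S : S.F := Val.pi1 A M q (jM A M)

/-- `j(t^{q²})`. -/
def j₂S : S.F := Val.pi2 A M q (jM A M)

theorem hat_jM : Val.hat A M (jM A M) = jqModC Kbar := by
  rw [Val.hat_apply, Bridge.coe_jF, coeffMap_jqModC]

theorem j_eq_pi0 : S.j = Val.pi0 A M q (jM A M) := by
  apply Subtype.ext
  rw [Val.coe_pi0, Bridge.coe_jF, Bridge.coe_jF]

theorem dictS (i : Fin 3) (y : S.F) : (S.W i).valuation y < 1 ↔ GR A (phiS S i y) 0 := by
  fin_cases i
  · exact gVS_lt_one_iff (h := S.normable_e0)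
  · exact gVS_lt_one_iff (h := S.normable_e1)
  · exact gVS_lt_one_iff (h := S.normable_e2)

theorem constS (e : IsLocalRing.ResidueField ↥A) :
    ∃ c : O0 A, GR A (phiS S 1 (algebraMap (O0 A) S.F c)) (HahnSeries.C e) := by
  obtain ⟨y, rfl⟩ := (K0L.bijective_residueField_map A S.hq S.hA).2 e
  obtain ⟨c, rfl⟩ := IsLocalRing.residue_surjective y
  refine ⟨c, ?_⟩
  have h1 : phiS S 1 (algebraMap (O0 A) S.F c) = HahnSeries.C ((K0L.incl A c : ↥A) : Kbar) := by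
    show S.e1 (algebraMap (K0 A) S.F (c : K0 A)) = _
    rw [← Val.ofSetup_phi1, Val.Data.phi_algebraMap]
    rfl
  rw [h1, IsLocalRing.ResidueField.map_residue]
  exact GR.C _

theorem closed_RR {O F : Type*} [CommRing O] [Field F] [Algebra O F] (c z : F)
    (hz : IsIntegral (RR O c) z) : z ∈ RR O c := by
  have h1 : IsIntegral (integralClosure (Algebra.adjoin O {c}) F) z := hz
  exact isIntegral_trans (R := Algebra.adjoin O {c}) (A := integralClosure (Algebra.adjoin O {c}) F) z h1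

/-- **The hypotheses of `KS.cusp_unique`, `KS.cusp_prin`.** -/
theorem cuspData (hvert : Vert (q : O0 A) S.W (q - 1))
    (hchart : Chart (q : O0 A) S.W S.j⁻¹ (RR (O0 A) S.j⁻¹)) :
    CuspData A q S.ζ (S.hζ.ne_zero S.hq.ne_zero) (q : O0 A) S.W (RR (O0 A) S.j⁻¹) S.j (j₁S S)
      (j₂S S) (phiS S) where
  vert := hvert
  pi_eq := map_natCast _ _
  chart := hchart
  int_mem := fun _ hz => hz
  closed := closed_RR _
  dict := dictS S
  t00 := by
    show S.e0 S.j = _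
    rw [j_eq_pi0, Val.e0_pi0, hat_jM]
  t01 := by
    show S.e0 (Val.pi1 A M q (jM A M)) = _
    rw [Val.e0_pi1, hat_jM]
  t02 := by
    show S.e0 (Val.pi2 A M q (jM A M)) = _
    rw [Val.e0_pi2, hat_jM]
  t10 := by
    show S.e1 S.j = _
    rw [j_eq_pi0, Val.e1_pi0, hat_jM]
  t11 := by
    show S.e1 (Val.pi1 A M q (jM A M)) = _
    rw [Val.e1_pi1, hat_jM]
  t12 := by
    show S.e1 (Val.pi2 A M q (jM A M)) = _
    rw [Val.e1_pi2, hat_jM]
  t20 := by
    show S.e2 S.j = _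
    rw [j_eq_pi0, Val.e2_pi0, hat_jM]
  t21 := by
    show S.e2 (Val.pi1 A M q (jM A M)) = _
    rw [Val.e2_pi1, hat_jM]
  const := constS S

/-- **The field `p₁` of `S36R.Deliver`.** -/
theorem deliver_p₁ (hvert : Vert (q : O0 A) S.W (q - 1))
    (hchart : Chart (q : O0 A) S.W S.j⁻¹ (RR (O0 A) S.j⁻¹))
    (hM : ((M : ℕ) : IsLocalRing.ResidueField ↥A) ≠ 0) (hg : DR.Conc.GoodRed A M) (h3 : AA.ResOK S)
    (𝔫 : Ideal (RR (O0 A) S.j⁻¹)) [𝔫.IsMaximal] (hq𝔫 : (q : RR (O0 A) S.j⁻¹) ∈ 𝔫)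
    (hj : ∀ x : RR (O0 A) S.j⁻¹, (x : S.F) = S.j⁻¹ → x ∈ 𝔫) :
    S.lvl.PointOK (RR (O0 A) S.j⁻¹) 𝔫 ∧ ∃! i, Thru S.lvl.W 𝔫 i := by
  have : Fact q.Prime := ⟨S.hq⟩
  have : CharP (IsLocalRing.ResidueField ↥A) q := Hecke.charP_residueField A S.hq S.hA
  have hD := cuspData S hvert hchart
  have hπ : ∀ x : RR (O0 A) S.j⁻¹, (x : S.F) = algebraMap (O0 A) S.F (q : O0 A) → x ∈ 𝔫 := by
    intro x hx
    have : x = (q : RR (O0 A) S.j⁻¹) := Subtype.ext (by rw [hx, map_natCast]; simp)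
    rw [this]
    exact hq𝔫
  have hu : ∃! i, Thru S.lvl.W 𝔫 i := cusp_unique hD S.hζ 𝔫 hπ hj
  exact ⟨{ inc := Or.inl hu
           prin := cusp_prin hD S.hζ 𝔫 hπ hj
           vr := AA.pointOK_vr_R1 hM hg h3 𝔫 hj }, hu⟩

end Fermat.Agent.S36R.KS
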