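import Fermat.Agent.S36R.KS.ThetaGauss

/-!
# S36R / R-KS, file 9a: `q`-th roots of unity in a valuation ring of residue characteristic `q`
-/

set_option autoImplicit false

noncomputable section

namespace Fermat.Agent.S36R.KS

open ModularCurve Fermat.Agent.GAL.Gauss Fermat.Agent.DR.Conc

variable {K : Type*} [Field K] (A : ValuationSubring K) (q : ℕ) [NeZero q] [Fact q.Prime]
  [CharP (IsLocalRing.ResidueField ↥A) q]

/-- (R1) a `q`-th root of unity is a unit of `A` congruent to `1`.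
PROOF: `ζ`, `ζ⁻¹ = ζ^(q-1)` are integral over `A` (roots of `X^q - 1`), `A` is integrally closed
(or: `A.mem_or_inv_mem`, and `ζ⁻¹ ∈ A → ζ = (ζ⁻¹)^(q-1) ∈ A`).  `ζ̄^q = 1` in characteristic `q`
gives `(ζ̄ - 1)^q = 0` (`sub_pow_char`). -/
theorem zeta_mem {ζ : K} (hζ : ζ ^ q = 1) : ζ ∈ A ∧ ζ⁻¹ ∈ A := by
  have hq : q - 1 + 1 = q := Nat.sub_add_cancel (Nat.pos_of_ne_zero (NeZero.ne q))
  have h1 : ζ⁻¹ = ζ ^ (q - 1) := by
    apply inv_eq_of_mul_eq_one_left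
    rw [← pow_succ, hq, hζ]
  have h2 : ζ = ζ⁻¹ ^ (q - 1) := by
    rw [← inv_inv ζ]
    apply inv_eq_of_mul_eq_one_left
    rw [inv_inv, ← pow_succ, hq, inv_pow, hζ, inv_one]
  rcases A.mem_or_inv_mem ζ with h | h
  · exact ⟨h, by rw [h1]; exact pow_mem h _⟩
  · exact ⟨by rw [h2]; exact pow_mem h _, h⟩

theorem residue_zeta {ζ : K} (hζ : ζ ^ q = 1) (h : ζ ∈ A) :
    IsLocalRing.residue ↥A ⟨ζ, h⟩ = 1 := by
  have h1 : (IsLocalRing.residue ↥A ⟨ζ, h⟩) ^ q = 1 := by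
    rw [← map_pow]
    have : (⟨ζ, h⟩ : ↥A) ^ q = 1 := Subtype.ext (by simpa using hζ)
    rw [this, map_one]
  have h2 : (IsLocalRing.residue ↥A ⟨ζ, h⟩ - 1) ^ q = 0 := by
    rw [sub_pow_char, h1, one_pow, sub_self]
  exact sub_eq_zero.1 (pow_eq_zero_iff (Fact.out : q.Prime).ne_zero |>.1 h2)

/-- (R2) `(ζ - 1)^(q-1) = ε q` with `ε` a unit of `A`.
PROOF: `q = ∏_{i=1}^{q-1} (1 - ζ^i)` (evaluate `∑_{i<q} X^i = ∏_{i=1}^{q-1} (X - ζ^i)` at `1`: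
`Polynomial.cyclotomic_prime`, `Polynomial.cyclotomic_eq_prod_X_sub_primitiveRoots` or
`IsPrimitiveRoot.pow_sub_pow_eq_prod_sub_zeta_runity_mul` / `X_pow_sub_one_eq_prod`), and
`ζ^i - 1 = (ζ - 1) c_i`, `c_i ∈ A` with residue `i ≠ 0` for `0 < i < q` (`exists_qNumber`). -/
theorem exists_unit_eps {ζ : K} (hζ : IsPrimitiveRoot ζ q) :
    ∃ ε : (↥A)ˣ, (ζ - 1) ^ (q - 1) = ((ε : ↥A) : K) * (q : K) := by
  obtain ⟨h1, h2⟩ := zeta_mem A q hζ.pow_eq_one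
  have hζ0 : ζ ≠ 0 := hζ.ne_zero (NeZero.ne q)
  let u : (↥A)ˣ := ⟨⟨ζ, h1⟩, ⟨ζ⁻¹, h2⟩, Subtype.ext (by simp [hζ0]), Subtype.ext (by simp [hζ0])⟩
  have hu : IsLocalRing.residue ↥A (u : ↥A) = 1 := residue_zeta A q hζ.pow_eq_one h1
  obtain ⟨n, hn⟩ : ∃ n, q = n + 1 := ⟨q - 1, (Nat.sub_add_cancel (Nat.pos_of_ne_zero (NeZero.ne q))).symm⟩
  choose c hc1 hc2 using fun k : ℕ => exists_qNumber (IsLocalRing.residue ↥A) u hu ((k + 1 : ℕ) : ℤ)
  have hcu : ∀ k < n, IsUnit (c k) := by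
    intro k hk
    rw [← IsLocalRing.residue_ne_zero_iff_isUnit, hc2, Int.cast_natCast, Ne,
      CharP.cast_eq_zero_iff (IsLocalRing.ResidueField ↥A) q]
    exact Nat.not_dvd_of_pos_of_lt (Nat.succ_pos k) (by omega)
  classical
  let c' : ℕ → (↥A)ˣ := fun k => if h : IsUnit (c k) then h.unit else 1
  have hc' : ∀ k < n, ((c' k : ↥A) : K) * (ζ - 1) = ζ ^ (k + 1) - 1 := by
    intro k hk
    have e1 : (c' k : ↥A) = c k := by
      simp only [c', dif_pos (hcu k hk)]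
      exact (hcu k hk).unit_spec
    have e2 := congrArg (fun x : ↥A => (x : K)) (hc1 k)
    rw [zpow_natCast, Units.val_pow_eq_pow_val] at e2
    rw [e1, mul_comm]
    simpa [u] using e2
  have hprod := (hn ▸ hζ : IsPrimitiveRoot ζ (n + 1)).prod_pow_sub_one_eq_order
  refine ⟨((-1) ^ n * ∏ k ∈ Finset.range n, c' k)⁻¹, ?_⟩
  have e3 : (q : K) = (((((-1) ^ n * ∏ k ∈ Finset.range n, c' k : (↥A)ˣ) : (↥A)ˣ) : ↥A) : K) *
      (ζ - 1) ^ (q - 1) := by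
    have : (q : K) = (n : K) + 1 := by rw [hn]; push_cast; rfl
    rw [this, ← hprod, Finset.prod_congr rfl (fun k hk => (hc' k (Finset.mem_range.1 hk)).symm),
      Finset.prod_mul_distrib, Finset.prod_const, Finset.card_range, hn, Nat.add_sub_cancel]
    push_cast
    ring
  rw [e3, ← mul_assoc, ← MulMemClass.coe_mul, ← Units.val_mul, inv_mul_cancel]
  simp

end Fermat.Agent.S36R.KS
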