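import Fermat.Agent.DR.Conc.JqBound
import Fermat.Agent.S36R.Inj.InvIntegral

/-!
# S36 route R, block R-KS: integrality of `j_q / j^q` over `O[1 / j]` (any field, any base ring)
-/

set_option autoImplicit false

noncomputable section

namespace Fermat.Agent.S36R.KS

open ModularCurve Polynomial Fermat.Agent.S24 Fermat.Agent.S28

variable {O : Type*} [CommRing O] {F : Type*} [Field F] [Algebra O F]

theorem CuspInt_mem_adjoin (j : F) (hj : j ≠ 0) (c : ℤ[X]) (N : ℕ) (hc : c.natDegree ≤ N) :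
    evY j c * (j⁻¹) ^ N ∈ Algebra.adjoin O {j⁻¹} := by
  show c.eval₂ (Int.castRingHom F) j * (j⁻¹) ^ N ∈ Algebra.adjoin O {j⁻¹}
  rw [eval₂_eq_sum_range, Finset.sum_mul]
  refine Subalgebra.sum_mem _ fun k hk => ?_
  have hk' : k ≤ N := (Nat.lt_succ_iff.1 (Finset.mem_range.1 hk)).trans hc
  have h1 : j ^ k * (j⁻¹) ^ N = (j⁻¹) ^ (N - k) := by
    obtain ⟨d, rfl⟩ := Nat.exists_eq_add_of_le hk'
    rw [Nat.add_sub_cancel_left, pow_add, ← mul_assoc, ← mul_pow, mul_inv_cancel₀ hj, one_pow,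
      one_mul]
  rw [mul_assoc, h1]
  have h2 : j⁻¹ ∈ Algebra.adjoin O {j⁻¹} := Algebra.subset_adjoin (Set.mem_singleton _)
  have h3 : (Int.castRingHom F) (c.coeff k) ∈ Algebra.adjoin O {j⁻¹} := by
    rw [eq_intCast]
    exact intCast_mem _ _
  exact Subalgebra.mul_mem _ h3 (Subalgebra.pow_mem _ h2 _)

theorem CuspInt_evY_mem_adjoin (y : F) (c : ℤ[X]) : evY y c ∈ Algebra.adjoin O {y} := by
  show c.eval₂ (Int.castRingHom F) y ∈ Algebra.adjoin O {y}
  rw [eval₂_eq_sum_range]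
  refine Subalgebra.sum_mem _ fun k _ => ?_
  have h2 : y ∈ Algebra.adjoin O {y} := Algebra.subset_adjoin (Set.mem_singleton _)
  have h3 : (Int.castRingHom F) (c.coeff k) ∈ Algebra.adjoin O {y} := by
    rw [eq_intCast]
    exact intCast_mem _ _
  exact Subalgebra.mul_mem _ h3 (Subalgebra.pow_mem _ h2 _)

/-- **Leaf I1.**  `x` is integral over `O[y]` if `Φ(y, x) = 0`, `Φ` monic.
PROOF. every coefficient `evY y c` (`c : ℤ[X]`) lies in `Algebra.adjoin O {y}` (`Polynomial.eval₂_eq_sum_range`/induction: integers are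
`algebraMap O F (n : O)`, `map_intCast`); lift `Φ.map (evY y)` to a monic polynomial over `Algebra.adjoin O {y}`
(`Polynomial.lifts_and_natDegree_eq_and_monic`, `lifts_iff_coeff_lifts`, as at the end of `DR.Conc.isIntegral_sepFn`). -/
theorem isIntegral_of_root (Φ : ℤ[X][X]) (hΦ : Φ.Monic) {y x : F}
    (h : (Φ.map (evY y)).eval x = 0) : IsIntegral (Algebra.adjoin O {y}) x := by
  have hpm : (Φ.map (evY y)).Monic := hΦ.map (evY y)
  have hlift : Φ.map (evY y) ∈ lifts (algebraMap (Algebra.adjoin O {y}) F) := by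
    rw [lifts_iff_coeff_lifts]
    intro i
    rw [coeff_map]
    exact ⟨⟨_, CuspInt_evY_mem_adjoin y _⟩, rfl⟩
  obtain ⟨Q, hQ, -, hQm⟩ := lifts_and_natDegree_eq_and_monic hlift hpm
  refine ⟨Q, hQm, ?_⟩
  rw [← eval_map, hQ, h]

/-- **Leaf I2.**  `x / y ^ q` is integral over `O[1 / y]`.
PROOF. copy `DR.Conc.isIntegral_sepFn` (file `DR/Conc/JqBound.lean`): `(Φ.map (evY y)).scaleRoots (y⁻¹ ^ q)` is monic, kills
`y⁻¹ ^ q * x` (`scaleRoots_eval_mul`...), and its coefficients `evY y (Φ.coeff i) * (y⁻¹) ^ (q * (q + 1 - i))` lie in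
`Algebra.adjoin O {y⁻¹}` (adapt `DR.Conc.JqBound_mem_adjoin` : replace `Kbar` by `O`). -/
theorem isIntegral_div_pow (q : ℕ) (Φ : ℤ[X][X]) (hΦ : Φ.Monic) (hdeg : Φ.natDegree = q + 1)
    (hc : ∀ i, (Φ.coeff i).natDegree ≤ q * (q + 1 - i)) {y x : F} (hy : y ≠ 0)
    (h : (Φ.map (evY y)).eval x = 0) : IsIntegral (Algebra.adjoin O {y⁻¹}) (x / y ^ q) := by
  have hpm : (Φ.map (evY y)).Monic := hΦ.map (evY y)
  have hpdeg : (Φ.map (evY y)).natDegree = q + 1 := by
    rw [hΦ.natDegree_map, hdeg]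
  have hp' : ((Φ.map (evY y)).scaleRoots (y⁻¹ ^ q)).Monic := (monic_scaleRoots_iff _).2 hpm
  have hlift : (Φ.map (evY y)).scaleRoots (y⁻¹ ^ q) ∈
      lifts (algebraMap (Algebra.adjoin O {y⁻¹}) F) := by
    rw [lifts_iff_coeff_lifts]
    intro i
    rw [coeff_scaleRoots, hpdeg, coeff_map, ← pow_mul]
    exact ⟨⟨_, CuspInt_mem_adjoin _ hy _ _ (hc i)⟩, rfl⟩
  obtain ⟨Q, hQ, -, hQm⟩ := lifts_and_natDegree_eq_and_monic hlift hp'
  refine ⟨Q, hQm, ?_⟩
  rw [← eval_map, hQ]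
  have h5 : x / y ^ q = y⁻¹ ^ q * x := by
    rw [div_eq_mul_inv, inv_pow]
    exact mul_comm _ _
  rw [h5, scaleRoots_eval_mul, h, mul_zero]

/-- **Leaf I3.**  transitivity.
PROOF. `S := Algebra.adjoin O {c}`, `T := integralClosure S F` (a subalgebra over `S`).  `b ∈ T`; `algebraMap O F r ∈ T`; so every element of
`Algebra.adjoin O {b}` lies in `T` (`Algebra.adjoin_induction`).  `a` is integral over `Algebra.adjoin O {b}`: map the monic polynomial to
`T[X]` (ring hom `Algebra.adjoin O {b} →+* T`, as at the end of `Inj.isIntegral_inv_mem_locAt`), so `a` is integral over `T`, hence over `S`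
(`isIntegral_trans` / `IsIntegral.of_mem_closure`/`integralClosure_idem`). -/
theorem isIntegral_adjoin_trans {a b c : F} (h1 : IsIntegral (Algebra.adjoin O {b}) a)
    (h2 : IsIntegral (Algebra.adjoin O {c}) b) : IsIntegral (Algebra.adjoin O {c}) a := by
  have hmem : ∀ z ∈ Algebra.adjoin O {b}, IsIntegral (Algebra.adjoin O {c}) z := by
    intro z hz
    induction hz using Algebra.adjoin_induction with
    | mem x hx =>
      rw [Set.mem_singleton_iff] at hx
      rw [hx]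
      exact h2
    | algebraMap r =>
      exact (isIntegral_algebraMap (R := Algebra.adjoin O {c}) (A := F)
        (x := algebraMap O (Algebra.adjoin O {c}) r))
    | add x y _ _ hx hy => exact hx.add hy
    | mul x y _ _ hx hy => exact hx.mul hy
  obtain ⟨P, hP, hPa⟩ := h1
  let φ : Algebra.adjoin O {b} →+* integralClosure (Algebra.adjoin O {c}) F :=
    { toFun := fun u => ⟨u, hmem u u.2⟩
      map_one' := rfl
      map_mul' := fun _ _ => rfl
      map_zero' := rfl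
      map_add' := fun _ _ => rfl }
  have h3 : IsIntegral (integralClosure (Algebra.adjoin O {c}) F) a := by
    refine ⟨P.map φ, hP.map φ, ?_⟩
    rw [eval₂_map]
    exact hPa
  exact isIntegral_trans (R := Algebra.adjoin O {c})
    (A := integralClosure (Algebra.adjoin O {c}) F) a h3

/-- **Leaf I4.**  the modular polynomial.
PROOF. `obtain ⟨Φ, U, G, m, c, hm, hΦ, hU, hU0, hc, hUeq, hK⟩ := S28.statementB S28.statementA q hq`,
`⟨ζ, hζ⟩ := DR.Conc.JqBound_exists_zeta q`, `⟨hfac, -, -⟩ := hK Kbar ζ hζ`; `DR.Conc.JqBound_natDegree`, `DR.Conc.natDegree_coeff_le`,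
`DR.Conc.JqBound_series_root` (`S28.evJ Kbar = evY (jqModC Kbar)` is `rfl`), and for the last one `hfac` with the factor `b = 0`
(`rootFin ζ 0 = jqModC Kbar`: `pow_zero`, `S28.twist` of `1`; see `Unit.psiOf_down`/`Unit.psiOf_tw` in `S36R/Unit/Psi.lean`;
`S28.evBase q Kbar = evY (qExpand Kbar q (jqModC Kbar))` is `rfl`). -/
theorem exists_Phi (q : ℕ) [NeZero q] (hq : q.Prime) :
    ∃ Φ : ℤ[X][X], Φ.Monic ∧ Φ.natDegree = q + 1 ∧
      (∀ i, (Φ.coeff i).natDegree ≤ q * (q + 1 - i)) ∧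
      (Φ.map (evY (jqModC Kbar))).eval (qExpand Kbar q (jqModC Kbar)) = 0 ∧
      (Φ.map (evY (qExpand Kbar q (jqModC Kbar)))).eval (jqModC Kbar) = 0 := by
  obtain ⟨Φ, U, G, m, c, hm, hΦ, hU, hU0, hc, hUeq, hK⟩ := S28.statementB S28.statementA q hq
  obtain ⟨ζ, hζ⟩ := DR.Conc.JqBound_exists_zeta q
  obtain ⟨hfac, -, -⟩ := hK Kbar ζ hζ
  refine ⟨Φ, hΦ, DR.Conc.JqBound_natDegree q Φ hΦ ζ hfac,
    fun i => DR.Conc.natDegree_coeff_le q hq Φ hΦ ζ hfac i,
    DR.Conc.JqBound_series_root q Φ ζ hfac, ?_⟩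
  have h0 : S28.rootFin ζ 0 = jqModC Kbar := by
    rw [S28.rootFin, pow_zero]
    ext n
    rw [S28.twist_coeff]
    simp
  have hq0 : 0 ∈ Finset.range q := Finset.mem_range.2 (Nat.pos_of_ne_zero (NeZero.ne q))
  show (Φ.map (S28.evBase q Kbar)).eval (jqModC Kbar) = 0
  rw [hfac, eval_mul, eval_prod, Finset.prod_eq_zero hq0, mul_zero]
  rw [eval_sub, eval_X, eval_C, h0, sub_self]

end Fermat.Agent.S36R.KS
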