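import Fermat.Agent.S36R.KS.Res11
import Fermat.Agent.S36R.KS.JIdentity
import Fermat.Agent.S36R.Unit.Table
import Fermat.Agent.S36.RC.Conc.Hasse

/-!
# S36 route R, block R-KS: the series computations at the cusps

`K` a field, `A` a valuation ring of residue characteristic `q`, residue field `𝕜`, `J = j(t) = jqModC K`,
`J̄ = jqModC 𝕜`, `ζ` a `q`-th root of unity.  `GR A x r` : `x ∈ K((t))` is Gauss integral with residue `r`.

* `T0a .. T2, T1x` : the table of congruences of `h₁ = j_q / j^q`, `h₂ = j_{q²} / j_q^q`, `h₂' = j_q / j_{q²}^q`, `x = j / j_{q²}`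
  on the three vertical components;
* `GR_unit`  : `(J / J(ζ t) - 1)^(q-1) / q` has residue `e (θ J̄ / J̄)^(q-1)`, `e ≠ 0`;
* `exists_hasse_poly` : `Δ̄^(1-q) / J̄^(q-1)` is a polynomial in `1 / J̄`;
* `unit_identity` : `(e (θ J̄ / J̄)^(q-1))^12 (Δ̄^(1-q) / J̄^(q-1))^2 = e^12 (1 - 1728 / J̄)^(6 (q-1))`;
* `exists_lift_poly` : lifting polynomials in `w̄` with coefficients in `𝕜`.
-/

set_option autoImplicit false

noncomputable section

namespace Fermat.Agent.S36R.KS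

open ModularCurve Polynomial Fermat.Agent.GAL.Gauss Fermat.Agent.S36R.Unit

section Table

variable {K : Type*} [Field K] (A : ValuationSubring K) (q : ℕ) [NeZero q] [Fact q.Prime]
  [CharP (IsLocalRing.ResidueField ↥A) q]

set_option quotPrecheck false in
local notation "𝕜" => IsLocalRing.ResidueField ↥A

omit [NeZero q] [Fact q.Prime] [CharP (IsLocalRing.ResidueField ↥A) q] in
theorem GR_sub_zero {x y : LaurentSeries K} {r : LaurentSeries 𝕜} (hx : GR A x r) (hy : GR A y r) :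
    GR A (x - y) 0 := by
  have := hx.sub hy
  rwa [sub_self] at this

omit [NeZero q] [Fact q.Prime] [CharP (IsLocalRing.ResidueField ↥A) q] in
theorem CuspSeries_sub_one {x : LaurentSeries K} {r : LaurentSeries 𝕜} (hx : GR A x r)
    (hr : r = 1) : GR A (x - 1) 0 := by
  subst hr
  exact GR_sub_zero A hx GR.one

theorem CuspSeries_div_pow {L : Type*} [Field L] {y : L} (hy : y ≠ 0) {n : ℕ} (hn : 0 < n) :
    y / y ^ n = y⁻¹ ^ (n - 1) := by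
  obtain ⟨m, rfl⟩ : ∃ m, n = m + 1 := ⟨n - 1, by omega⟩
  rw [Nat.add_sub_cancel, pow_succ, inv_pow]
  field_simp

theorem jqModC_ne_zero' (k : Type*) [Field k] : jqModC k ≠ 0 := by
  intro h
  apply theta_jqModC_ne_zero k
  rw [h, map_zero]

/-- **Leaf T.**  All the lemmas `T0a .. T1x`: `GR_j`, `GR.qExpand`, `GR.twist` (with `zeta_mem`, `residue_zeta`), `GR.div`, `GR.pow`,
`GR.inv`, `GR.one`, `GR_sub_zero`, `Unit.qExpand_j : qExpand 𝕜 q J̄ = J̄ ^ q`, `jqModC_ne_zero'`, then an identity in the field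
`𝕜((t))` (`field_simp`, `pow_mul`, `pow_add` ...). -/
theorem T0a : GR A (qExpand K q (jqModC K) / jqModC K ^ q - 1) 0 := by
  have hJ : jqModC 𝕜 ≠ 0 := jqModC_ne_zero' 𝕜
  refine CuspSeries_sub_one A (((GR_j (A := A)).qExpand q).div ((GR_j (A := A)).pow q)
    (pow_ne_zero _ hJ)) ?_
  rw [Unit.qExpand_j, div_self (pow_ne_zero _ hJ)]

theorem T0b :
    GR A (qExpand K q (qExpand K q (jqModC K)) / qExpand K q (jqModC K) ^ q - 1) 0 := by
  have hJ : jqModC 𝕜 ≠ 0 := jqModC_ne_zero' 𝕜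
  have hJq : qExpand 𝕜 q (jqModC 𝕜) ≠ 0 := by rw [Unit.qExpand_j]; exact pow_ne_zero _ hJ
  refine CuspSeries_sub_one A ((((GR_j (A := A)).qExpand q).qExpand q).div
    (((GR_j (A := A)).qExpand q).pow q) (pow_ne_zero _ hJq)) ?_
  rw [Unit.qExpand_j, map_pow, Unit.qExpand_j, div_self (pow_ne_zero _ (pow_ne_zero _ hJ))]

theorem T1b {ζ : K} (hζ : ζ ^ q = 1) (hζ0 : ζ ≠ 0) :
    GR A (S24.twist ζ hζ0 (jqModC K) / qExpand K q (jqModC K) ^ q - (jqModC K)⁻¹ ^ (q ^ 2 - 1)) 0 := by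
  have hJ : jqModC 𝕜 ≠ 0 := jqModC_ne_zero' 𝕜
  have hJq : qExpand 𝕜 q (jqModC 𝕜) ≠ 0 := by rw [Unit.qExpand_j]; exact pow_ne_zero _ hJ
  obtain ⟨hA, hA'⟩ := zeta_mem A q hζ
  have h1 := residue_zeta A q hζ hA
  have hq : 0 < q ^ 2 := pow_pos (Nat.pos_of_ne_zero (NeZero.ne q)) 2
  have e1 := ((GR_j (A := A)).twist hζ0 hA hA' h1).div (((GR_j (A := A)).qExpand q).pow q)
    (pow_ne_zero _ hJq)
  have e2 := ((GR_j (A := A)).inv hJ).pow (q ^ 2 - 1)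
  rw [Unit.qExpand_j 𝕜 q, ← pow_mul, ← sq, CuspSeries_div_pow hJ hq] at e1
  exact GR_sub_zero A e1 e2

theorem T1c {ζ : K} (hζ : ζ ^ q = 1) (hζ0 : ζ ≠ 0) :
    GR A (qExpand K q (jqModC K) / S24.twist ζ hζ0 (jqModC K) ^ q - 1) 0 := by
  have hJ : jqModC 𝕜 ≠ 0 := jqModC_ne_zero' 𝕜
  obtain ⟨hA, hA'⟩ := zeta_mem A q hζ
  have h1 := residue_zeta A q hζ hA
  refine CuspSeries_sub_one A (((GR_j (A := A)).qExpand q).div
    (((GR_j (A := A)).twist hζ0 hA hA' h1).pow q) (pow_ne_zero _ hJ)) ?_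
  rw [Unit.qExpand_j, div_self (pow_ne_zero _ hJ)]

theorem T1x {ζ : K} (hζ : ζ ^ q = 1) (hζ0 : ζ ≠ 0) :
    GR A (jqModC K / S24.twist ζ hζ0 (jqModC K) - 1) 0 := by
  have hJ : jqModC 𝕜 ≠ 0 := jqModC_ne_zero' 𝕜
  obtain ⟨hA, hA'⟩ := zeta_mem A q hζ
  have h1 := residue_zeta A q hζ hA
  exact CuspSeries_sub_one A ((GR_j (A := A)).div ((GR_j (A := A)).twist hζ0 hA hA' h1) hJ)
    (div_self hJ)

theorem T2 :
    GR A ((qExpand K q (jqModC K) / qExpand K q (qExpand K q (jqModC K)) ^ q) ^ q -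
      (qExpand K q (qExpand K q (jqModC K)))⁻¹ ^ (q ^ 2 - 1)) 0 := by
  have hJ : jqModC 𝕜 ≠ 0 := jqModC_ne_zero' 𝕜
  have hq : 0 < q ^ 2 := pow_pos (Nat.pos_of_ne_zero (NeZero.ne q)) 2
  have hY : qExpand 𝕜 q (qExpand 𝕜 q (jqModC 𝕜)) = (jqModC 𝕜 ^ q) ^ q := by
    rw [Unit.qExpand_j, map_pow, Unit.qExpand_j]
  have hY0 : (jqModC 𝕜 ^ q) ^ q ≠ 0 := pow_ne_zero _ (pow_ne_zero _ hJ)
  have e1 := (((GR_j (A := A)).qExpand q).div ((((GR_j (A := A)).qExpand q).qExpand q).pow q)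
    (pow_ne_zero _ (by rw [hY]; exact hY0))).pow q
  have e2 := ((((GR_j (A := A)).qExpand q).qExpand q).inv (by rw [hY]; exact hY0)).pow (q ^ 2 - 1)
  rw [hY] at e1 e2
  have hres : (jqModC 𝕜 ^ q / ((jqModC 𝕜 ^ q) ^ q) ^ q) ^ q = ((jqModC 𝕜 ^ q) ^ q)⁻¹ ^ (q ^ 2 - 1) := by
    rw [div_pow, ← pow_mul ((jqModC 𝕜 ^ q) ^ q), ← sq, CuspSeries_div_pow hY0 hq]
  rw [Unit.qExpand_j 𝕜 q, hres] at e1
  exact GR_sub_zero A e1 e2

/-- **Leaf U.**  PROOF. `hA, hA' := zeta_mem A q hζ.pow_eq_one`, `h1 := residue_zeta ..`, `ζ ≠ 1` (`hζ.ne_one`, `q` prime `> 1`).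
`D := C (ζ - 1)⁻¹ * (twist ζ J - J)`: `GR A D (θ J̄)` (`twist_sub_mem_gRing`, `gRes_twist_sub`, `GR_j`).
`ε` from `exists_unit_eps A q hζ : (ζ - 1)^(q-1) = ε q`.  `(q : K) ≠ 0` (`hζ.neZero'`), `(q : K((t))) = C (q : K)` (`map_natCast`).
`J / twist ζ J - 1 = - C (ζ - 1) * D / twist ζ J`, so
`(J / twist ζ J - 1)^(q-1) * (q)⁻¹ = C ((-1)^(q-1) * ε) * (D / twist ζ J)^(q-1)`; `e :=` the residue of the unit `(-1)^(q-1) ε`
(`GR.C`), `GR.twist`, `GR.div`, `GR.pow`, `GR.mul`. -/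
theorem GR_unit {ζ : K} (hζ : IsPrimitiveRoot ζ q) (hζ0 : ζ ≠ 0) :
    ∃ e : 𝕜, e ≠ 0 ∧
      GR A ((jqModC K / S24.twist ζ hζ0 (jqModC K) - 1) ^ (q - 1) * (q : LaurentSeries K)⁻¹)
        (HahnSeries.C e * (theta (jqModC 𝕜) * (jqModC 𝕜)⁻¹) ^ (q - 1)) := by
  obtain ⟨hA, hA'⟩ := zeta_mem A q hζ.pow_eq_one
  have h1 := residue_zeta A q hζ.pow_eq_one hA
  have hne : ζ ≠ 1 := hζ.ne_one (Fact.out : q.Prime).one_lt
  have hJ : GR A (jqModC K) (jqModC 𝕜) := GR_j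
  have hJζ : GR A (S24.twist ζ hζ0 (jqModC K)) (jqModC 𝕜) := hJ.twist hζ0 hA hA' h1
  have hD : GR A (HahnSeries.C (ζ - 1)⁻¹ * (S24.twist ζ hζ0 (jqModC K) - jqModC K))
      (theta (jqModC 𝕜)) := by
    obtain ⟨hm, hr⟩ := hJ
    exact ⟨twist_sub_mem_gRing A hζ0 hA hA' h1 hne hm,
      (gRes_twist_sub A hζ0 hA hA' h1 hne hm).trans (by rw [hr])⟩
  have hJb0 : jqModC 𝕜 ≠ 0 := jqModC_ne_zero' 𝕜
  have hJζ0 : S24.twist ζ hζ0 (jqModC K) ≠ 0 :=
    (map_ne_zero (S24.twist ζ hζ0)).mpr (jqModC_ne_zero' K)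
  obtain ⟨ε, hε⟩ := exists_unit_eps A q hζ
  have hq0 : (q : K) ≠ 0 := (hζ.neZero').out
  have hqC : (q : LaurentSeries K) = HahnSeries.C (q : K) := (map_natCast HahnSeries.C q).symm
  have hζ1 : ζ - 1 ≠ 0 := sub_ne_zero.mpr hne
  have hu : IsUnit ((-1 : ↥A) ^ (q - 1) * (ε : ↥A)) :=
    ((isUnit_one.neg).pow _).mul ε.isUnit
  refine ⟨IsLocalRing.residue ↥A ((-1 : ↥A) ^ (q - 1) * (ε : ↥A)),
    (IsLocalRing.residue_ne_zero_iff_isUnit _).mpr hu, ?_⟩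
  have key : (jqModC K / S24.twist ζ hζ0 (jqModC K) - 1) ^ (q - 1) * (q : LaurentSeries K)⁻¹ =
      HahnSeries.C ((((-1 : ↥A) ^ (q - 1) * (ε : ↥A) : ↥A)) : K) *
        (HahnSeries.C (ζ - 1)⁻¹ * (S24.twist ζ hζ0 (jqModC K) - jqModC K) /
          S24.twist ζ hζ0 (jqModC K)) ^ (q - 1) := by
    have hCC : (HahnSeries.C (ζ - 1) : LaurentSeries K) * HahnSeries.C (ζ - 1)⁻¹ = 1 := by
      rw [← map_mul, mul_inv_cancel₀ hζ1, map_one]
    have e1 : jqModC K / S24.twist ζ hζ0 (jqModC K) - 1 =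
        -1 * HahnSeries.C (ζ - 1) *
          (HahnSeries.C (ζ - 1)⁻¹ * (S24.twist ζ hζ0 (jqModC K) - jqModC K) /
            S24.twist ζ hζ0 (jqModC K)) := by
      rw [mul_div_assoc, mul_assoc (-1 : LaurentSeries K), ← mul_assoc (HahnSeries.C (ζ - 1)), hCC,
        one_mul]
      field_simp
      ring
    have e2 : (HahnSeries.C ((((-1 : ↥A) ^ (q - 1) * (ε : ↥A) : ↥A)) : K) : LaurentSeries K) =
        (-1) ^ (q - 1) * HahnSeries.C (ζ - 1) ^ (q - 1) * (q : LaurentSeries K)⁻¹ := by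
      have hqC0 : (HahnSeries.C (q : K) : LaurentSeries K) ≠ 0 :=
        (map_ne_zero (HahnSeries.C : K →+* LaurentSeries K)).mpr hq0
      rw [hqC, ← map_pow, hε, map_mul, mul_assoc, mul_assoc, mul_inv_cancel₀ hqC0, mul_one]
      push_cast
      rw [map_mul, map_pow, map_neg, map_one]
    rw [e1, e2, mul_pow, mul_pow]
    ring
  rw [key, ← div_eq_mul_inv]
  exact (GR.C _).mul ((hD.div hJζ hJb0).pow _)

end Table

section Hasse

variable (k : Type) [Field k] (q : ℕ) [NeZero q] [Fact q.Prime] [CharP k q]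

/-- **Leaf H1 (the Hasse invariant is a polynomial in `j`).**  `Δ̄^(1-q) / J̄^(q-1)` is a polynomial in `1 / J̄`.
PROOF. `obtain ⟨Φ, U, G, m, c, hm, hΦ, hU, hU0, hc, hUeq, -⟩ := GAL.Igusa.hB q (Fact.out)` (`S28.StatementB`).
In `ℤ((t))` put `y'' := qExpand ℤ q (DlL ℤ) * DlLinv ℤ`, `y' := DlL ℤ * qExpand ℤ q (DlLinv ℤ)`, `y'' * y' = 1`
(`S28.DlL_mul_DlLinv`, `map_mul`), `y := q^12 * y''`; `hUeq : (U.map (evJ ℤ)).eval y = 0`.
Write `U = X * (X * U₂ + C u₁) + C (C c)` (`Polynomial.divX_mul_X_add` twice, `hU0`), so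
`y * (y * T + evJ ℤ u₁) + c = 0` with `T := (U₂.map (evJ ℤ)).eval y`.  `c * c = q^24` gives `c = q^12 ∨ c = - q^12`.
`ℤ((t))` is a domain and `(q : ℤ((t))) ≠ 0`: cancel `q^12`, multiply by `y'`:  `evJ ℤ u₁ + q^12 * y'' * T = ∓ y'`.
Apply `coeffMap (Int.castRingHom k)` (`(q : k) = 0`; `S28.coeffMap_DlL`, `S28.coeffMap_DlLinv`, `coeffMap_qExpand`,
`coeffMap_jqModC`; `S28.bs_coeffMap_eval`-type lemmas for `evJ`):  `P(J̄) = DlL k * qExpand k q (DlLinv k) = DlL k * DlLinv k ^ q`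
(`Unit.qExpand_Dlinv`) with `P := (∓ u₁).map (Int.castRingHom k) : k[X]`.
DEGREE: `HahnSeries.addVal`: `v (J̄) = -1` (`DR.Conc.JqBound_val_jqModC`), so `v (P(J̄)) = - natDegree P` (as in
`DR.Conc.JqBound_val_eval₂`, with `f = C`, `v (C a) = 0` for `a ≠ 0`), `v (DlL k) = 1`, `v (DlLinv k) = -1`
(from `DlL k * DlLinv k = 1` and `v (DlL k) = 1`: `DlL k = t * ∏ (1 - t^n)^24`, see `S28` for its definition/first coefficient).
Hence `natDegree P = q - 1` and `p := P.reverse` works: `Polynomial.eval₂_reverse_mul_pow`. -/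
theorem exists_hasse_poly :
    ∃ p : k[X], S28.DlL k * S28.DlLinv k ^ q * (jqModC k)⁻¹ ^ (q - 1) =
      p.eval₂ HahnSeries.C (jqModC k)⁻¹ := by
  obtain ⟨Φ, U, G, m, c, hB⟩ := GAL.Igusa.hB q (Fact.out)
  obtain ⟨R, -, hdeg, hR⟩ :=
    Fermat.Agent.S36.RC.exists_hasse_poly (hB : S28.BData q Φ U G m c) Fact.out k
  have hJ : jqModC k ≠ 0 := jqModC_ne_zero_of_nontrivial k
  refine ⟨R.reverse, ?_⟩
  let _ : Invertible (jqModC k) := invertibleOfNonzero hJ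
  have h1 := Polynomial.eval₂_reverse_mul_pow (HahnSeries.C : k →+* LaurentSeries k) (jqModC k) R
  rw [invOf_eq_inv, hdeg] at h1
  have h2 : eval₂ (HahnSeries.C : k →+* LaurentSeries k) (jqModC k) R = aeval (jqModC k) R := by
    have h3 : (HahnSeries.C : k →+* LaurentSeries k) = algebraMap k (LaurentSeries k) :=
      RingHom.ext fun r => by
        rw [algebraMap_laurentSeries_eq_single]
        rfl
    rw [aeval_def, h3]
  rw [← hR, ← h2, ← h1, mul_assoc, ← mul_pow, mul_inv_cancel₀ hJ, one_pow, mul_one]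

omit [NeZero q] [Fact q.Prime] [CharP k q] in
/-- **Leaf ID.**  `theta_jqModC_pow_six k : θ(J̄)^6 = Δ̄ J̄^4 (J̄ - 1728)^3` (check its exact form), `S28.DlL_mul_DlLinv`,
`jqModC_ne_zero'`; write `q = n + 1`; everything is an identity in the field `k((t))`. -/
theorem unit_identity (hq : 0 < q) (e : k) :
    (HahnSeries.C e * (theta (jqModC k) * (jqModC k)⁻¹) ^ (q - 1)) ^ 12 *
        (S28.DlL k * S28.DlLinv k ^ q * (jqModC k)⁻¹ ^ (q - 1)) ^ 2 =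
      HahnSeries.C (e ^ 12) * (1 - 1728 * (jqModC k)⁻¹) ^ (6 * (q - 1)) := by
  obtain ⟨n, rfl⟩ : ∃ n, q = n + 1 := ⟨q - 1, by omega⟩
  have hθ := theta_jqModC_pow_six k
  have hD := S28.DlL_mul_DlLinv (Λ := k)
  have hJ := jqModC_ne_zero' k
  rw [Nat.add_sub_cancel]
  generalize theta (jqModC k) = θ at *
  generalize S28.DlL k = D at *
  generalize S28.DlLinv k = Di at *
  generalize jqModC k = J at *
  have hB : (1 - 1728 * J⁻¹) = (J - 1728) * J⁻¹ := by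
    rw [sub_mul, mul_inv_cancel₀ hJ]
  rw [hB]
  generalize J - 1728 = B at *
  have h1 : (HahnSeries.C e * (θ * J⁻¹) ^ n) ^ 12 * (D * Di ^ (n + 1) * J⁻¹ ^ n) ^ 2 =
      (HahnSeries.C e) ^ 12 * ((θ ^ 6) ^ (2 * n)) * D ^ 2 * Di ^ (2 * n + 2) * (J⁻¹) ^ (14 * n) := by
    ring
  rw [h1, hθ]
  have h2 : (HahnSeries.C e) ^ 12 * ((D * J ^ 4 * B ^ 3) ^ (2 * n)) * D ^ 2 *
      Di ^ (2 * n + 2) * (J⁻¹) ^ (14 * n) =
      (HahnSeries.C e) ^ 12 * (D * Di) ^ (2 * n + 2) * (J * J⁻¹) ^ (8 * n) *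
        (B * J⁻¹) ^ (6 * n) := by
    ring
  rw [h2, hD, mul_inv_cancel₀ hJ, one_pow, one_pow, map_pow, mul_one, mul_one]

end Hasse

section Lift

variable {K : Type*} [Field K] (A : ValuationSubring K)
variable {O : Type*} [CommRing O] {F : Type*} [Field F] [Algebra O F]

set_option quotPrecheck false in
local notation "𝕜" => IsLocalRing.ResidueField ↥A

/-- **Leaf LP.**  Induction on `p` (`Polynomial.induction_on'`): sums (`GR.add`, `add_mem`), monomials `C a * X ^ n`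
(`hconst a`, `GR.mul`, `GR.pow`; `Subalgebra.algebraMap_mem`, `Algebra.subset_adjoin`). -/
theorem exists_lift_poly (φ : F →+* LaurentSeries K)
    (hconst : ∀ e : 𝕜, ∃ c : O, GR A (φ (algebraMap O F c)) (HahnSeries.C e))
    {w : F} {wb : LaurentSeries 𝕜} (hw : GR A (φ w) wb) (p : 𝕜[X]) :
    ∃ l ∈ Algebra.adjoin O {w}, GR A (φ l) (p.eval₂ HahnSeries.C wb) := by
  induction p using Polynomial.induction_on' with
  | add p₁ p₂ h₁ h₂ =>
    obtain ⟨l₁, hl₁, hg₁⟩ := h₁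
    obtain ⟨l₂, hl₂, hg₂⟩ := h₂
    refine ⟨l₁ + l₂, add_mem hl₁ hl₂, ?_⟩
    rw [map_add, Polynomial.eval₂_add]
    exact hg₁.add hg₂
  | monomial n a =>
    obtain ⟨c, hc⟩ := hconst a
    refine ⟨algebraMap O F c * w ^ n,
      (Algebra.adjoin O {w}).mul_mem ((Algebra.adjoin O {w}).algebraMap_mem c)
        ((Algebra.adjoin O {w}).pow_mem (Algebra.subset_adjoin (Set.mem_singleton w)) n), ?_⟩
    rw [map_mul, map_pow, Polynomial.eval₂_monomial]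
    exact hc.mul (hw.pow n)

end Lift

end Fermat.Agent.S36R.KS
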