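import Fermat.Agent.S36R.KS.CuspAbs
import Fermat.Agent.S36R.KS.CuspSeries
import Fermat.Agent.S36R.KS.CuspInt

/-!
# S36 route R, block R-KS: the cusps of the chart `R₁` (semi-abstract main theorems)

Parameters: `F` (level `M q²` over `K0`), `O`, `π`, the three vertical valuation rings `W`, the chart `R = R₁` with coordinate
`j₀⁻¹`, the three `j`-invariants `j₀, j₁, j₂ = j, j_q, j_{q²}`, the three expansions `φ i : F → Kbar((t))`.

* `cusp_unique` : exactly one component passes through a cuspidal prime `𝔫` (`π, j₀⁻¹ ∈ 𝔫`);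
* `cusp_prin`   : the middle component is locally principal at `𝔫` (field `prin` of `Lvl.PointOK`).
-/

set_option autoImplicit false
set_option linter.unusedSectionVars false

noncomputable section

namespace Fermat.Agent.S36R.KS

open ModularCurve Polynomial Fermat.Agent.S24 Fermat.Agent.GAL.Gauss Fermat.Agent.S36R.Inj
  Fermat.Agent.S36R.Unit Fermat.Agent.S36R.Local

/-- The hypotheses at the cusps. -/
structure CuspData (A : ValuationSubring Kbar) (q : ℕ) [NeZero q] (ζ : Kbar) (hζ0 : ζ ≠ 0)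
    {O : Type*} [CommRing O] {F : Type*} [Field F] [Algebra O F] (π : O)
    (W : Fin 3 → ValuationSubring F) (R : Subring F) (j₀ j₁ j₂ : F)
    (φ : Fin 3 → (F →+* LaurentSeries Kbar)) : Prop where
  vert : Vert π W (q - 1)
  pi_eq : algebraMap O F π = (q : F)
  chart : Chart π W j₀⁻¹ R
  int_mem : ∀ z : F, IsIntegral (Algebra.adjoin O {j₀⁻¹}) z → z ∈ R
  closed : ∀ z : F, IsIntegral R z → z ∈ R
  dict : ∀ i (y : F), (W i).valuation y < 1 ↔ GR A (φ i y) 0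
  t00 : φ 0 j₀ = jqModC Kbar
  t01 : φ 0 j₁ = qExpand Kbar q (jqModC Kbar)
  t02 : φ 0 j₂ = qExpand Kbar q (qExpand Kbar q (jqModC Kbar))
  t10 : φ 1 j₀ = jqModC Kbar
  t11 : φ 1 j₁ = qExpand Kbar q (jqModC Kbar)
  t12 : φ 1 j₂ = S24.twist ζ hζ0 (jqModC Kbar)
  t20 : φ 2 j₀ = qExpand Kbar q (qExpand Kbar q (jqModC Kbar))
  t21 : φ 2 j₁ = qExpand Kbar q (jqModC Kbar)
  const : ∀ e : IsLocalRing.ResidueField ↥A,
    ∃ c : O, GR A (φ 1 (algebraMap O F c)) (HahnSeries.C e)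

variable {A : ValuationSubring Kbar} {q : ℕ} [NeZero q] [Fact q.Prime]
  [CharP (IsLocalRing.ResidueField ↥A) q] {ζ : Kbar} {hζ0 : ζ ≠ 0}
  {O : Type*} [CommRing O] {F : Type*} [Field F] [Algebra O F] {π : O}
  {W : Fin 3 → ValuationSubring F} {R : Subring F} {j₀ j₁ j₂ : F}
  {φ : Fin 3 → (F →+* LaurentSeries Kbar)}

set_option quotPrecheck false in
local notation "𝕜" => IsLocalRing.ResidueField ↥A

namespace CuspData

variable (D : CuspData A q ζ hζ0 π W R j₀ j₁ j₂ φ)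

include D

theorem j₀_ne : j₀ ≠ 0 := by
  intro h
  have := D.t00
  rw [h, map_zero] at this
  exact jqModC_ne_zero' Kbar this.symm

theorem j₁_ne : j₁ ≠ 0 := by
  intro h
  have := D.t01
  rw [h, map_zero] at this
  exact (map_ne_zero (qExpand Kbar q)).2 (jqModC_ne_zero' Kbar) this.symm

theorem j₂_ne : j₂ ≠ 0 := by
  intro h
  have := D.t02
  rw [h, map_zero] at this
  exact (map_ne_zero (qExpand Kbar q)).2
    ((map_ne_zero (qExpand Kbar q)).2 (jqModC_ne_zero' Kbar)) this.symm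

/-- the four modular equations. -/
theorem exists_Phi' : ∃ Φ : ℤ[X][X], Φ.Monic ∧ Φ.natDegree = q + 1 ∧
      (∀ i, (Φ.coeff i).natDegree ≤ q * (q + 1 - i)) ∧
      (Φ.map (S28.evY j₀)).eval j₁ = 0 ∧ (Φ.map (S28.evY j₁)).eval j₀ = 0 ∧
      (Φ.map (S28.evY j₁)).eval j₂ = 0 ∧ (Φ.map (S28.evY j₂)).eval j₁ = 0 := by
  obtain ⟨Φ, h1, h2, h3, h4, h5⟩ := exists_Phi q (Fact.out : q.Prime)
  refine ⟨Φ, h1, h2, h3, ?_, ?_, ?_, ?_⟩
  · apply (φ 0).injective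
    rw [S28.map_eval_evY, D.t00, D.t01, h4, map_zero]
  · apply (φ 0).injective
    rw [S28.map_eval_evY, D.t00, D.t01, h5, map_zero]
  · apply (φ 0).injective
    rw [S28.map_eval_evY, D.t01, D.t02, ← S28.map_eval_evY, h4, map_zero, map_zero]
  · apply (φ 0).injective
    rw [S28.map_eval_evY, D.t01, D.t02, ← S28.map_eval_evY, h5, map_zero, map_zero]

variable (𝔫 : Ideal R) [𝔫.IsPrime] (hj : ∀ x : R, (x : F) = j₀⁻¹ → x ∈ 𝔫)

include hj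

theorem w_mem : j₀⁻¹ ∈ mAt 𝔫 := coe_mem_mAt (hj ⟨j₀⁻¹, D.chart.c_mem⟩ rfl)

theorem h₁_mem : j₁ / j₀ ^ q ∈ locAt 𝔫 := by
  obtain ⟨Φ, h1, h2, h3, e1, -, -, -⟩ := D.exists_Phi'
  exact le_locAt 𝔫 (D.int_mem _ (isIntegral_div_pow q Φ h1 h2 h3 D.j₀_ne e1))

theorem h₂_mem : j₂ / j₁ ^ q ∈ locAt 𝔫 := by
  obtain ⟨Φ, h1, h2, h3, -, e2, e3, -⟩ := D.exists_Phi'
  exact isIntegral_inv_mem_locAt (O := O) D.j₀_ne D.j₁_ne (isIntegral_of_root Φ h1 e2) D.int_mem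
    D.closed 𝔫 hj _ (isIntegral_div_pow q Φ h1 h2 h3 D.j₁_ne e3)

theorem h₂'_mem : j₁ / j₂ ^ q ∈ locAt 𝔫 := by
  obtain ⟨Φ, h1, h2, h3, -, e2, -, e4⟩ := D.exists_Phi'
  exact isIntegral_inv_mem_locAt (O := O) D.j₀_ne D.j₂_ne
    (isIntegral_adjoin_trans (isIntegral_of_root Φ h1 e2) (isIntegral_of_root Φ h1 e4)) D.int_mem
    D.closed 𝔫 hj _ (isIntegral_div_pow q Φ h1 h2 h3 D.j₂_ne e4)

end CuspData

variable (D : CuspData A q ζ hζ0 π W R j₀ j₁ j₂ φ) (hζ : IsPrimitiveRoot ζ q)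
  (𝔫 : Ideal R) [𝔫.IsPrime] (hπ : ∀ x : R, (x : F) = algebraMap O F π → x ∈ 𝔫)
  (hj : ∀ x : R, (x : F) = j₀⁻¹ → x ∈ 𝔫)

include D hζ hπ hj

/-- **Exactly one component passes through a cusp.** -/
theorem cusp_unique : ∃! i, Thru W 𝔫 i := by
  have hq2 : 0 < q ^ 2 - 1 := by
    have : 2 ≤ q := (Fact.out : q.Prime).two_le
    have : 4 ≤ q ^ 2 := by nlinarith
    omega
  refine cusp_existsUnique 𝔫 D.vert D.chart hπ (q := q) hq2 (D.w_mem 𝔫 hj) (D.h₁_mem 𝔫 hj)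
    (D.h₂_mem 𝔫 hj) ?_ ?_ ?_ ?_ ?_
  · rw [D.dict, map_sub, map_div₀, map_pow, map_one, D.t00, D.t01]
    exact T0a A q
  · rw [D.dict, map_sub, map_div₀, map_pow, map_one, D.t01, D.t02]
    exact T0b A q
  · rw [D.dict, map_sub, map_div₀, map_pow, map_one, D.t10, D.t11]
    exact T0a A q
  · rw [D.dict, map_sub, map_div₀, map_pow, map_pow, map_inv₀, D.t10, D.t11, D.t12]
    exact T1b A q hζ.pow_eq_one hζ0
  · rw [D.dict, map_sub, map_pow, map_div₀, map_pow, map_pow, map_inv₀, D.t20, D.t21]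
    exact T2 A q

/-- **The middle component is locally principal at the cusps.** -/
theorem cusp_prin (hthru : Thru W 𝔫 1) :
    ∃ b ∈ locAt 𝔫, b ≠ 0 ∧ (W 1).valuation b < 1 ∧
      ∀ z ∈ locAt 𝔫, (W 1).valuation z < 1 → z / b ∈ locAt 𝔫 := by
  have hq : q.Prime := Fact.out
  have hq1 : 0 < q - 1 := by have := hq.two_le; omega
  obtain ⟨i, hi, huniq⟩ := cusp_unique D hζ 𝔫 hπ hj
  have hoff : ∀ j, j ≠ 1 → ¬ Thru W 𝔫 j := fun j hj1 hjt =>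
    hj1 ((huniq j hjt).trans (huniq 1 hthru).symm)
  have hRW := D.chart.le_W 1
  have one_mem' : (1 : F) ∈ locAt 𝔫 := one_mem _
  have hj0 := D.j₀_ne
  have hj1 := D.j₁_ne
  have hj2 := D.j₂_ne
  have key : ∀ x : F, x - 1 ∈ mAt 𝔫 → x ∉ mAt 𝔫 := fun x hx hx' =>
    one_notMem_mAt (𝔫 := 𝔫) (by have := sub_mem_mAt hx' hx; rwa [sub_sub_cancel] at this)
  have a1 : j₁ / j₀ ^ q - 1 ∈ mAt 𝔫 :=
    mem_mAt_of_thru hRW hthru (sub_mem (D.h₁_mem 𝔫 hj) one_mem') (by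
      rw [D.dict, map_sub, map_div₀, map_pow, map_one, D.t10, D.t11]
      exact T0a A q)
  have u1 := inv_mem_locAt_of_notMem_mAt (D.h₁_mem 𝔫 hj) (key _ a1)
  have hx : j₀ / j₂ ∈ locAt 𝔫 := by
    apply locAt_root_closed 𝔫 D.chart.root_closed _ q hq.pos
    have h1 : (j₀ / j₂) ^ q = (j₁ / j₂ ^ q) * (j₁ / j₀ ^ q)⁻¹ := by
      rw [div_pow]
      field_simp
    rw [h1]
    exact mul_mem (D.h₂'_mem 𝔫 hj) u1
  have hb : j₀ / j₂ - 1 ∈ locAt 𝔫 := sub_mem hx one_mem'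
  have hbv : (W 1).valuation (j₀ / j₂ - 1) < 1 := by
    rw [D.dict, map_sub, map_div₀, map_one, D.t10, D.t12]
    exact T1x A q hζ.pow_eq_one hζ0
  refine prin_of_unique 𝔫 D.vert D.chart hq1 1 hoff hb hbv ?_
  -- the unit test
  obtain ⟨e, he, hU⟩ := GR_unit A q hζ hζ0
  obtain ⟨p, hp⟩ := exists_hasse_poly 𝕜 q
  have hw : GR A (φ 1 j₀⁻¹) (jqModC 𝕜)⁻¹ := by
    rw [map_inv₀, D.t10]
    exact GR_j.inv (jqModC_ne_zero' 𝕜)
  obtain ⟨l, hl, hlGR⟩ := exists_lift_poly A (φ 1) D.const hw p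
  obtain ⟨c₀, hc₀⟩ := D.const (e ^ 12)
  obtain ⟨c₁, hc₁⟩ := D.const (e ^ 12)⁻¹
  have hlR : l ∈ R :=
    D.int_mem l (isIntegral_algebraMap (x := (⟨l, hl⟩ : Algebra.adjoin O {j₀⁻¹})))
  have hwm := D.w_mem 𝔫 hj
  have hc₀R : algebraMap O F c₀ ∈ locAt 𝔫 := le_locAt 𝔫 (D.chart.algebraMap_mem c₀)
  have hc₁R : algebraMap O F c₁ ∈ locAt 𝔫 := le_locAt 𝔫 (D.chart.algebraMap_mem c₁)
  have hc₀m : algebraMap O F c₀ ∉ mAt 𝔫 := by
    intro hm
    refine key _ (mem_mAt_of_thru hRW hthru (sub_mem (mul_mem hc₁R hc₀R) one_mem') ?_)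
      (mul_mem_mAt hc₁R hm)
    rw [D.dict, map_sub, map_mul, map_one]
    refine GR_sub_zero A (hc₁.mul hc₀) ?_
    rw [← map_mul, inv_mul_cancel₀ (pow_ne_zero _ he), map_one]
    exact GR.one
  have h1728 : (1728 : F) ∈ locAt 𝔫 := by
    have : (1728 : F) = ((1728 : ℕ) : F) := by norm_num
    rw [this]
    exact natCast_mem _ _
  have hy : 1 - 1728 * j₀⁻¹ ∈ locAt 𝔫 :=
    sub_mem one_mem' (mul_mem h1728 (mem_locAt_of_mem_mAt hwm))
  have hym : 1 - 1728 * j₀⁻¹ ∉ mAt 𝔫 := by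
    apply key
    have : 1 - 1728 * j₀⁻¹ - 1 = -(1728 * j₀⁻¹) := by ring
    rw [this]
    exact neg_mem_mAt (mul_mem_mAt h1728 hwm)
  have hg : algebraMap O F c₀ * (1 - 1728 * j₀⁻¹) ^ (6 * (q - 1)) ∈ locAt 𝔫 :=
    mul_mem hc₀R (pow_mem hy _)
  have hg' : algebraMap O F c₀ * (1 - 1728 * j₀⁻¹) ^ (6 * (q - 1)) ∉ mAt 𝔫 := by
    intro hm
    rcases mem_or_mem_of_mul_mem_mAt hc₀R (pow_mem hy _) hm with h | h
    · exact hc₀m h
    · exact hym (mem_mAt_of_pow_mem hy _ h)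
  refine notMem_mAt_of_cong 𝔫 hRW hthru (n := 12) (l := l ^ 2) (by norm_num)
    (pow_mem (le_locAt 𝔫 hlR) 2) hg hg' ?_
  rw [D.dict, map_sub]
  have hφu : φ 1 ((j₀ / j₂ - 1) ^ (q - 1) * (algebraMap O F π)⁻¹) =
      (jqModC Kbar / S24.twist ζ hζ0 (jqModC Kbar) - 1) ^ (q - 1) * (q : LaurentSeries Kbar)⁻¹ := by
    rw [map_mul, map_pow, map_sub, map_div₀, map_one, map_inv₀, D.pi_eq, map_natCast, D.t10, D.t12]
  have g1 : GR A (φ 1 (((j₀ / j₂ - 1) ^ (q - 1) * (algebraMap O F π)⁻¹) ^ 12 * l ^ 2))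
      ((HahnSeries.C e * (theta (jqModC 𝕜) * (jqModC 𝕜)⁻¹) ^ (q - 1)) ^ 12 *
        (p.eval₂ HahnSeries.C (jqModC 𝕜)⁻¹) ^ 2) := by
    rw [map_mul, map_pow, map_pow, hφu]
    exact (hU.pow 12).mul (hlGR.pow 2)
  have g2 : GR A (φ 1 (algebraMap O F c₀ * (1 - 1728 * j₀⁻¹) ^ (6 * (q - 1))))
      (HahnSeries.C (e ^ 12) * (1 - 1728 * (jqModC 𝕜)⁻¹) ^ (6 * (q - 1))) := by
    rw [map_mul, map_pow, map_sub, map_mul, map_one, map_ofNat]
    have h3 : GR A (1728 : LaurentSeries Kbar) (1728 : LaurentSeries 𝕜) := by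
      have := GR.natCast (A := A) 1728
      simpa using this
    exact hc₀.mul ((GR.one.sub (h3.mul hw)).pow _)
  rw [← hp, unit_identity 𝕜 q hq.pos e] at g1
  exact GR_sub_zero A g1 g2

end Fermat.Agent.S36R.KS
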