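import Fermat.Agent.S36R.Unit.Abs
import Fermat.Agent.S36R.Local.LocAt

/-!
# S36 route R, block R-KS: the cusps of the chart `R₁` (abstract local algebra)

`B = locAt 𝔫 ⊆ F` the local ring of the chart `R` at the prime `𝔫`, `mAt 𝔫 ⊆ F` its maximal ideal.

* `cusp_existsUnique` : three functions `w, h₁, h₂` which separate the three components at `𝔫`
  ⟹ exactly one component passes through `𝔫`;
* `pow_div_pi_mem`    : if `W i` is the only component through `𝔫`: `z ^ E / π ∈ B` for `z ∈ B` in the centre of `W i`;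
* `prin_of_unique`    : ... and `b` generates the centre if `b ^ E / π` is a unit of `B`;
* `notMem_mAt_of_cong`: the unit test by a congruence along the component.
-/

set_option autoImplicit false

namespace Fermat.Agent.S36R.KS

open Fermat.Agent.S36R.Inj Fermat.Agent.S36R.Local

variable {O : Type*} [CommRing O] {F : Type*} [Field F] [Algebra O F] {ι : Type*}
variable {π : O} {W : ι → ValuationSubring F} {c : F} {R : Subring F}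

/-- the maximal ideal of `locAt 𝔫`, as a subset of `F`. -/
def mAt (𝔫 : Ideal R) : Set F := {z | ∃ s t : R, s ∉ 𝔫 ∧ t ∈ 𝔫 ∧ z * s = t}

section API

variable (𝔫 : Ideal R) [𝔫.IsPrime]

theorem mem_mAt_iff {z : F} : z ∈ mAt 𝔫 ↔ ∃ h : z ∈ locAt 𝔫, ¬ IsUnit (⟨z, h⟩ : locAt 𝔫) := by
  constructor
  · rintro ⟨s, t, hs, ht, h⟩
    have hz : z ∈ locAt 𝔫 := ⟨s, hs, by rw [mul_comm, h]; exact t.2⟩
    exact ⟨hz, (not_isUnit_locAt_iff 𝔫 ⟨z, hz⟩).2 ⟨s, t, hs, ht, h⟩⟩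
  · rintro ⟨h, hu⟩
    exact (not_isUnit_locAt_iff 𝔫 ⟨z, h⟩).1 hu

variable {𝔫}

theorem mem_locAt_of_mem_mAt {z : F} (hz : z ∈ mAt 𝔫) : z ∈ locAt 𝔫 := ((mem_mAt_iff 𝔫).1 hz).1

theorem coe_mem_mAt {x : R} (hx : x ∈ 𝔫) : (x : F) ∈ mAt 𝔫 :=
  ⟨1, x, (Ideal.ne_top_iff_one 𝔫).1 (Ideal.IsPrime.ne_top ‹_›), hx, by simp⟩

theorem mem_mAt_iff_maximalIdeal {z : F} (h : z ∈ locAt 𝔫) :
    z ∈ mAt 𝔫 ↔ (⟨z, h⟩ : locAt 𝔫) ∈ (isLocalRing_locAt 𝔫).maximalIdeal (locAt 𝔫) := by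
  have := isLocalRing_locAt 𝔫
  rw [IsLocalRing.mem_maximalIdeal, mem_nonunits_iff, mem_mAt_iff]
  exact ⟨fun ⟨_, h2⟩ => h2, fun h2 => ⟨h, h2⟩⟩

theorem add_mem_mAt {a b : F} (ha : a ∈ mAt 𝔫) (hb : b ∈ mAt 𝔫) : a + b ∈ mAt 𝔫 := by
  have ha' := mem_locAt_of_mem_mAt ha
  have hb' := mem_locAt_of_mem_mAt hb
  rw [mem_mAt_iff_maximalIdeal (add_mem ha' hb')]
  exact Ideal.add_mem _ ((mem_mAt_iff_maximalIdeal ha').1 ha) ((mem_mAt_iff_maximalIdeal hb').1 hb)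

theorem neg_mem_mAt {a : F} (ha : a ∈ mAt 𝔫) : -a ∈ mAt 𝔫 := by
  have ha' := mem_locAt_of_mem_mAt ha
  rw [mem_mAt_iff_maximalIdeal (neg_mem ha')]
  exact (Ideal.neg_mem_iff _).2 ((mem_mAt_iff_maximalIdeal ha').1 ha)

theorem sub_mem_mAt {a b : F} (ha : a ∈ mAt 𝔫) (hb : b ∈ mAt 𝔫) : a - b ∈ mAt 𝔫 := by
  rw [sub_eq_add_neg]
  exact add_mem_mAt ha (neg_mem_mAt hb)

theorem mul_mem_mAt {a b : F} (ha : a ∈ locAt 𝔫) (hb : b ∈ mAt 𝔫) : a * b ∈ mAt 𝔫 := by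
  have hb' := mem_locAt_of_mem_mAt hb
  rw [mem_mAt_iff_maximalIdeal (mul_mem ha hb')]
  exact Ideal.mul_mem_left _ ⟨a, ha⟩ ((mem_mAt_iff_maximalIdeal hb').1 hb)

theorem one_notMem_mAt : (1 : F) ∉ mAt 𝔫 := by
  rw [mem_mAt_iff]
  rintro ⟨h, hu⟩
  exact hu isUnit_one

theorem mem_or_mem_of_mul_mem_mAt {a b : F} (ha : a ∈ locAt 𝔫) (hb : b ∈ locAt 𝔫)
    (hab : a * b ∈ mAt 𝔫) : a ∈ mAt 𝔫 ∨ b ∈ mAt 𝔫 := by
  have := isLocalRing_locAt 𝔫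
  rw [mem_mAt_iff_maximalIdeal ha, mem_mAt_iff_maximalIdeal hb]
  exact (IsLocalRing.maximalIdeal.isMaximal (locAt 𝔫)).isPrime.mem_or_mem
    ((mem_mAt_iff_maximalIdeal (mul_mem ha hb)).1 hab)

theorem mem_mAt_of_pow_mem {a : F} (ha : a ∈ locAt 𝔫) (n : ℕ) (h : a ^ n ∈ mAt 𝔫) : a ∈ mAt 𝔫 := by
  have := isLocalRing_locAt 𝔫
  rw [mem_mAt_iff_maximalIdeal ha]
  exact (IsLocalRing.maximalIdeal.isMaximal (locAt 𝔫)).isPrime.mem_of_pow_mem n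
    ((mem_mAt_iff_maximalIdeal (pow_mem ha n)).1 h)

theorem pow_mem_mAt {a : F} (ha : a ∈ mAt 𝔫) {n : ℕ} (hn : 0 < n) : a ^ n ∈ mAt 𝔫 := by
  obtain ⟨k, rfl⟩ : ∃ k, n = k + 1 := ⟨n - 1, by omega⟩
  rw [pow_succ]
  exact mul_mem_mAt (pow_mem (mem_locAt_of_mem_mAt ha) k) ha

theorem inv_mem_locAt_of_notMem_mAt {a : F} (ha : a ∈ locAt 𝔫) (h : a ∉ mAt 𝔫) :
    a⁻¹ ∈ locAt 𝔫 := by
  have hu : IsUnit (⟨a, ha⟩ : locAt 𝔫) := by
    by_contra hu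
    exact h ((mem_mAt_iff 𝔫).2 ⟨ha, hu⟩)
  obtain ⟨⟨b, hb⟩, hab⟩ := isUnit_iff_exists_inv.1 hu
  have h1 : a * b = 1 := congrArg Subtype.val hab
  rw [inv_eq_of_mul_eq_one_right h1]
  exact hb

theorem locAt_le_of_thru {i : ι} (hRW : ∀ z ∈ R, z ∈ W i) (hthru : Thru W 𝔫 i) {z : F}
    (hz : z ∈ locAt 𝔫) : z ∈ W i := by
  obtain ⟨s, hs, hsz⟩ := hz
  have h1 : (W i).valuation (s : F) = 1 := by
    refine le_antisymm ((ValuationSubring.valuation_le_one_iff _ _).2 (hRW _ s.2)) ?_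
    by_contra hlt
    exact hs (hthru s (not_le.1 hlt))
  have h2 := (ValuationSubring.valuation_le_one_iff _ _).2 (hRW _ hsz)
  rw [map_mul, h1, one_mul] at h2
  exact (ValuationSubring.valuation_le_one_iff _ _).1 h2

theorem mem_mAt_of_thru {i : ι} (hRW : ∀ z ∈ R, z ∈ W i) (hthru : Thru W 𝔫 i) {z : F}
    (hz : z ∈ locAt 𝔫) (hv : (W i).valuation z < 1) : z ∈ mAt 𝔫 := by
  obtain ⟨s, hs, hsz⟩ := hz
  refine ⟨s, ⟨_, hsz⟩, hs, hthru _ ?_, mul_comm _ _⟩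
  show (W i).valuation ((s : F) * z) < 1
  rw [map_mul, mul_comm]
  exact mul_lt_one_of_lt_of_le hv ((ValuationSubring.valuation_le_one_iff _ _).2 (hRW _ s.2))

end API

section Main

variable {E : ℕ} (𝔫 : Ideal R) [𝔫.IsPrime]

/-- **Exactly one component passes through a cusp.**  (`w = 1 / j`, `h₁ = j_q / j ^ q`, `h₂ = j_{q²} / j_q ^ q`.) -/
theorem cusp_existsUnique {W : Fin 3 → ValuationSubring F} (hV : Vert π W E) (hR : Chart π W c R)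
    (hπ : ∀ x : R, (x : F) = algebraMap O F π → x ∈ 𝔫)
    {w h₁ h₂ : F} {n q : ℕ} (hn : 0 < n)
    (hw : w ∈ mAt 𝔫) (hh₁ : h₁ ∈ locAt 𝔫) (hh₂ : h₂ ∈ locAt 𝔫)
    (t0a : (W 0).valuation (h₁ - 1) < 1) (t0b : (W 0).valuation (h₂ - 1) < 1)
    (t1a : (W 1).valuation (h₁ - 1) < 1) (t1b : (W 1).valuation (h₂ - w ^ n) < 1)
    (t2 : (W 2).valuation (h₁ ^ q - w ^ n) < 1) : ∃! i, Thru W 𝔫 i := by
  have hwn : w ^ n ∈ mAt 𝔫 := pow_mem_mAt hw hn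
  have hwn' := mem_locAt_of_mem_mAt hwn
  have h1 : (1 : F) ∈ locAt 𝔫 := one_mem _
  have key : ∀ x : F, x ∈ mAt 𝔫 → x - 1 ∈ mAt 𝔫 → False := by
    intro x hx hx1
    have := sub_mem_mAt hx hx1
    rw [sub_sub_cancel] at this
    exact one_notMem_mAt this
  have T0 : Thru W 𝔫 0 → h₁ - 1 ∈ mAt 𝔫 ∧ h₂ - 1 ∈ mAt 𝔫 := fun ht =>
    ⟨mem_mAt_of_thru (hR.le_W 0) ht (sub_mem hh₁ h1) t0a,
      mem_mAt_of_thru (hR.le_W 0) ht (sub_mem hh₂ h1) t0b⟩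
  have T1 : Thru W 𝔫 1 → h₁ - 1 ∈ mAt 𝔫 ∧ h₂ ∈ mAt 𝔫 := fun ht => by
    refine ⟨mem_mAt_of_thru (hR.le_W 1) ht (sub_mem hh₁ h1) t1a, ?_⟩
    have := add_mem_mAt (mem_mAt_of_thru (hR.le_W 1) ht (sub_mem hh₂ hwn') t1b) hwn
    rwa [sub_add_cancel] at this
  have T2 : Thru W 𝔫 2 → h₁ ∈ mAt 𝔫 := fun ht => by
    have := add_mem_mAt (mem_mAt_of_thru (hR.le_W 2) ht (sub_mem (pow_mem hh₁ q) hwn') t2) hwn
    rw [sub_add_cancel] at this
    exact mem_mAt_of_pow_mem hh₁ q this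
  obtain ⟨i, hi⟩ := Unit.exists_thru hV hR 𝔫 hπ
  refine ⟨i, hi, fun j hj => ?_⟩
  fin_cases i <;> fin_cases j <;> first
    | rfl
    | exact (key _ (T1 (by assumption)).2 (T0 (by assumption)).2).elim
    | exact (key _ (T2 (by assumption)) (T0 (by assumption)).1).elim
    | exact (key _ (T2 (by assumption)) (T1 (by assumption)).1).elim

variable [Finite ι]

/-- if `W i` is the only component through `𝔫`: `z ^ E / π ∈ B` for `z ∈ B` in the centre of `W i`. -/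
theorem pow_div_pi_mem (hV : Vert π W E) (hR : Chart π W c R) (i : ι)
    (hoff : ∀ j, j ≠ i → ¬ Thru W 𝔫 j) {z : F} (hz : z ∈ locAt 𝔫)
    (hv : (W i).valuation z < 1) : z ^ E * (algebraMap O F π)⁻¹ ∈ locAt 𝔫 := by
  obtain ⟨s, hs, hsW⟩ := Unit.exists_off hR.le_W 𝔫
  obtain ⟨s₀, hs₀, hsz⟩ := hz
  have h1 : ((s : F) * ((s₀ : F) * z)) ^ E * (algebraMap O F π)⁻¹ ∈ R := by
    apply hR.sat
    · rw [mul_comm, mul_assoc, inv_mul_cancel₀ hV.pi_ne, mul_one]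
      exact pow_mem (mul_mem s.2 hsz) E
    · intro j
      have hpos := zero_lt_iff.mpr ((Valuation.ne_zero_iff (W j).valuation).mpr hV.pi_ne)
      rw [← ValuationSubring.valuation_le_one_iff, map_mul, map_pow, map_inv₀, ← div_eq_mul_inv]
      apply (div_le_one₀ hpos).mpr
      apply hV.disc j
      rw [map_mul]
      by_cases hj : j = i
      · subst hj
        rw [mul_comm, map_mul, mul_comm ((W j).valuation (s₀ : F))]
        exact mul_lt_one_of_lt_of_le (mul_lt_one_of_lt_of_le hv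
          ((ValuationSubring.valuation_le_one_iff _ _).mpr (hR.le_W j _ s₀.2)))
          ((ValuationSubring.valuation_le_one_iff _ _).mpr (hR.le_W j _ s.2))
      · exact mul_lt_one_of_lt_of_le (hsW j (hoff j hj))
          ((ValuationSubring.valuation_le_one_iff _ _).mpr (hR.le_W j _ hsz))
  refine ⟨(s * s₀) ^ E, fun hmem => Ideal.IsPrime.mul_notMem ‹_› hs hs₀
    (Ideal.IsPrime.mem_of_pow_mem ‹_› E hmem), ?_⟩
  have h2 : (((s * s₀) ^ E : R) : F) * (z ^ E * (algebraMap O F π)⁻¹) =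
      ((s : F) * ((s₀ : F) * z)) ^ E * (algebraMap O F π)⁻¹ := by
    push_cast
    ring
  rw [h2]
  exact h1

/-- **Principality at a point of a single component.** -/
theorem prin_of_unique (hV : Vert π W E) (hR : Chart π W c R) (hE : 0 < E) (i : ι)
    (hoff : ∀ j, j ≠ i → ¬ Thru W 𝔫 j) {b : F} (hb : b ∈ locAt 𝔫)
    (hbv : (W i).valuation b < 1) (hu : b ^ E * (algebraMap O F π)⁻¹ ∉ mAt 𝔫) :
    ∃ b' ∈ locAt 𝔫, b' ≠ 0 ∧ (W i).valuation b' < 1 ∧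
      ∀ z ∈ locAt 𝔫, (W i).valuation z < 1 → z / b' ∈ locAt 𝔫 := by
  have hub := pow_div_pi_mem 𝔫 hV hR i hoff hb hbv
  have hb0 : b ≠ 0 := by
    rintro rfl
    apply hu
    rw [zero_pow hE.ne', zero_mul]
    exact coe_mem_mAt (zero_mem 𝔫)
  refine ⟨b, hb, hb0, hbv, fun z hz hzv => ?_⟩
  apply locAt_root_closed 𝔫 hR.root_closed _ E hE
  have h1 : (z / b) ^ E = (z ^ E * (algebraMap O F π)⁻¹) * (b ^ E * (algebraMap O F π)⁻¹)⁻¹ := by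
    have := hV.pi_ne
    rw [div_pow]
    field_simp
  rw [h1]
  exact mul_mem (pow_div_pi_mem 𝔫 hV hR i hoff hz hzv) (inv_mem_locAt_of_notMem_mAt hub hu)

omit [Finite ι] in
/-- **The unit test by a congruence along the component.** -/
theorem notMem_mAt_of_cong {i : ι} (hRW : ∀ z ∈ R, z ∈ W i) (hthru : Thru W 𝔫 i) {u l g : F}
    {n : ℕ} (hn : 0 < n) (hl : l ∈ locAt 𝔫) (hg : g ∈ locAt 𝔫)
    (hg' : g ∉ mAt 𝔫) (hcong : (W i).valuation (u ^ n * l - g) < 1) : u ∉ mAt 𝔫 := by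
  intro hum
  have h1 : u ^ n * l ∈ mAt 𝔫 := by
    rw [mul_comm]
    exact mul_mem_mAt hl (pow_mem_mAt hum hn)
  have h2 := mem_mAt_of_thru hRW hthru (sub_mem (mem_locAt_of_mem_mAt h1) hg) hcong
  have h3 := sub_mem_mAt h1 h2
  rw [sub_sub_cancel] at h3
  exact hg' h3

end Main

end Fermat.Agent.S36R.KS
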