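import Fermat.Agent.GAL.Tors.Dict.ExactRam
import Fermat.Agent.GAL.Igusa.Numerics
import Fermat.Agent.GAL.Hecke.DegreeAlpha
import Fermat.Agent.Lib.Count.Main

/-!
# S36R / R-KS, file 6a: characteristic zero, the ramification of `j` on `FN M`, `M` neat

(`4 ∣ M ∨ 9 ∣ M`: no elliptic points): `ord_jF_sub_generic`, `ord_jF_of_neat`,
`ord_jF_sub_1728_of_neat`: ramification indices `1`, `3`, `2`.
-/

set_option autoImplicit false

noncomputable section

namespace Fermat.Agent.S36R.KS

open ModularCurve AlgebraicCurve IntermediateField Fermat.Agent.S24 Fermat.Agent.GAL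
open scoped MatrixGroups

variable (M : ℕ) [NeZero M]

/-- `j` is unramified over `c ≠ 0, 1728`.
PROOF: exactly the first bullet in the proof of `S24.genus_eq_genusFormula_of_families`
(`S24/Branch.lean`): `EmbedFN.fgen M (fun g h => mem_Gamma0_of_kleinJ_mulH_smul_eq g h) c h0 h1`,
`ord_eq_one_of_order_eq_one`, `finrank_jF_of_family`. -/
theorem ord_jF_sub_generic (c : Kbar) (h0 : c ≠ 0) (h1 : c ≠ 1728) (Q : Place Kbar (FN M))
    (h : 0 < Q.ord (jF M - algebraMap Kbar (FN M) c)) :
    Q.ord (jF M - algebraMap Kbar (FN M) c) = 1 := by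
  obtain ⟨fam⟩ := EmbedFN.fgen M (fun g h => mem_Gamma0_of_kleinJ_mulH_smul_eq g h) c h0 h1
  have hn := finrank_jF_of_family M fam
  have := finiteDimensional_jF M
  have hfd : FiniteDimensional Kbar⟮jF M - algebraMap Kbar (FN M) c⟯ (FN M) := by
    rw [adjoin_sub_const_eq]; infer_instance
  exact ord_eq_one_of_order_eq_one (jF M - algebraMap Kbar (FN M) c)
    (transcendental_sub_const (transcendental_jF M) c)
    (by rw [adjoin_sub_const_eq, hn]) fam.σ fam.inj fam.const fam.agree
    (fun i => by rw [fam.order i]; rfl) Q h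

/-- abstract form of the two ramified cases: `g ^ p` acts trivially (`p` prime), `g` has no fixed
point `⟹` every zero of `x` has order `p`.
PROOF: `exists_embedding_of_place` gives `i` with `v = ringOf (σ i)`;
`Tors.Dict.ord_eq_minimalPeriod`: `v.ord x = minimalPeriod (g • ·) i`, which divides `p`
(`Function.IsPeriodicPt.minimalPeriod_dvd`) and is not `1` (`Function.minimalPeriod_eq_one_iff`
/ `Function.IsFixedPt`). -/
theorem ord_eq_prime_of_family {k F ι G : Type*} [Field k] [IsAlgClosed k] [CharZero k] [Field F]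
    [Algebra k F] [Group G] [MulAction G ι] [Finite ι] (x : F) (hx : Transcendental k x)
    [FiniteDimensional k⟮x⟯ F] (hcard : Nat.card ι = Module.finrank k⟮x⟯ F) (p : ℕ) (hp : p.Prime)
    (g : G) (fam : LocalFamily k F ι G x p g) (hgp : ∀ i : ι, g ^ p • i = i)
    (hfix : ∀ i : ι, g • i ≠ i) (v : Place k F) (hv : 0 < v.ord x) : v.ord x = p := by
  classical
  cases nonempty_fintype ι
  have hcard' : Fintype.card ι = Module.finrank k⟮x⟯ F := by
    rw [← hcard, Nat.card_eq_fintype_card]
  obtain ⟨i, hi⟩ := exists_embedding_of_place x hx hcard' fam.σ fam.inj fam.const fam.agree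
    (fun i => by unfold ordOf; rw [fam.order i]; exact_mod_cast hp.pos) v hv
  have h1 := Tors.Dict.ord_eq_minimalPeriod x hx hcard fam.σ fam.inj fam.const fam.agree p hp.pos
    fam.order g fam.ζ fam.prim fam.rot i v hi
  rw [h1]
  have hper : Function.IsPeriodicPt (g • ·) p i := by
    show (g • ·)^[p] i = i
    rw [smul_iterate]
    exact hgp i
  rcases (Nat.dvd_prime hp).mp hper.minimalPeriod_dvd with h | h
  · exact absurd (Function.minimalPeriod_eq_one_iff_isFixedPt.mp h) (hfix i)
  · rw [h]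

/-- `S * T` has no fixed point on `SL(2,ℤ) ⧸ Γ₀(M)`, `M` neat.
PROOF: `Lib.Count.card_fixedBy_ST`, `Igusa.nuThree_eq_zero`, `Nat.card_eq_zero` + finiteness. -/
theorem ST_smul_ne (hneat : 4 ∣ M ∨ 9 ∣ M) (i : SL(2, ℤ) ⧸ CongruenceSubgroup.Gamma0 M) :
    (ModularGroup.S * ModularGroup.T) • i ≠ i := by
  intro h
  have hcard := Fermat.Agent.Lib.Gamma0Count.card_fixedBy_ST (N := M)
  rw [Igusa.nuThree_eq_zero hneat] at hcard
  rcases Nat.card_eq_zero.mp hcard with hemp | hinf
  · exact hemp.elim ⟨i, h⟩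
  · exact hinf.not_finite inferInstance

/-- `S` has no fixed point on `SL(2,ℤ) ⧸ Γ₀(M)`, `M` neat. -/
theorem S_smul_ne (hneat : 4 ∣ M ∨ 9 ∣ M) (i : SL(2, ℤ) ⧸ CongruenceSubgroup.Gamma0 M) :
    ModularGroup.S • i ≠ i := by
  intro h
  have hcard := Fermat.Agent.Lib.Gamma0Count.card_fixedBy_S (N := M)
  rw [Igusa.nuTwo_eq_zero hneat] at hcard
  rcases Nat.card_eq_zero.mp hcard with hemp | hinf
  · exact hemp.elim ⟨i, h⟩
  · exact hinf.not_finite inferInstance

/-- every place over `j = 0` has ramification index `3`.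
PROOF: `ord_eq_prime_of_family` with `EmbedFN.f0`; `(ST)^3 = -1` acts trivially
(`Lib.Count.permST_cube` or `ST_cube`, `neg_one_smul_coset`). -/
theorem ord_jF_of_neat (hneat : 4 ∣ M ∨ 9 ∣ M) (Q : Place Kbar (FN M)) (h : 0 < Q.ord (jF M)) :
    Q.ord (jF M) = 3 := by
  obtain ⟨fam⟩ := EmbedFN.f0 M (fun g h => mem_Gamma0_of_kleinJ_mulH_smul_eq g h)
  have hn := finrank_jF_of_family M fam
  have := finiteDimensional_jF M
  have hfd : FiniteDimensional Kbar⟮jF M - algebraMap Kbar (FN M) 0⟯ (FN M) := by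
    rw [adjoin_sub_const_eq]; infer_instance
  have hx : jF M - algebraMap Kbar (FN M) 0 = jF M := by rw [map_zero, sub_zero]
  have h3 := ord_eq_prime_of_family (jF M - algebraMap Kbar (FN M) 0)
    (transcendental_sub_const (transcendental_jF M) 0) (by rw [adjoin_sub_const_eq, hn]) 3
    Nat.prime_three _ fam
    (fun i => by rw [Lib.Count.ST_cube]; exact Lib.Count.neg_one_smul_coset M i)
    (ST_smul_ne M hneat) Q (by rwa [hx])
  rw [hx] at h3
  exact_mod_cast h3

/-- every place over `j = 1728` has ramification index `2`. -/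
theorem ord_jF_sub_1728_of_neat (hneat : 4 ∣ M ∨ 9 ∣ M) (Q : Place Kbar (FN M))
    (h : 0 < Q.ord (jF M - 1728)) : Q.ord (jF M - 1728) = 2 := by
  obtain ⟨fam⟩ := EmbedFN.f1728 M (fun g h => mem_Gamma0_of_kleinJ_mulH_smul_eq g h)
  have hn := finrank_jF_of_family M fam
  have := finiteDimensional_jF M
  have hfd : FiniteDimensional Kbar⟮jF M - algebraMap Kbar (FN M) 1728⟯ (FN M) := by
    rw [adjoin_sub_const_eq]; infer_instance
  have hx : jF M - algebraMap Kbar (FN M) 1728 = jF M - 1728 := by rw [map_ofNat]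
  have h3 := ord_eq_prime_of_family (jF M - algebraMap Kbar (FN M) 1728)
    (transcendental_sub_const (transcendental_jF M) 1728) (by rw [adjoin_sub_const_eq, hn]) 2
    Nat.prime_two _ fam
    (fun i => by rw [Lib.Count.S_sq]; exact Lib.Count.neg_one_smul_coset M i)
    (S_smul_ne M hneat) Q (by rwa [hx])
  rw [hx] at h3
  exact_mod_cast h3

end Fermat.Agent.S36R.KS
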