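import Fermat.Agent.S36R.KS.Kappa
import Fermat.Agent.S36R.KS.Ram
import Fermat.Agent.GAL.RED.CurveBasic

/-!
# S36R / R-KS, file 6b: characteristic zero.  `ord_Q κ(u) = 6 (ord_Q (u - u(Q)) - 1)`

at the non cuspidal places `Q` of `FN M`, `M` neat (`4 ∣ M ∨ 9 ∣ M`: no elliptic points).
-/

set_option autoImplicit false

noncomputable section

namespace Fermat.Agent.S36R.KS

open ModularCurve AlgebraicCurve IntermediateField Fermat.Agent.S24 Fermat.Agent.GAL

/-- `du/dx ≠ 0` if `u` is not constant (characteristic zero). -/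
theorem Ord0_ne_zero_of_deriv_eq {k F L : Type*} [Field k] [Field F] [Algebra k F] [Field L]
    [Algebra k L] [IsAlgClosed k] [CharZero k] (φ : F →ₐ[k] L) (d : Derivation k L L) (x : F)
    (hxt : Transcendental k x) [FiniteDimensional k⟮x⟯ F] (hx : d (φ x) ≠ 0) {u g : F}
    (h : d (φ u) = φ g * d (φ x)) (v : Place k F) (c : k)
    (hu : 0 < v.ord (u - algebraMap k F c)) : g ≠ 0 := by
  have : CharZero k⟮x⟯ := charZero_of_injective_algebraMap (algebraMap k k⟮x⟯).injective
  have hsep : Algebra.IsSeparable k⟮x⟯ F := Algebra.IsAlgebraic.isSeparable_of_perfectField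
  have hD := D_eq_of_deriv_eq φ d x hx h
  have htr := S24.Differential.trdeg_eq_one x hxt
  have hut : Transcendental k (u - algebraMap k F c) :=
    S24.Differential.transcendental_of_ord_ne_zero v hu.ne'
  have hDu : KaehlerDifferential.D k F u ≠ 0 := by
    have h3 := S24.Differential.D_ne_zero _ hut
      (S24.Differential.isAlgebraic_adjoin_of_transcendental htr hut)
    rwa [map_sub, Derivation.map_algebraMap, sub_zero] at h3
  rintro rfl
  exact hDu (by rw [hD, zero_smul])

/-- `ord (x - a) = 0` if `x(v) = c ≠ a`. -/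
theorem Ord0_ord_sub_eq_zero {k F : Type*} [Field k] [Field F] [Algebra k F] (v : Place k F)
    (x : F) {c a : k} (hc : 0 < v.ord (x - algebraMap k F c)) (hac : a ≠ c) :
    v.ord (x - algebraMap k F a) = 0 := by
  have h0 : algebraMap k F (c - a) ≠ 0 := (map_ne_zero _).2 (sub_ne_zero.2 hac.symm)
  have h1 : x - algebraMap k F c ≠ 0 := by
    intro h
    rw [h, Place.ord_zero] at hc
    exact lt_irrefl _ hc
  have h2 : x - algebraMap k F a = algebraMap k F (c - a) + (x - algebraMap k F c) := by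
    rw [map_sub]
    ring
  rw [h2, RED.ord_add_eq_of_lt v h0 h1 (by rw [RED.ord_algebraMap]; exact hc),
    RED.ord_algebraMap]

variable (M : ℕ) [NeZero M]

/-- **(K3)** `ord_Q κ(u) = 6 (ord_Q (u - c) - 1)` at a non cuspidal place, `c = u(Q)`.
PROOF: `c_j := j(Q)` (`S24.exists_const_of_mem (jF M) ..`; `j` is not constant).  By
`ord_of_deriv_eq` (`φ := (modularFunctionFieldBar M).val`, `d := thetaAlg`, `x := jF M`,
`theta_jqModC_ne_zero`): `ord g = ord (u - c) - e`, `e := ord (j - c_j)`.  Three cases: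
`c_j = 0`: `e = 3`, `ord j = 3`, `ord (j - 1728) = 0`; `c_j = 1728`: `e = 2`, `ord j = 0`,
`ord (j - 1728) = 2`; otherwise `e = 1` and `ord j = ord (j - 1728) = 0`.  In all cases
`6 ord g + 4 ord j + 3 ord (j - 1728) = 6 ord (u - c) - 6`. -/
theorem ord_kap (hneat : 4 ∣ M ∨ 9 ∣ M) (u g : FN M)
    (hg : theta (u : LaurentSeries Kbar) = (g : LaurentSeries Kbar) * theta (jqModC Kbar))
    (Q : Place Kbar (FN M)) (hQ : jF M ∈ Q.toValuationSubring) (c : Kbar)
    (hc : 0 < Q.ord (u - algebraMap Kbar (FN M) c)) :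
    Q.ord (kap (jF M) g) = 6 * (Q.ord (u - algebraMap Kbar (FN M) c) - 1) := by
  have hjt := transcendental_jF M
  have := finiteDimensional_jF M
  have hjc : ((jF M : FN M) : LaurentSeries Kbar) = jqModC Kbar := by
    show coeffEmb Kbar jq = _
    rw [← jqModC_rat, coeffEmb, coeffMap_jqModC]
  obtain ⟨cj, hcj⟩ := exists_const_of_mem (jF M) hjt Q (jF M) hQ
  have hne : ∀ a : Kbar, jF M - algebraMap Kbar (FN M) a ≠ 0 := by
    intro a h
    rw [sub_eq_zero] at h
    exact hjt (h ▸ isAlgebraic_algebraMap a)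
  have hcj' : 0 < Q.ord (jF M - algebraMap Kbar (FN M) cj) := by
    rcases hcj with h | h
    · exact absurd (sub_eq_zero.2 h) (hne cj)
    · exact h
  have hx : (thetaAlg (R := Kbar)) ((modularFunctionFieldBar M).val (jF M)) ≠ 0 := by
    show theta ((jF M : FN M) : LaurentSeries Kbar) ≠ 0
    rw [hjc]
    exact theta_jqModC_ne_zero Kbar
  have hh : (thetaAlg (R := Kbar)) ((modularFunctionFieldBar M).val u) =
      (modularFunctionFieldBar M).val g *
        (thetaAlg (R := Kbar)) ((modularFunctionFieldBar M).val (jF M)) := by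
    show theta (u : LaurentSeries Kbar) =
      (g : LaurentSeries Kbar) * theta ((jF M : FN M) : LaurentSeries Kbar)
    rw [hjc]
    exact hg
  have hord := ord_of_deriv_eq (modularFunctionFieldBar M).val (thetaAlg (R := Kbar)) (jF M) hjt
    hx hh Q c cj hc hcj'
  have hg0 : g ≠ 0 := Ord0_ne_zero_of_deriv_eq (modularFunctionFieldBar M).val
    (thetaAlg (R := Kbar)) (jF M) hjt hx hh Q c hc
  have e0 : jF M = jF M - algebraMap Kbar (FN M) 0 := by rw [map_zero, sub_zero]
  have e1 : jF M - 1728 = jF M - algebraMap Kbar (FN M) 1728 := by rw [map_ofNat]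
  have hj0 : jF M ≠ 0 := by rw [e0]; exact hne 0
  have hj1 : jF M - 1728 ≠ 0 := by rw [e1]; exact hne 1728
  have hk : Q.ord (kap (jF M) g) = 6 * Q.ord g + 4 * Q.ord (jF M) + 3 * Q.ord (jF M - 1728) := by
    rw [kap, Q.ord_mul (mul_ne_zero (pow_ne_zero _ hg0) (pow_ne_zero _ hj0)) (pow_ne_zero _ hj1),
      Q.ord_mul (pow_ne_zero _ hg0) (pow_ne_zero _ hj0), RED.ord_pow, RED.ord_pow, RED.ord_pow]
    push_cast
    ring
  rw [hk, hord]
  by_cases h0 : cj = 0
  · subst h0
    rw [← e0] at hcj' ⊢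
    have h3 := ord_jF_of_neat M hneat Q hcj'
    have h4 : Q.ord (jF M - 1728) = 0 := by
      rw [e1]
      refine Ord0_ord_sub_eq_zero Q (jF M) (c := 0) ?_ (by norm_num)
      rw [← e0]
      exact hcj'
    rw [h3, h4]
    ring
  · by_cases h1 : cj = 1728
    · subst h1
      rw [← e1] at hcj' ⊢
      have h3 := ord_jF_sub_1728_of_neat M hneat Q hcj'
      have h4 : Q.ord (jF M) = 0 := by
        rw [e0]
        refine Ord0_ord_sub_eq_zero Q (jF M) (c := 1728) ?_ (by norm_num)
        rw [← e1]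
        exact hcj'
      rw [h3, h4]
      ring
    · have h3 := ord_jF_sub_generic M cj h0 h1 Q hcj'
      have h4 : Q.ord (jF M) = 0 := by
        rw [e0]
        exact Ord0_ord_sub_eq_zero Q (jF M) hcj' (Ne.symm h0)
      have h5 : Q.ord (jF M - 1728) = 0 := by
        rw [e1]
        exact Ord0_ord_sub_eq_zero Q (jF M) hcj' (Ne.symm h1)
      rw [h3, h4, h5]
      ring

end Fermat.Agent.S36R.KS
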