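import Fermat.Agent.S24.Zeros
import Fermat.Agent.S24.PlaceDedekind
import Fermat.Agent.S24.LocalCount

/-!
# S36R / R-KS: places dominating a subring of a function field (any characteristic)

* `exists_place_of_valuationSubring_sep`: copy of `S36R.exists_place_of_valuationSubring`
  (`K0/PlaceOfVal.lean`) with `[Algebra.IsSeparable k⟮x⟯ F]` instead of characteristic zero;
* `exists_place_dominating`: `S ⊆ F` a subring containing `k` and `x`, `I` a proper nonzero ideal of
  `S`: there is a place `P` with `S ⊆ O_P`, `I ⊆ m_P`.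
-/

set_option autoImplicit false

open IsDedekindDomain AlgebraicCurve IntermediateField

open IntermediateField.algebraAdjoinAdjoin

namespace Fermat.Agent.S36R.KS

variable {k F : Type*} [Field k] [Field F] [Algebra k F]

theorem exists_place_of_valuationSubring_sep (x : F) (hx : Transcendental k x)
    [FiniteDimensional k⟮x⟯ F] [Algebra.IsSeparable k⟮x⟯ F] (V : ValuationSubring F)
    (hk : ∀ a : k, algebraMap k F a ∈ V)
    (hxV : x ∈ V) (hV : V ≠ ⊤) : ∃ P : Place k F, P.toValuationSubring = V := by
  let A := Algebra.adjoin k {x}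
  let e : Polynomial k ≃ₐ[k] A := Polynomial.algEquivOfTranscendental k x hx
  have hPID : IsPrincipalIdealRing A :=
    IsPrincipalIdealRing.of_surjective e.toRingEquiv.toRingHom e.surjective
  have : IsDedekindDomain (integralClosure A F) := integralClosure.isDedekindDomain A k⟮x⟯ F
  have : IsFractionRing (integralClosure A F) F :=
    integralClosure.isFractionRing_of_finite_extension k⟮x⟯ F
  have hRV : ∀ b : integralClosure A F, algebraMap (integralClosure A F) F b ∈ V := fun b =>
    S24.integral_mem_valuationSubring V A (S24.adjoin_le_valuationSubring V hk x hxV) b.2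
  let φ : integralClosure A F →+* V :=
    (algebraMap (integralClosure A F) F).codRestrict V.toSubring hRV
  have hφ : ∀ b, ((φ b : V) : F) = algebraMap (integralClosure A F) F b := fun b => rfl
  -- elements outside the centre are units of `V`
  have hunit : ∀ s : integralClosure A F, s ∉ (IsLocalRing.maximalIdeal V).comap φ →
      (algebraMap (integralClosure A F) F s)⁻¹ ∈ V := by
    intro s hs
    rw [Ideal.mem_comap, IsLocalRing.mem_maximalIdeal, mem_nonunits_iff, not_not] at hs
    obtain ⟨u, hu⟩ := hs
    have hu' : ((u : V) : F) = algebraMap (integralClosure A F) F s := by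
      rw [hu]; rfl
    have hinv : (((u⁻¹ : Vˣ) : V) : F) = (algebraMap (integralClosure A F) F s)⁻¹ := by
      have h : ((u : V) : F) * (((u⁻¹ : Vˣ) : V) : F) = 1 := congrArg Subtype.val u.mul_inv
      rw [← hu']
      exact eq_inv_of_mul_eq_one_right h
    rw [← hinv]
    exact ((u⁻¹ : Vˣ) : V).2
  let w : HeightOneSpectrum (integralClosure A F) :=
    { asIdeal := (IsLocalRing.maximalIdeal V).comap φ
      isPrime := Ideal.comap_isPrime _ _
      ne_bot := by
        intro hbot
        apply hV
        refine SetLike.ext fun z => ⟨fun _ => ValuationSubring.mem_top z, fun _ => ?_⟩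
        obtain ⟨a, s, hs, rfl⟩ := IsFractionRing.div_surjective (A := integralClosure A F) z
        have hs0 : s ≠ 0 := nonZeroDivisors.ne_zero hs
        have hsnot : s ∉ (IsLocalRing.maximalIdeal V).comap φ := by
          rw [hbot]; simpa using hs0
        rw [div_eq_mul_inv]
        exact mul_mem (hRV a) (hunit s hsnot) }
  refine ⟨Place.ofHeightOneSpectrum (K := k) w, ?_⟩
  rw [Place.ofHeightOneSpectrum_toValuationSubring,
    ← HeightOneSpectrum.valuationSubringAtPrime_eq_valuationSubring]
  refine ValuationSubring.eq_of_le_of_ne_top _ ?_ hV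
  rw [HeightOneSpectrum.valuationSubringAtPrime_eq_valuationSubring]
  intro z hz
  rw [Valuation.mem_valuationSubring_iff] at hz
  obtain ⟨n, d, hnd⟩ := HeightOneSpectrum.exists_primeCompl_mul_eq_of_integer _ z hz
  have hd : (d : integralClosure A F) ∉ w.asIdeal := d.2
  have hd0 : algebraMap (integralClosure A F) F d ≠ 0 := by
    intro h0
    apply hd
    have : (d : integralClosure A F) = 0 := (IsFractionRing.injective _ F) (by rw [h0, map_zero])
    rw [this]
    exact zero_mem _
  have hz' : z = algebraMap (integralClosure A F) F n *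
      (algebraMap (integralClosure A F) F d)⁻¹ := by
    rw [← hnd, mul_assoc, mul_inv_cancel₀ hd0, mul_one]
  rw [hz']
  exact mul_mem (hRV n) (hunit d hd)

/-- a place dominating a proper nonzero ideal of a subring. -/
theorem exists_place_dominating (x : F) (hx : Transcendental k x)
    [FiniteDimensional k⟮x⟯ F] [Algebra.IsSeparable k⟮x⟯ F] (S : Subring F)
    (hk : ∀ a : k, algebraMap k F a ∈ S) (hxS : x ∈ S) (I : Ideal S) (hI : I ≠ ⊤)
    (hne : ∃ y ∈ I, y ≠ 0) :
    ∃ P : Place k F, (∀ s ∈ S, s ∈ P.toValuationSubring) ∧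
      ∀ y ∈ I, (y : F) ∈ P.toValuationSubring.nonunits := by
  obtain ⟨V, hSV, hIV⟩ := Ideal.image_subset_nonunits_valuationSubring I hI
  have hV : V ≠ ⊤ := by
    rintro rfl
    obtain ⟨y, hy, hy0⟩ := hne
    have h1 : (y : F) ∈ (⊤ : ValuationSubring F).nonunits := hIV ⟨y, hy, rfl⟩
    rw [ValuationSubring.mem_nonunits_iff_exists_mem_maximalIdeal] at h1
    obtain ⟨hmem, h2⟩ := h1
    rw [IsLocalRing.mem_maximalIdeal, mem_nonunits_iff] at h2
    apply h2
    have hy0' : (y : F) ≠ 0 := fun h => hy0 (Subtype.ext h)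
    exact ⟨⟨⟨y, hmem⟩, ⟨(y : F)⁻¹, ValuationSubring.mem_top _⟩,
      Subtype.ext (mul_inv_cancel₀ hy0'), Subtype.ext (inv_mul_cancel₀ hy0')⟩, rfl⟩
  obtain ⟨P, hP⟩ := exists_place_of_valuationSubring_sep x hx V (fun a => hSV (hk a)) (hSV hxS) hV
  refine ⟨P, fun s hs => ?_, fun y hy => ?_⟩
  · rw [hP]; exact hSV hs
  · rw [hP]; exact hIV ⟨y, hy, rfl⟩

end Fermat.Agent.S36R.KS
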