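import Fermat.Agent.S36R.Unit.Abs
import Fermat.Agent.S36R.AA.Branch

/-!
# S36 route R, block R-KS: principality of a vertical component at the closed points of a chart (abstract form)

`R` a chart, `W i` a vertical valuation ring with residue map `ρ : W i → Fb` such that `ρ R` is the full integral
closure of `k[cb]` (`AA.IsFullImage`), `ψ` a function cutting out the component `i` with exponent `e`
(`Unit.IsCut`).

* `exists_locGen_of_test` : if for every place `P` of `Fb` with `cb ∈ O_P` there are `b, u : R`, `b` in the centre of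
  `W i`, `u ψ = b ^ e`, `ρ u` a unit at `P`, then the centre of `W i` is locally principal at every closed point of
  the component;
* `prin_of_locGen` : `Unit.LocGen` ⟹ the field `prin` of `Lvl.PointOK`.
-/

set_option autoImplicit false

namespace Fermat.Agent.S36R.KS

open AlgebraicCurve IntermediateField Fermat.Agent.S36R.Inj

variable {O : Type*} [CommRing O] {F : Type*} [Field F] [Algebra O F] {ι : Type*}
variable {π : O} {W : ι → ValuationSubring F} {c : F} {R : Subring F} {i : ι}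

omit [CommRing O] [Algebra O F] in
/-- `Unit.LocGen` ⟹ the form of `Lvl.PointOK.prin`. -/
theorem prin_of_locGen (𝔫 : Ideal R) [𝔫.IsPrime] (hRW : ∀ z ∈ R, z ∈ W i)
    (hne : ∃ x : R, (x : F) ≠ 0 ∧ (W i).valuation (x : F) < 1) {b : R}
    (hb : Unit.LocGen W 𝔫 i b) :
    ∃ b' ∈ locAt 𝔫, b' ≠ 0 ∧ (W i).valuation b' < 1 ∧
      ∀ z ∈ locAt 𝔫, (W i).valuation z < 1 → z / b' ∈ locAt 𝔫 := by
  have hn0 : ∀ s : R, s ∉ 𝔫 → (s : F) ≠ 0 := by
    intro s hs h0
    apply hs
    have : s = 0 := Subtype.ext h0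
    rw [this]; exact zero_mem _
  have hb0 : (b : F) ≠ 0 := by
    obtain ⟨x, hx0, hx⟩ := hne
    obtain ⟨s, y, hs, hsx⟩ := hb.2 x hx
    intro h0
    have h1 : (s : F) * (x : F) = (b : F) * (y : F) := by
      have := congrArg (Subtype.val) hsx
      simpa using this
    rw [h0, zero_mul] at h1
    exact mul_ne_zero (hn0 s hs) hx0 h1
  refine ⟨b, le_locAt 𝔫 b.2, hb0, hb.1, ?_⟩
  rintro z ⟨s, hs, hsz⟩ hz
  have hv : (W i).valuation ((⟨_, hsz⟩ : R) : F) < 1 := by
    show (W i).valuation ((s : F) * z) < 1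
    rw [map_mul, mul_comm]
    exact mul_lt_one_of_lt_of_le hz ((ValuationSubring.valuation_le_one_iff _ _).mpr (hRW _ s.2))
  obtain ⟨s', y, hs', hy⟩ := hb.2 ⟨_, hsz⟩ hv
  have h1 : (s' : F) * ((s : F) * z) = (b : F) * (y : F) := by
    have := congrArg (Subtype.val) hy
    simpa using this
  refine ⟨s' * s, Ideal.IsPrime.mul_notMem ‹_› hs' hs, ?_⟩
  have h2 : ((s' * s : R) : F) * (z / (b : F)) = y := by
    push_cast
    field_simp
    linear_combination h1
  rw [h2]
  exact y.2

variable {k Fb : Type*} [Field k] [Field Fb] [Algebra k Fb] {ρ : W i →+* Fb} {cb : Fb}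
  [IsAlgClosed k] [FiniteDimensional k⟮cb⟯ Fb] [Algebra.IsSeparable k⟮cb⟯ Fb]

/-- **Principality from the unit test at the places of the component.** -/
theorem exists_locGen_of_test (hR : Chart π W c R) {ψ : F} {e : ℕ} (hψ : Unit.IsCut π W R ψ i e)
    (h : AA.IsFullImage k R (W i) ρ cb) (hcb : Transcendental k cb)
    (htest : ∀ P : Place k Fb, cb ∈ P.toValuationSubring →
      ∃ b u : R, (W i).valuation (b : F) < 1 ∧ (u : F) * ψ = (b : F) ^ e ∧
        h.ρR u ∉ P.toValuationSubring.nonunits)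
    (𝔫 : Ideal R) (h𝔫 : 𝔫.IsMaximal) (hthru : Thru W 𝔫 i) : ∃ b : R, Unit.LocGen W 𝔫 i b := by
  obtain ⟨P, hP, hmem, -⟩ := AA.exists_branch h hcb 𝔫 h𝔫 hthru
  obtain ⟨b, u, hb, hu, huP⟩ := htest P hP
  exact ⟨b, Unit.locGen_of_unit hR hψ.pos (fun z hz => hψ.pow_div_mem hR z.2 hz) 𝔫 b u hb hu hψ.ne
    (fun hun => huP ((hmem u).1 hun))⟩

end Fermat.Agent.S36R.KS
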